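/-
S36lib / Norm / RamOrd  (helper7)

VALUATION OF A NORM in the setting of `RamNormRed` (a `RamDatum` with `∑ e_i f_i = [F : F']`),
for a DISCRETE base place (`v' x ∈ ⟨v' π⟩` for all `x ≠ 0`):

  `v_i u = v_i (ϖ i) ^ n i` for all `i`   ⟹   `v' (N_{F/F'} u) = v' π ^ (∑ i, f_i * n i)`.

(`RamDatum.val_norm`; in additive notation `ord_π (N u) = ∑ f_i · ord_{ϖ_i} u`.)  Also
`RamDatum.val_norm_eq_one` (a unit at all the places has a unit norm).
-/
import Mathlib
import Fermat.Agent.S36lib.Norm.RamNormRed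

set_option autoImplicit false
set_option linter.unusedSectionVars false

noncomputable section

namespace Fermat.Agent.S36lib.Norm

section Ram

variable {F' F : Type*} [Field F'] [Field F] [Algebra F' F]
variable {κ' : Type*} [Field κ']
variable {ι : Type*} [Fintype ι] [DecidableEq ι]
variable {κ : ι → Type*} [∀ i, Field (κ i)] [∀ i, Algebra κ' (κ i)]
variable {P' : Place F' κ'} {π : F'} {P : ∀ i, Place F (κ i)} {ϖ : ι → F} {e : ι → ℕ}

/-- an element which is a unit at all the places `P i` has a unit norm -/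
theorem RamDatum.val_norm_eq_one [FiniteDimensional F' F] [∀ i, Module.Finite κ' (κ i)]
    (D : RamDatum P' π P ϖ e)
    (hdeg : ∑ i, e i * Module.finrank κ' (κ i) = Module.finrank F' F)
    {w : F} (hw : ∀ i, (P i).O.valuation w = 1) :
    P'.O.valuation (Algebra.norm F' w) = 1 := by
  have hne : Nonempty ι := by
    by_contra h
    rw [not_nonempty_iff] at h
    have : Module.finrank F' F = 0 := by rw [← hdeg]; simp
    exact absurd this (ne_of_gt Module.finrank_pos)
  obtain ⟨i₀⟩ := hne
  have hw0 : w ≠ 0 := by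
    rintro rfl
    have := hw i₀
    rw [map_zero] at this
    exact zero_ne_one this
  have h1 := (D.redF_norm hdeg (u := w) fun i =>
    ((P i).O.valuation_le_one_iff _).1 (hw i).le).1
  have h2 := (D.redF_norm hdeg (u := w⁻¹) fun i =>
    ((P i).O.valuation_le_one_iff _).1 (by rw [map_inv₀, hw i, inv_one])).1
  rw [← P'.O.valuation_le_one_iff] at h1 h2
  have hmul : P'.O.valuation (Algebra.norm F' w) * P'.O.valuation (Algebra.norm F' w⁻¹) = 1 := by
    rw [← map_mul, ← map_mul, mul_inv_cancel₀ hw0, map_one, map_one]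
  refine le_antisymm h1 (not_lt.1 fun hlt => ?_)
  have : P'.O.valuation (Algebra.norm F' w) * P'.O.valuation (Algebra.norm F' w⁻¹) < 1 :=
    lt_of_le_of_lt (mul_le_of_le_one_right' h2) hlt
  rw [hmul] at this
  exact lt_irrefl _ this

variable {J : ι → Type*} [∀ i, Fintype (J i)] {β : ∀ i, J i → κ i} {t : ι → F}
  {B : ∀ i, J i → F}

namespace IsRamFrame

variable (D : RamDatum P' π P ϖ e) (hf : IsRamFrame π P ϖ β t B)
include D hf

/-- a ramified frame of bases with `∑ e_i f_i = [F : F']` is a basis -/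
theorem exists_basis [FiniteDimensional F' F] (hβ : ∀ j, LinearIndependent κ' (β j))
    (hcard : Fintype.card (Σ i, J i × Fin (e i)) = Module.finrank F' F) :
    ∃ Bs : Module.Basis (Σ i, J i × Fin (e i)) F' F, ∀ I, Bs I = ramFrame e t B I := by
  have hli := hf.linearIndependent D hβ
  have hnonempty : Nonempty (Σ i, J i × Fin (e i)) := by
    rw [← Fintype.card_pos_iff, hcard]
    exact Module.finrank_pos
  exact ⟨basisOfLinearIndependentOfCardEqFinrank hli hcard, fun I => by
    rw [coe_basisOfLinearIndependentOfCardEqFinrank]⟩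

/-- **Column divisibility**: if `x` maps the frame into `R` and the frame elements of `S` into
`π R`, then `π ^ #S` divides `N x`. -/
theorem val_norm_le [FiniteDimensional F' F] [DecidableEq (Σ i, J i × Fin (e i))]
    (hβ : ∀ j, LinearIndependent κ' (β j))
    (Bs : Module.Basis (Σ i, J i × Fin (e i)) F' F) (hBs : ∀ I, Bs I = ramFrame e t B I)
    (x : F) (S : Finset (Σ i, J i × Fin (e i)))
    (hx : ∀ Jc j, (P j).O.valuation (x * ramFrame e t B Jc) ≤ 1)
    (hS : ∀ Jc ∈ S, ∀ j, (P j).O.valuation (x * ramFrame e t B Jc) ≤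
      (P j).O.valuation (algebraMap F' F π)) :
    P'.O.valuation (Algebra.norm F' x) ≤ P'.O.valuation π ^ S.card := by
  set M := Algebra.leftMulMatrix Bs x with hMdef
  have hexp : ∀ Jc, ∑ I, M I Jc • ramFrame e t B I = x * ramFrame e t B Jc := by
    intro Jc
    have := Bs.sum_repr (x * Bs Jc)
    simp only [hBs] at this
    rw [← this]
    refine Finset.sum_congr rfl fun I _ => ?_
    rw [hMdef, Algebra.leftMulMatrix_eq_repr_mul, hBs]
  set δ : (Σ i, J i × Fin (e i)) → F' := fun Jc => if Jc ∈ S then π else 1 with hδ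
  have hδ0 : ∀ Jc, δ Jc ≠ 0 := by
    intro Jc
    by_cases h : Jc ∈ S
    · simp only [hδ, if_pos h]; exact D.pi_ne
    · simp only [hδ, if_neg h]; exact one_ne_zero
  set M' : Matrix (Σ i, J i × Fin (e i)) (Σ i, J i × Fin (e i)) F' :=
    Matrix.of fun I Jc => M I Jc / δ Jc with hM'def
  have hMM' : M = M' * Matrix.diagonal δ := by
    ext I Jc
    rw [Matrix.mul_diagonal, hM'def, Matrix.of_apply, div_mul_cancel₀ _ (hδ0 Jc)]
  have hM' : ∀ I Jc, M' I Jc ∈ P'.O := by
    intro I Jc
    rw [← P'.O.valuation_le_one_iff]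
    refine hf.coeff_le_one D hβ (fun I => M I Jc / δ Jc) (fun j => ?_) I
    have hsum : ∑ I, (M I Jc / δ Jc) • ramFrame e t B I =
        (δ Jc)⁻¹ • (x * ramFrame e t B Jc) := by
      rw [← hexp, Finset.smul_sum]
      refine Finset.sum_congr rfl fun I _ => ?_
      rw [smul_smul, div_eq_inv_mul]
    rw [hsum, Algebra.smul_def, map_mul, map_inv₀, map_inv₀]
    by_cases h : Jc ∈ S
    · simp only [hδ, if_pos h]
      rw [inv_mul_le_iff₀ (D.val_pi_pos j), mul_one]
      exact hS Jc h j
    · simp only [hδ, if_neg h]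
      rw [map_one, map_one, inv_one, one_mul]
      exact hx Jc j
  have hdet : M.det = M'.det * π ^ S.card := by
    rw [hMM', Matrix.det_mul, Matrix.det_diagonal]
    congr 1
    simp only [hδ]
    rw [Finset.prod_ite_mem, Finset.univ_inter, Finset.prod_const]
  rw [Algebra.norm_eq_matrix_det Bs x, hdet, map_mul, map_pow]
  exact mul_le_of_le_one_left' ((P'.O.valuation_le_one_iff _).2
    (P'.det_mem_and_redF_det M' hM').1)

end IsRamFrame

/-- `∏ a ^ m i = a ^ ∑ m i` in a group with zero -/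
theorem prod_zpow_eq_zpow_sum {G : Type*} [CommGroupWithZero G] {a : G} (ha : a ≠ 0)
    {ι' : Type*} (s : Finset ι') (m : ι' → ℤ) : ∏ i ∈ s, a ^ m i = a ^ ∑ i ∈ s, m i := by
  classical
  induction s using Finset.induction_on with
  | empty => simp
  | insert k s hk ih => rw [Finset.prod_insert hk, Finset.sum_insert hk, ih, zpow_add₀ ha]

/-- the norm commutes with integer powers -/
theorem norm_zpow [FiniteDimensional F' F] {x : F} (hx : x ≠ 0) (m : ℤ) :
    Algebra.norm F' (x ^ m) = Algebra.norm F' x ^ m := by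
  have hinv : ∀ y : F, y ≠ 0 → Algebra.norm F' y⁻¹ = (Algebra.norm F' y)⁻¹ := by
    intro y hy
    refine eq_inv_of_mul_eq_one_left ?_
    rw [← map_mul, inv_mul_cancel₀ hy, map_one]
  cases m with
  | ofNat n => simp
  | negSucc n =>
    rw [zpow_negSucc, zpow_negSucc, hinv _ (pow_ne_zero _ hx), map_pow]

/-- **VALUATION OF A NORM.** -/
theorem RamDatum.val_norm [FiniteDimensional F' F] [∀ i, Module.Finite κ' (κ i)]
    (D : RamDatum P' π P ϖ e)
    (hdeg : ∑ i, e i * Module.finrank κ' (κ i) = Module.finrank F' F)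
    (hπgen : ∀ x : F', x ≠ 0 → ∃ n : ℤ, P'.O.valuation x = P'.O.valuation π ^ n)
    {u : F} (n : ι → ℤ) (hu : ∀ i, (P i).O.valuation u = (P i).O.valuation (ϖ i) ^ n i) :
    P'.O.valuation (Algebra.norm F' u) =
      P'.O.valuation π ^ (∑ i, (Module.finrank κ' (κ i) : ℤ) * n i) := by
  classical
  set Bas := fun i => Module.Free.chooseBasis κ' (κ i) with hBas
  obtain ⟨t, B, hf⟩ := D.exists_isRamFrame (fun i => ⇑(Bas i))
  have hβ : ∀ j, LinearIndependent κ' (⇑(Bas j)) := fun j => (Bas j).linearIndependent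
  have hcard : Fintype.card (Σ i, Module.Free.ChooseBasisIndex κ' (κ i) × Fin (e i)) =
      Module.finrank F' F := by
    rw [Fintype.card_sigma, ← hdeg]
    refine Finset.sum_congr rfl fun i _ => ?_
    rw [Fintype.card_prod, Fintype.card_fin, ← Module.finrank_eq_card_chooseBasisIndex, mul_comm]
  obtain ⟨Bs, hBs⟩ := hf.exists_basis D hβ hcard
  have hg'pos : 0 < P'.O.valuation π := zero_lt_iff.2 ((Valuation.ne_zero_iff _).2 D.pi_ne)
  have hg'lt : P'.O.valuation π < 1 := D.pi_lt
  have hg'ne : P'.O.valuation π ≠ 0 := ne_of_gt hg'pos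
  have ht_le : ∀ i j, (P j).O.valuation (t i) ≤ 1 := by
    intro i j
    by_cases hij : j = i
    · subst hij
      rw [hf.t_self j]
      exact (D.unif_lt j).le
    · exact (hf.t_other i j hij).le
  -- Step A : `π ^ f_i` divides `N (t i)`
  have hA : ∀ i, P'.O.valuation (Algebra.norm F' (t i)) ≤
      P'.O.valuation π ^ Module.finrank κ' (κ i) := by
    intro i
    have hlast : e i - 1 < e i := Nat.sub_lt (Nat.pos_of_ne_zero (D.e_ne_zero i)) one_pos
    set S : Finset (Σ i, Module.Free.ChooseBasisIndex κ' (κ i) × Fin (e i)) :=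
      Finset.univ.image (fun a : Module.Free.ChooseBasisIndex κ' (κ i) =>
        (⟨i, a, ⟨e i - 1, hlast⟩⟩ : Σ i, Module.Free.ChooseBasisIndex κ' (κ i) × Fin (e i)))
      with hS
    have hScard : S.card = Module.finrank κ' (κ i) := by
      rw [hS, Finset.card_image_of_injective, Finset.card_univ,
        ← Module.finrank_eq_card_chooseBasisIndex]
      intro a a' h
      simpa using h
    rw [← hScard]
    refine hf.val_norm_le D hβ Bs hBs (t i) S (fun Jc j => ?_) (fun Jc hJc j => ?_)
    · rw [map_mul]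
      exact mul_le_one' (ht_le i j) (hf.val_ramFrame_le_one D Jc j)
    · obtain ⟨a, -, rfl⟩ := Finset.mem_image.1 hJc
      by_cases hij : i = j
      · subst hij
        show (P i).O.valuation (t i * (B i a * t i ^ (e i - 1))) ≤ _
        rw [map_mul, map_mul, map_pow, hf.t_self i, D.ram i]
        calc (P i).O.valuation (ϖ i) * ((P i).O.valuation (B i a) *
              (P i).O.valuation (ϖ i) ^ (e i - 1))
            ≤ (P i).O.valuation (ϖ i) * (1 * (P i).O.valuation (ϖ i) ^ (e i - 1)) :=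
              mul_le_mul' le_rfl (mul_le_mul' (hf.val_B_le D i a) le_rfl)
          _ = (P i).O.valuation (ϖ i) ^ e i := by
              rw [one_mul, ← pow_succ', Nat.sub_add_cancel (Nat.pos_of_ne_zero (D.e_ne_zero i))]
      · rw [map_mul, hf.t_other i j (Ne.symm hij), one_mul]
        exact (hf.val_ramFrame_other D hij a _).le
  -- Step B : the exponents `k i`
  have hNt0 : ∀ i, Algebra.norm F' (t i) ≠ 0 := fun i =>
    Algebra.norm_ne_zero_iff.2 (hf.t_ne_zero D i)
  choose k hk using fun i => hπgen _ (hNt0 i)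
  have hkf : ∀ i, (Module.finrank κ' (κ i) : ℤ) ≤ k i := by
    intro i
    have := hA i
    rw [hk i, ← zpow_natCast, zpow_le_zpow_iff_right_of_lt_one₀ hg'pos hg'lt] at this
    exact this
  -- Step C : the equation for `π`
  have hprod_val : ∀ (m : ι → ℤ) (j : ι), (P j).O.valuation (∏ i, t i ^ m i) =
      (P j).O.valuation (ϖ j) ^ m j := by
    intro m j
    rw [map_prod, Finset.prod_eq_single j]
    · rw [map_zpow₀, hf.t_self j]
    · intro i _ hij
      rw [map_zpow₀, hf.t_other i j (Ne.symm hij), one_zpow]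
    · intro h
      exact absurd (Finset.mem_univ j) h
  have hprod_ne : ∀ m : ι → ℤ, (∏ i, t i ^ m i) ≠ 0 := fun m =>
    Finset.prod_ne_zero_iff.2 fun i _ => zpow_ne_zero _ (hf.t_ne_zero D i)
  have hnorm_prod : ∀ m : ι → ℤ, P'.O.valuation (Algebra.norm F' (∏ i, t i ^ m i)) =
      P'.O.valuation π ^ ∑ i, k i * m i := by
    intro m
    rw [map_prod, map_prod, ← prod_zpow_eq_zpow_sum hg'ne]
    refine Finset.prod_congr rfl fun i _ => ?_
    rw [norm_zpow (hf.t_ne_zero D i), map_zpow₀, hk i, ← zpow_mul]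
  have hC : (Module.finrank F' F : ℤ) = ∑ i, k i * (e i : ℤ) := by
    have hw : ∀ j, (P j).O.valuation (algebraMap F' F π / ∏ i, t i ^ ((e i : ℕ) : ℤ)) = 1 := by
      intro j
      rw [map_div₀, hprod_val, zpow_natCast, D.ram j]
      exact div_self (pow_ne_zero _ (ne_of_gt (D.unif_pos j)))
    have h1 := D.val_norm_eq_one hdeg hw
    have h2 : algebraMap F' F π = (algebraMap F' F π / ∏ i, t i ^ ((e i : ℕ) : ℤ)) *
        ∏ i, t i ^ ((e i : ℕ) : ℤ) := by
      rw [div_mul_cancel₀ _ (hprod_ne _)]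
    have h3 : P'.O.valuation (Algebra.norm F' (algebraMap F' F π)) =
        P'.O.valuation (Algebra.norm F' ((algebraMap F' F π / ∏ i, t i ^ ((e i : ℕ) : ℤ)) *
          ∏ i, t i ^ ((e i : ℕ) : ℤ))) :=
      congrArg (fun z => P'.O.valuation (Algebra.norm F' z)) h2
    rw [Algebra.norm_algebraMap, map_mul, map_mul, h1, one_mul, hnorm_prod, map_pow,
      ← zpow_natCast] at h3
    exact zpow_right_injective₀ hg'pos (ne_of_lt hg'lt) h3
  -- Step D : `k i = f_i`
  have hD : ∀ i, k i = (Module.finrank κ' (κ i) : ℤ) := by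
    have hsum : ∑ i, (e i : ℤ) * (k i - (Module.finrank κ' (κ i) : ℤ)) = 0 := by
      have h1 : ((∑ i, e i * Module.finrank κ' (κ i) : ℕ) : ℤ) = (Module.finrank F' F : ℤ) := by
        rw [hdeg]
      rw [hC, Nat.cast_sum] at h1
      have h2 : ∑ i, (e i : ℤ) * (k i - (Module.finrank κ' (κ i) : ℤ)) =
          ∑ i, k i * (e i : ℤ) - ∑ i, ((e i * Module.finrank κ' (κ i) : ℕ) : ℤ) := by
        rw [← Finset.sum_sub_distrib]
        refine Finset.sum_congr rfl fun i _ => ?_
        push_cast
        ring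
      rw [h2, h1, sub_self]
    have hnonneg : ∀ i ∈ (Finset.univ : Finset ι),
        0 ≤ (e i : ℤ) * (k i - (Module.finrank κ' (κ i) : ℤ)) := fun i _ =>
      mul_nonneg (Int.natCast_nonneg _) (sub_nonneg.2 (hkf i))
    intro i
    have := (Finset.sum_eq_zero_iff_of_nonneg hnonneg).1 hsum i (Finset.mem_univ i)
    rcases mul_eq_zero.1 this with h | h
    · exact absurd (Int.natCast_eq_zero.1 h) (D.e_ne_zero i)
    · exact sub_eq_zero.1 h
  -- Step E : general `u`
  have hw : ∀ j, (P j).O.valuation (u / ∏ i, t i ^ n i) = 1 := by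
    intro j
    rw [map_div₀, hprod_val, hu j]
    exact div_self (zpow_ne_zero _ (ne_of_gt (D.unif_pos j)))
  have h1 := D.val_norm_eq_one hdeg hw
  have h2 : u = (u / ∏ i, t i ^ n i) * ∏ i, t i ^ n i := by
    rw [div_mul_cancel₀ _ (hprod_ne _)]
  have h3 : P'.O.valuation (Algebra.norm F' u) =
      P'.O.valuation (Algebra.norm F' ((u / ∏ i, t i ^ n i) * ∏ i, t i ^ n i)) :=
    congrArg (fun z => P'.O.valuation (Algebra.norm F' z)) h2
  rw [map_mul, map_mul, h1, one_mul, hnorm_prod] at h3
  rw [h3]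
  congr 1
  refine Finset.sum_congr rfl fun i _ => ?_
  rw [hD i]

end Ram

end Fermat.Agent.S36lib.Norm
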