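/-
S36lib / Norm / RamWrap  (helper7)

Non-dependent wrappers of `RamDatum.redF_norm` / `RamDatum.val_norm` (`RamNormRed`, `RamOrd`):
ONE place over `P'` and TWO places over `P'` (residue fields of different types).

* `IsUnif P'.O π`   : `π ≠ 0`, `v' π < 1`, `𝔪' = π O'`;
* `RamOver P' π P ϖ e` : `P` is a rank one place over `P'`, `𝔪_P = ϖ O_P`, `v π = v ϖ ^ e`;
* `RamDatum.of_ramOver` : the family datum from these;
* `redF_norm_one`, `redF_norm_two`, `val_norm_one`, `val_norm_two`.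
-/
import Mathlib
import Fermat.Agent.S36lib.Norm.RamOrd

set_option autoImplicit false
set_option linter.unusedSectionVars false

noncomputable section

namespace Fermat.Agent.S36lib.Norm

section Defs

variable {F' F : Type*} [Field F'] [Field F] [Algebra F' F]
variable {κ' κ : Type*} [Field κ'] [Field κ] [Algebra κ' κ]

/-- `ϖ` generates the maximal ideal of the valuation ring `O` -/
structure IsUnif (O : ValuationSubring F) (ϖ : F) : Prop where
  ne_zero : ϖ ≠ 0
  lt_one : O.valuation ϖ < 1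
  gen : ∀ y : F, O.valuation y < 1 → O.valuation y ≤ O.valuation ϖ

/-- `P` is a rank one place of `F` over the place `P'` of `F'`, with uniformizer `ϖ` and
ramification index `e` (with respect to `π`). -/
structure RamOver (P' : Place F' κ') (π : F') (P : Place F κ) (ϖ : F) (e : ℕ) : Prop where
  liesOver : LiesOver P' P
  arch : IsArch P.O
  unif : IsUnif P.O ϖ
  ram : P.O.valuation (algebraMap F' F π) = P.O.valuation ϖ ^ e

theorem IsUnif.ne_top {O : ValuationSubring F} {ϖ : F} (h : IsUnif O ϖ) : O ≠ ⊤ := by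
  intro htop
  have h2 : ϖ⁻¹ ∈ O := by rw [htop]; exact ValuationSubring.mem_top _
  rw [← O.valuation_le_one_iff, map_inv₀] at h2
  have h3 : 1 < (O.valuation ϖ)⁻¹ :=
    (one_lt_inv₀ (zero_lt_iff.2 ((Valuation.ne_zero_iff _).2 h.ne_zero))).2 h.lt_one
  exact absurd h2 (not_le.2 h3)

end Defs

section Family

variable {F' F : Type*} [Field F'] [Field F] [Algebra F' F]
variable {κ' : Type*} [Field κ']
variable {ι : Type*} [Fintype ι] [DecidableEq ι]
variable {κ : ι → Type*} [∀ i, Field (κ i)] [∀ i, Algebra κ' (κ i)]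
variable {P' : Place F' κ'} {π : F'} {P : ∀ i, Place F (κ i)} {ϖ : ι → F} {e : ι → ℕ}

/-- the family datum from the individual data; distinctness suffices (rank one) -/
theorem RamDatum.of_ramOver (hb : IsUnif P'.O π) (h : ∀ i, RamOver P' π (P i) (ϖ i) (e i))
    (hne : ∀ i j, i ≠ j → (P i).O ≠ (P j).O) : RamDatum P' π P ϖ e where
  pi_ne := hb.ne_zero
  pi_lt := hb.lt_one
  pi_gen := hb.gen
  liesOver i := (h i).liesOver
  incomp i j hij := not_le_of_isArch (h i).arch (h j).unif.ne_top (hne i j hij)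
  arch i := (h i).arch
  unif_lt i := (h i).unif.lt_one
  unif_gen i := (h i).unif.gen
  ram i := (h i).ram

end Family

section One

variable {F' F : Type*} [Field F'] [Field F] [Algebra F' F]
variable {κ' κ : Type*} [Field κ'] [Field κ] [Algebra κ' κ]
variable {P' : Place F' κ'} {π : F'} {P : Place F κ} {ϖ : F} {e : ℕ}

/-- **NORM–REDUCTION, one place** (`e * f = [F : F']`): `red' (N u) = N_{κ/κ'} (red u) ^ e`. -/
theorem redF_norm_one [FiniteDimensional F' F] [Module.Finite κ' κ]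
    (hb : IsUnif P'.O π) (h : RamOver P' π P ϖ e)
    (hdeg : e * Module.finrank κ' κ = Module.finrank F' F) {u : F} (hu : u ∈ P.O) :
    Algebra.norm F' u ∈ P'.O ∧
      P'.redF (Algebra.norm F' u) = Algebra.norm κ' (P.redF u) ^ e := by
  have D : RamDatum P' π (fun _ : Unit => P) (fun _ => ϖ) (fun _ => e) :=
    RamDatum.of_ramOver hb (fun _ => h) (fun i j hij => absurd (Subsingleton.elim i j) hij)
  have := D.redF_norm (by simpa using hdeg) (u := u) (fun _ => hu)
  simpa using this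

/-- **VALUATION OF A NORM, one place**. -/
theorem val_norm_one [FiniteDimensional F' F] [Module.Finite κ' κ]
    (hb : IsUnif P'.O π) (h : RamOver P' π P ϖ e)
    (hdeg : e * Module.finrank κ' κ = Module.finrank F' F)
    (hπgen : ∀ x : F', x ≠ 0 → ∃ n : ℤ, P'.O.valuation x = P'.O.valuation π ^ n)
    {u : F} (n : ℤ) (hu : P.O.valuation u = P.O.valuation ϖ ^ n) :
    P'.O.valuation (Algebra.norm F' u) =
      P'.O.valuation π ^ ((Module.finrank κ' κ : ℤ) * n) := by
  have D : RamDatum P' π (fun _ : Unit => P) (fun _ => ϖ) (fun _ => e) :=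
    RamDatum.of_ramOver hb (fun _ => h) (fun i j hij => absurd (Subsingleton.elim i j) hij)
  have := D.val_norm (by simpa using hdeg) hπgen (u := u) (fun _ => n) (fun _ => hu)
  simpa using this

end One

section Two

universe u

variable {F' F : Type*} [Field F'] [Field F] [Algebra F' F]
variable {κ' : Type*} [Field κ']
variable {κ₁ κ₂ : Type u} [Field κ₁] [Field κ₂] [Algebra κ' κ₁] [Algebra κ' κ₂]

/-- the two residue fields as a family over `Bool` (`true ↦ κ₁`, `false ↦ κ₂`) -/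
def twoKappa (κ₁ κ₂ : Type u) : Bool → Type u
  | true => κ₁
  | false => κ₂

instance twoKappa.instField : ∀ b, Field (twoKappa κ₁ κ₂ b)
  | true => inferInstanceAs (Field κ₁)
  | false => inferInstanceAs (Field κ₂)

instance twoKappa.instAlgebra : ∀ b, Algebra κ' (twoKappa κ₁ κ₂ b)
  | true => inferInstanceAs (Algebra κ' κ₁)
  | false => inferInstanceAs (Algebra κ' κ₂)

/-- the two places as a family over `Bool` -/
def twoPlace (P₁ : Place F κ₁) (P₂ : Place F κ₂) : ∀ b, Place F (twoKappa κ₁ κ₂ b)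
  | true => P₁
  | false => P₂

variable {P' : Place F' κ'} {π : F'} {P₁ : Place F κ₁} {P₂ : Place F κ₂} {ϖ₁ ϖ₂ : F}
  {e₁ e₂ : ℕ}

theorem ramDatum_two (hb : IsUnif P'.O π) (h₁ : RamOver P' π P₁ ϖ₁ e₁)
    (h₂ : RamOver P' π P₂ ϖ₂ e₂) (hne : P₁.O ≠ P₂.O) :
    RamDatum P' π (twoPlace P₁ P₂) (fun b => cond b ϖ₁ ϖ₂) (fun b => cond b e₁ e₂) := by
  refine RamDatum.of_ramOver hb (fun b => ?_) (fun i j hij => ?_)
  · cases b
    · exact h₂
    · exact h₁
  · cases i <;> cases j
    · exact absurd rfl hij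
    · exact hne.symm
    · exact hne
    · exact absurd rfl hij

/-- **NORM–REDUCTION, two places** (`e₁ f₁ + e₂ f₂ = [F : F']`). -/
theorem redF_norm_two [FiniteDimensional F' F] [Module.Finite κ' κ₁] [Module.Finite κ' κ₂]
    (hb : IsUnif P'.O π) (h₁ : RamOver P' π P₁ ϖ₁ e₁) (h₂ : RamOver P' π P₂ ϖ₂ e₂)
    (hne : P₁.O ≠ P₂.O)
    (hdeg : e₁ * Module.finrank κ' κ₁ + e₂ * Module.finrank κ' κ₂ = Module.finrank F' F)
    {u : F} (hu₁ : u ∈ P₁.O) (hu₂ : u ∈ P₂.O) :
    Algebra.norm F' u ∈ P'.O ∧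
      P'.redF (Algebra.norm F' u) =
        Algebra.norm κ' (P₁.redF u) ^ e₁ * Algebra.norm κ' (P₂.redF u) ^ e₂ := by
  have D := ramDatum_two hb h₁ h₂ hne
  have : ∀ b, Module.Finite κ' (twoKappa κ₁ κ₂ b) := fun b => by
    cases b
    · exact inferInstanceAs (Module.Finite κ' κ₂)
    · exact inferInstanceAs (Module.Finite κ' κ₁)
  have hdeg' : ∑ b : Bool, (cond b e₁ e₂) * Module.finrank κ' (twoKappa κ₁ κ₂ b) =
      Module.finrank F' F := by
    rw [Fintype.sum_bool]
    exact hdeg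
  have hu : ∀ b, u ∈ (twoPlace P₁ P₂ b).O := fun b => by
    cases b
    · exact hu₂
    · exact hu₁
  obtain ⟨hmem, hred⟩ := D.redF_norm hdeg' hu
  refine ⟨hmem, ?_⟩
  rw [hred, Fintype.prod_bool]
  rfl

/-- **VALUATION OF A NORM, two places**. -/
theorem val_norm_two [FiniteDimensional F' F] [Module.Finite κ' κ₁] [Module.Finite κ' κ₂]
    (hb : IsUnif P'.O π) (h₁ : RamOver P' π P₁ ϖ₁ e₁) (h₂ : RamOver P' π P₂ ϖ₂ e₂)
    (hne : P₁.O ≠ P₂.O)
    (hdeg : e₁ * Module.finrank κ' κ₁ + e₂ * Module.finrank κ' κ₂ = Module.finrank F' F)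
    (hπgen : ∀ x : F', x ≠ 0 → ∃ n : ℤ, P'.O.valuation x = P'.O.valuation π ^ n)
    {u : F} (n₁ n₂ : ℤ) (hu₁ : P₁.O.valuation u = P₁.O.valuation ϖ₁ ^ n₁)
    (hu₂ : P₂.O.valuation u = P₂.O.valuation ϖ₂ ^ n₂) :
    P'.O.valuation (Algebra.norm F' u) =
      P'.O.valuation π ^ ((Module.finrank κ' κ₁ : ℤ) * n₁ + (Module.finrank κ' κ₂ : ℤ) * n₂) := by
  have D := ramDatum_two hb h₁ h₂ hne
  have : ∀ b, Module.Finite κ' (twoKappa κ₁ κ₂ b) := fun b => by
    cases b
    · exact inferInstanceAs (Module.Finite κ' κ₂)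
    · exact inferInstanceAs (Module.Finite κ' κ₁)
  have hdeg' : ∑ b : Bool, (cond b e₁ e₂) * Module.finrank κ' (twoKappa κ₁ κ₂ b) =
      Module.finrank F' F := by
    rw [Fintype.sum_bool]
    exact hdeg
  have hu : ∀ b, (twoPlace P₁ P₂ b).O.valuation u =
      (twoPlace P₁ P₂ b).O.valuation (cond b ϖ₁ ϖ₂) ^ (cond b n₁ n₂) := fun b => by
    cases b
    · exact hu₂
    · exact hu₁
  have := D.val_norm hdeg' hπgen (fun b => cond b n₁ n₂) hu
  rw [this, Fintype.sum_bool]
  rfl

end Two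

end Fermat.Agent.S36lib.Norm
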