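/-
S36lib / Norm / Along  (helper7)

The norm–reduction formulas of `RamWrap` along explicit homomorphisms (no `Algebra` instances in
the statements): `ψ : F' →+* F` (function fields) and residue embeddings `ι : κ' →+* κ`, in the two
shapes occurring at level `q²`:

* `redF_normHom_two_equiv` : two places above `P'`, both of residue degree one
  (`ι₁ ι₂ : κ' ≃+* κ_i`), `e₁ + e₂ = [F : F']`:
      `red' (N u) = ι₁⁻¹ (red₁ u) ^ e₁ * ι₂⁻¹ (red₂ u) ^ e₂`;
* `redF_normHom_one_insep` : one place above `P'`, `e = 1`, `κ / ι κ'` purely inseparable of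
  degree `p = [F : F']`:    `ι (red' (N u)) = (red u) ^ p`;
* `val_normHom_two_equiv`, `val_normHom_one` : the corresponding valuation formulas.
-/
import Mathlib
import Fermat.Agent.S36lib.Norm.RamWrap

set_option autoImplicit false
set_option linter.unusedSectionVars false
set_option linter.style.haveILetI false

noncomputable section

namespace Fermat.Agent.S36lib.Norm

section Defs

variable {F' F : Type*} [Field F'] [Field F]
variable {κ' κ : Type*} [Field κ'] [Field κ]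

/-- the norm along a homomorphism of fields -/
def normHom (ψ : F' →+* F) (u : F) : F' :=
  letI := ψ.toAlgebra
  Algebra.norm F' u

/-- the degree of a homomorphism of fields -/
def finrankHom (ψ : F' →+* F) : ℕ :=
  letI := ψ.toAlgebra
  Module.finrank F' F

/-- finiteness of a homomorphism of fields -/
def FiniteHom (ψ : F' →+* F) : Prop :=
  letI := ψ.toAlgebra
  FiniteDimensional F' F

/-- `P` is a rank one place of `F` over the place `P'` of `F'` along `ψ`, with residue embedding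
`ι`, uniformizer `ϖ` and ramification index `e` (with respect to `π`). -/
structure RamOverAlong (ψ : F' →+* F) (ι : κ' →+* κ) (P' : Place F' κ') (π : F')
    (P : Place F κ) (ϖ : F) (e : ℕ) : Prop where
  mem : ∀ y : F', y ∈ P'.O → ψ y ∈ P.O
  red : ∀ y : F', y ∈ P'.O → P.redF (ψ y) = ι (P'.redF y)
  arch : IsArch P.O
  unif : IsUnif P.O ϖ
  ram : P.O.valuation (ψ π) = P.O.valuation ϖ ^ e

theorem RamOverAlong.toRamOver {ψ : F' →+* F} {ι : κ' →+* κ} {P' : Place F' κ'} {π : F'}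
    {P : Place F κ} {ϖ : F} {e : ℕ} (h : RamOverAlong ψ ι P' π P ϖ e) :
    letI := ψ.toAlgebra
    letI := ι.toAlgebra
    RamOver P' π P ϖ e :=
  letI := ψ.toAlgebra
  letI := ι.toAlgebra
  { liesOver := ⟨h.mem, h.red⟩
    arch := h.arch
    unif := h.unif
    ram := h.ram }

end Defs

section Two

universe u

variable {F' F : Type*} [Field F'] [Field F]
variable {κ' : Type*} [Field κ'] {κ₁ κ₂ : Type u} [Field κ₁] [Field κ₂]
variable {P' : Place F' κ'} {π : F'} {P₁ : Place F κ₁} {P₂ : Place F κ₂} {ϖ₁ ϖ₂ : F}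
  {e₁ e₂ : ℕ}

/-- the norm to `κ'` along an isomorphism is its inverse -/
theorem norm_of_equiv {κ : Type*} [Field κ] (ι : κ' ≃+* κ) (z : κ) :
    letI := (ι : κ' →+* κ).toAlgebra
    Algebra.norm κ' z = ι.symm z ∧ Module.finrank κ' κ = 1 ∧ Module.Finite κ' κ := by
  letI := (ι : κ' →+* κ).toAlgebra
  have hsurj : Function.Surjective (algebraMap κ' κ) := ι.surjective
  have hbot : (⊥ : Subalgebra κ' κ) = ⊤ := by
    rw [eq_top_iff]
    intro x _
    obtain ⟨a, rfl⟩ := hsurj x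
    exact Subalgebra.algebraMap_mem _ a
  have hfin : Module.Finite κ' κ := by
    have : Module.Finite κ' (⊥ : Subalgebra κ' κ) := inferInstance
    rw [hbot] at this
    exact Module.Finite.equiv (Subalgebra.topEquiv (R := κ') (A := κ)).toLinearEquiv
  have hrank : Module.finrank κ' κ = 1 := by
    have h1 : Module.finrank κ' (⊥ : Subalgebra κ' κ) = 1 := Subalgebra.finrank_bot
    rw [hbot] at h1
    rw [← h1]
    exact (Subalgebra.topEquiv (R := κ') (A := κ)).toLinearEquiv.finrank_eq.symm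
  refine ⟨?_, hrank, hfin⟩
  have hz : z = algebraMap κ' κ (ι.symm z) := (ι.apply_symm_apply z).symm
  conv_lhs => rw [hz]
  rw [Algebra.norm_algebraMap, hrank, pow_one]

/-- **NORM–REDUCTION along `ψ`, two places of residue degree one.** -/
theorem redF_normHom_two_equiv (ψ : F' →+* F) (ι₁ : κ' ≃+* κ₁) (ι₂ : κ' ≃+* κ₂)
    (hfin : FiniteHom ψ) (hb : IsUnif P'.O π)
    (h₁ : RamOverAlong ψ (ι₁ : κ' →+* κ₁) P' π P₁ ϖ₁ e₁)
    (h₂ : RamOverAlong ψ (ι₂ : κ' →+* κ₂) P' π P₂ ϖ₂ e₂) (hne : P₁.O ≠ P₂.O)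
    (hdeg : e₁ + e₂ = finrankHom ψ) {u : F} (hu₁ : u ∈ P₁.O) (hu₂ : u ∈ P₂.O) :
    normHom ψ u ∈ P'.O ∧
      P'.redF (normHom ψ u) = ι₁.symm (P₁.redF u) ^ e₁ * ι₂.symm (P₂.redF u) ^ e₂ := by
  letI := ψ.toAlgebra
  letI a₁ : Algebra κ' κ₁ := (ι₁ : κ' →+* κ₁).toAlgebra
  letI a₂ : Algebra κ' κ₂ := (ι₂ : κ' →+* κ₂).toAlgebra
  haveI : FiniteDimensional F' F := hfin
  obtain ⟨-, hr₁, hf₁⟩ := norm_of_equiv ι₁ (0 : κ₁)
  obtain ⟨-, hr₂, hf₂⟩ := norm_of_equiv ι₂ (0 : κ₂)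
  haveI : Module.Finite κ' κ₁ := hf₁
  haveI : Module.Finite κ' κ₂ := hf₂
  have hdeg' : e₁ * Module.finrank κ' κ₁ + e₂ * Module.finrank κ' κ₂ = Module.finrank F' F := by
    rw [hr₁, hr₂, mul_one, mul_one]
    exact hdeg
  obtain ⟨hmem, hred⟩ := redF_norm_two hb h₁.toRamOver h₂.toRamOver hne hdeg' hu₁ hu₂
  refine ⟨hmem, ?_⟩
  show P'.redF (Algebra.norm F' u) = _
  rw [hred, (norm_of_equiv ι₁ (P₁.redF u)).1, (norm_of_equiv ι₂ (P₂.redF u)).1]

/-- **VALUATION OF A NORM along `ψ`, two places of residue degree one.** -/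
theorem val_normHom_two_equiv (ψ : F' →+* F) (ι₁ : κ' ≃+* κ₁) (ι₂ : κ' ≃+* κ₂)
    (hfin : FiniteHom ψ) (hb : IsUnif P'.O π)
    (h₁ : RamOverAlong ψ (ι₁ : κ' →+* κ₁) P' π P₁ ϖ₁ e₁)
    (h₂ : RamOverAlong ψ (ι₂ : κ' →+* κ₂) P' π P₂ ϖ₂ e₂) (hne : P₁.O ≠ P₂.O)
    (hdeg : e₁ + e₂ = finrankHom ψ)
    (hπgen : ∀ x : F', x ≠ 0 → ∃ n : ℤ, P'.O.valuation x = P'.O.valuation π ^ n)
    {u : F} (n₁ n₂ : ℤ) (hu₁ : P₁.O.valuation u = P₁.O.valuation ϖ₁ ^ n₁)
    (hu₂ : P₂.O.valuation u = P₂.O.valuation ϖ₂ ^ n₂) :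
    P'.O.valuation (normHom ψ u) = P'.O.valuation π ^ (n₁ + n₂) := by
  letI := ψ.toAlgebra
  letI a₁ : Algebra κ' κ₁ := (ι₁ : κ' →+* κ₁).toAlgebra
  letI a₂ : Algebra κ' κ₂ := (ι₂ : κ' →+* κ₂).toAlgebra
  haveI : FiniteDimensional F' F := hfin
  obtain ⟨-, hr₁, hf₁⟩ := norm_of_equiv ι₁ (0 : κ₁)
  obtain ⟨-, hr₂, hf₂⟩ := norm_of_equiv ι₂ (0 : κ₂)
  haveI : Module.Finite κ' κ₁ := hf₁
  haveI : Module.Finite κ' κ₂ := hf₂
  have hdeg' : e₁ * Module.finrank κ' κ₁ + e₂ * Module.finrank κ' κ₂ = Module.finrank F' F := by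
    rw [hr₁, hr₂, mul_one, mul_one]
    exact hdeg
  have := val_norm_two hb h₁.toRamOver h₂.toRamOver hne hdeg' hπgen n₁ n₂ hu₁ hu₂
  rw [hr₁, hr₂] at this
  show P'.O.valuation (Algebra.norm F' u) = _
  rw [this]
  norm_num

end Two

section One

variable {F' F : Type*} [Field F'] [Field F]
variable {κ' κ : Type*} [Field κ'] [Field κ]
variable {P' : Place F' κ'} {π : F'} {P : Place F κ} {ϖ : F}

/-- **NORM–REDUCTION along `ψ`, one place, purely inseparable residue extension of degree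
`p = [F : F']`** (`e = 1`): `ι (red' (N u)) = (red u) ^ p`. -/
theorem redF_normHom_one_insep (ψ : F' →+* F) (ι : κ' →+* κ) (p : ℕ) [Fact p.Prime]
    [CharP κ' p] (hfin : FiniteHom ψ) (hb : IsUnif P'.O π)
    (h : RamOverAlong ψ ι P' π P ϖ 1) (hdeg : finrankHom ψ = p)
    (hκ : (letI := ι.toAlgebra; Module.finrank κ' κ) = p)
    (hinsep : ∀ z : κ, ∃ a : κ', ι a = z ^ p) {u : F} (hu : u ∈ P.O) :
    normHom ψ u ∈ P'.O ∧ ι (P'.redF (normHom ψ u)) = P.redF u ^ p := by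
  letI := ψ.toAlgebra
  letI : Algebra κ' κ := ι.toAlgebra
  haveI : FiniteDimensional F' F := hfin
  have hp : 0 < p := (Fact.out : p.Prime).pos
  haveI : Module.Finite κ' κ := Module.finite_of_finrank_pos (by rw [hκ]; exact hp)
  have hdeg' : 1 * Module.finrank κ' κ = Module.finrank F' F := by
    rw [one_mul, hκ]
    exact hdeg.symm
  obtain ⟨hmem, hred⟩ := redF_norm_one hb h.toRamOver hdeg' hu
  refine ⟨hmem, ?_⟩
  show ι (P'.redF (Algebra.norm F' u)) = _
  rw [hred, pow_one]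
  obtain ⟨a, ha⟩ := hinsep (P.redF u)
  have h1 : Algebra.norm κ' (P.redF u) ^ p = a ^ p := by
    rw [← map_pow, ← ha]
    show Algebra.norm κ' (algebraMap κ' κ a) = a ^ p
    rw [Algebra.norm_algebraMap, hκ]
  rw [frobenius_inj κ' p h1, ha]

/-- **VALUATION OF A NORM along `ψ`, one place** (`e * f = [F : F']`). -/
theorem val_normHom_one (ψ : F' →+* F) (ι : κ' →+* κ) {e : ℕ} (hfin : FiniteHom ψ)
    (hb : IsUnif P'.O π) (h : RamOverAlong ψ ι P' π P ϖ e)
    (hfinκ : letI := ι.toAlgebra; Module.Finite κ' κ)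
    (hdeg : e * (letI := ι.toAlgebra; Module.finrank κ' κ) = finrankHom ψ)
    (hπgen : ∀ x : F', x ≠ 0 → ∃ n : ℤ, P'.O.valuation x = P'.O.valuation π ^ n)
    {u : F} (n : ℤ) (hu : P.O.valuation u = P.O.valuation ϖ ^ n) :
    P'.O.valuation (normHom ψ u) =
      P'.O.valuation π ^ (((letI := ι.toAlgebra; Module.finrank κ' κ : ℕ) : ℤ) * n) := by
  letI := ψ.toAlgebra
  letI : Algebra κ' κ := ι.toAlgebra
  haveI : FiniteDimensional F' F := hfin
  haveI : Module.Finite κ' κ := hfinκ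
  exact val_norm_one hb h.toRamOver hdeg hπgen n hu

end One

end Fermat.Agent.S36lib.Norm
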