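/-
S36lib / Norm / NormDescend  (helper7)

**The norm of the `K`-rational function fields is the restriction of the norm of the geometric
ones.**

`ψ : A →+* B` (e.g. `α^* : FBar (M q) → FBar (M q²)`), subfields `iA : A₀ →+* A`, `iB : B₀ →+* B`
(the `K`-rational function fields) with `ψ₀ : A₀ →+* B₀`, `iB ∘ ψ₀ = ψ ∘ iA`.  If a family
`b₀ : Fin n → B₀` becomes an `A`-basis of `B` (`IsBasisAlong ψ (iB ∘ b₀)`) and the coordinates of
the elements of `B₀` lie in `A₀`, then `b₀` is an `A₀`-basis of `B₀`, so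

  `[B₀ : A₀] = [B : A] = n`   and   `iA (N_{B₀/A₀} u) = N_{B/A} (iB u)`.

* `IsBasisAlong ψ b`        : unique representation `x = ∑ ψ (c i) * b i`;
* `IsBasisAlong.basis`      : the `Basis` under `ψ.toAlgebra`;
* `IsBasisAlong.descend`    : `b₀` is a basis along `ψ₀`;
* `finrankHom_eq_of_isBasisAlong`, `finiteHom_of_isBasisAlong`;
* `normHom_descend`         : the norm compatibility;
* `coord_mem_of_fixed`      : the coordinate hypothesis for fixed fields of compatible
                              automorphisms.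
-/
import Mathlib
import Fermat.Agent.S36lib.Norm.Along

set_option autoImplicit false
set_option linter.unusedSectionVars false
set_option linter.style.haveILetI false

noncomputable section

namespace Fermat.Agent.S36lib.Norm

section Basis

variable {A B : Type*} [Field A] [Field B]

/-- `b` is a basis of `B` over `A` along `ψ`: unique representation. -/
def IsBasisAlong (ψ : A →+* B) {n : ℕ} (b : Fin n → B) : Prop :=
  ∀ x : B, ∃! c : Fin n → A, x = ∑ i, ψ (c i) * b i

variable {ψ : A →+* B} {n : ℕ} {b : Fin n → B}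

theorem IsBasisAlong.linearIndependent (h : IsBasisAlong ψ b) :
    letI := ψ.toAlgebra
    LinearIndependent A b := by
  letI := ψ.toAlgebra
  rw [Fintype.linearIndependent_iff]
  intro g hg
  obtain ⟨c, -, hc⟩ := h 0
  have h1 : g = c := hc g (by
    rw [← hg]
    refine Finset.sum_congr rfl fun i _ => ?_
    rw [Algebra.smul_def]
    rfl)
  have h2 : (fun _ => 0 : Fin n → A) = c := hc _ (by simp)
  intro i
  rw [h1, ← h2]

theorem IsBasisAlong.span_eq_top (h : IsBasisAlong ψ b) :
    letI := ψ.toAlgebra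
    (⊤ : Submodule A B) ≤ Submodule.span A (Set.range b) := by
  letI := ψ.toAlgebra
  intro x _
  obtain ⟨c, hc, -⟩ := h x
  rw [hc]
  refine Submodule.sum_mem _ fun i _ => ?_
  have : ψ (c i) * b i = c i • b i := by
    rw [Algebra.smul_def]
    rfl
  rw [this]
  exact Submodule.smul_mem _ _ (Submodule.subset_span ⟨i, rfl⟩)

/-- the basis under `ψ.toAlgebra` -/
def IsBasisAlong.basis (h : IsBasisAlong ψ b) :
    letI := ψ.toAlgebra
    Module.Basis (Fin n) A B :=
  letI := ψ.toAlgebra
  Module.Basis.mk h.linearIndependent h.span_eq_top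

theorem IsBasisAlong.basis_apply (h : IsBasisAlong ψ b) (i : Fin n) : h.basis i = b i := by
  letI := ψ.toAlgebra
  exact Module.Basis.mk_apply _ _ i

theorem finrankHom_eq_of_isBasisAlong (h : IsBasisAlong ψ b) : finrankHom ψ = n := by
  letI := ψ.toAlgebra
  show Module.finrank A B = n
  rw [Module.finrank_eq_card_basis h.basis, Fintype.card_fin]

theorem finiteHom_of_isBasisAlong (h : IsBasisAlong ψ b) : FiniteHom ψ := by
  letI := ψ.toAlgebra
  show FiniteDimensional A B
  exact Module.Finite.of_basis h.basis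

end Basis

section Descend

variable {A B A₀ B₀ : Type*} [Field A] [Field B] [Field A₀] [Field B₀]
variable {ψ : A →+* B} {ψ₀ : A₀ →+* B₀} {iA : A₀ →+* A} {iB : B₀ →+* B}
variable {n : ℕ} {b₀ : Fin n → B₀}

/-- **Descent of a basis**: if `iB ∘ b₀` is a basis along `ψ` and coordinates of elements of `B₀`
lie in `A₀`, then `b₀` is a basis along `ψ₀`. -/
theorem IsBasisAlong.descend (hcomm : ∀ a, iB (ψ₀ a) = ψ (iA a))
    (h : IsBasisAlong ψ (fun i => iB (b₀ i)))
    (hcoord : ∀ (x : B₀) (c : Fin n → A), iB x = ∑ i, ψ (c i) * iB (b₀ i) →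
      ∀ i, ∃ a : A₀, iA a = c i) :
    IsBasisAlong ψ₀ b₀ := by
  intro x
  obtain ⟨c, hc, hcu⟩ := h (iB x)
  choose c₀ hc₀ using hcoord x c hc
  have key : ∀ d : Fin n → A₀, iB (∑ i, ψ₀ (d i) * b₀ i) = ∑ i, ψ (iA (d i)) * iB (b₀ i) := by
    intro d
    rw [map_sum]
    refine Finset.sum_congr rfl fun i _ => ?_
    rw [map_mul, hcomm]
  refine ⟨c₀, ?_, ?_⟩
  · apply iB.injective
    rw [key, hc]
    refine Finset.sum_congr rfl fun i _ => ?_
    rw [hc₀]
  · intro d hd
    have h1 : (fun i => iA (d i)) = c := hcu _ (by rw [hd, key])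
    funext i
    apply iA.injective
    rw [hc₀, ← h1]

/-- **The norm descends**: `iA (N_{B₀/A₀} u) = N_{B/A} (iB u)`. -/
theorem normHom_descend (hcomm : ∀ a, iB (ψ₀ a) = ψ (iA a))
    (h : IsBasisAlong ψ (fun i => iB (b₀ i))) (h₀ : IsBasisAlong ψ₀ b₀) (u : B₀) :
    iA (normHom ψ₀ u) = normHom ψ (iB u) := by
  classical
  letI aA : Algebra A B := ψ.toAlgebra
  letI aA₀ : Algebra A₀ B₀ := ψ₀.toAlgebra
  show iA (Algebra.norm A₀ u) = Algebra.norm A (iB u)
  rw [Algebra.norm_eq_matrix_det h₀.basis, Algebra.norm_eq_matrix_det h.basis, RingHom.map_det]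
  congr 1
  ext i j
  rw [RingHom.mapMatrix_apply, Matrix.map_apply, Algebra.leftMulMatrix_eq_repr_mul,
    Algebra.leftMulMatrix_eq_repr_mul]
  -- the column `j`
  rw [h.basis_apply, h₀.basis_apply]
  set M : Fin n → A₀ := fun i => h₀.basis.repr (u * b₀ j) i with hM
  have h1 : u * b₀ j = ∑ i, ψ₀ (M i) * b₀ i := by
    refine (h₀.basis.sum_repr (u * b₀ j)).symm.trans (Finset.sum_congr rfl fun i _ => ?_)
    rw [h₀.basis_apply, Algebra.smul_def]
    rfl
  have h2 : iB u * iB (b₀ j) = ∑ i, (iA (M i)) • h.basis i := by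
    rw [← map_mul, h1, map_sum]
    refine Finset.sum_congr rfl fun i _ => ?_
    rw [h.basis_apply, map_mul, hcomm, Algebra.smul_def]
    rfl
  rw [h2, Module.Basis.repr_sum_self]

/-- **Descent of degree and norm**, packaged. -/
theorem normHom_descend_of_coord (hcomm : ∀ a, iB (ψ₀ a) = ψ (iA a))
    (h : IsBasisAlong ψ (fun i => iB (b₀ i)))
    (hcoord : ∀ (x : B₀) (c : Fin n → A), iB x = ∑ i, ψ (c i) * iB (b₀ i) →
      ∀ i, ∃ a : A₀, iA a = c i) :
    finrankHom ψ₀ = n ∧ finrankHom ψ = n ∧ FiniteHom ψ₀ ∧ FiniteHom ψ ∧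
      ∀ u : B₀, iA (normHom ψ₀ u) = normHom ψ (iB u) := by
  have h₀ := h.descend hcomm hcoord
  exact ⟨finrankHom_eq_of_isBasisAlong h₀, finrankHom_eq_of_isBasisAlong h,
    finiteHom_of_isBasisAlong h₀, finiteHom_of_isBasisAlong h,
    fun u => normHom_descend hcomm h h₀ u⟩

/-- **The coordinate hypothesis for fixed fields**: `A₀`, `B₀` are the fixed fields of families of
automorphisms `σA t`, `σB t` compatible with `ψ`. -/
theorem coord_mem_of_fixed {T : Type*} (σA : T → A →+* A) (σB : T → B →+* B)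
    (hσ : ∀ t a, σB t (ψ a) = ψ (σA t a))
    (hfixA : ∀ a : A, (∀ t, σA t a = a) → ∃ a₀ : A₀, iA a₀ = a)
    (hfixB : ∀ (x : B₀) t, σB t (iB x) = iB x)
    (h : IsBasisAlong ψ (fun i => iB (b₀ i)))
    (x : B₀) (c : Fin n → A) (hc : iB x = ∑ i, ψ (c i) * iB (b₀ i)) (i : Fin n) :
    ∃ a : A₀, iA a = c i := by
  refine hfixA (c i) fun t => ?_
  obtain ⟨c', -, hcu⟩ := h (iB x)
  have h1 : c = c' := hcu c hc
  have h2 : (fun i => σA t (c i)) = c' := hcu _ (by
    have := congrArg (σB t) hc
    rw [hfixB, map_sum] at this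
    rw [this]
    refine Finset.sum_congr rfl fun i _ => ?_
    rw [map_mul, hσ, hfixB])
  have := congrFun (h2.trans h1.symm) i
  exact this

end Descend

section PowerBasis

open Polynomial

variable {A B : Type*} [Field A] [Field B]

/-- **Power basis, polynomial form ⇒ `IsBasisAlong`.** -/
theorem isBasisAlong_pow_of_eval₂ (ψ : A →+* B) (y : B) (n : ℕ)
    (hinj : ∀ p : A[X], p.natDegree < n → p.eval₂ ψ y = 0 → p = 0)
    (hsurj : ∀ f : B, ∃ p : A[X], p.degree < n ∧ p.eval₂ ψ y = f) :
    IsBasisAlong ψ (fun i : Fin n => y ^ (i : ℕ)) := by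
  classical
  have hn : 0 < n := by
    by_contra h0
    have hn0 : n = 0 := by omega
    obtain ⟨p, hp, hp1⟩ := hsurj 1
    rw [hn0] at hp
    have hp0 : p = 0 := by
      by_contra hne
      have := Polynomial.zero_le_degree_iff.2 hne
      exact absurd (lt_of_le_of_lt this hp) (by simp)
    rw [hp0, eval₂_zero] at hp1
    exact zero_ne_one hp1
  have hdeg : ∀ P : A[X], P.degree < n → P.natDegree < n := by
    intro P hPd
    rcases eq_or_ne P 0 with rfl | h0
    · simpa using hn
    · exact (Polynomial.natDegree_lt_iff_degree_lt h0).2 hPd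
  intro x
  obtain ⟨p, hp, hpx⟩ := hsurj x
  have hpn : p.natDegree < n := hdeg p hp
  refine ⟨fun i => p.coeff i, ?_, ?_⟩
  · rw [← hpx, Polynomial.eval₂_eq_sum_range' ψ hpn, Finset.sum_range]
  · intro c hc
    set P : A[X] := ∑ i : Fin n, Polynomial.monomial (i : ℕ) (c i - p.coeff i) with hP
    have hPd : P.degree < n := by
      rw [← Polynomial.mem_degreeLT]
      refine Submodule.sum_mem _ fun i _ => ?_
      rw [Polynomial.mem_degreeLT]
      exact lt_of_le_of_lt (Polynomial.degree_monomial_le _ _) (by exact_mod_cast i.2)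
    have hPev : P.eval₂ ψ y = 0 := by
      rw [hP, Polynomial.eval₂_finsetSum]
      have hterm : ∀ i : Fin n, eval₂ ψ y (monomial (i : ℕ) (c i - p.coeff i)) =
          ψ (c i) * y ^ (i : ℕ) - ψ (p.coeff i) * y ^ (i : ℕ) := by
        intro i
        rw [eval₂_monomial, map_sub, sub_mul]
      simp only [hterm]
      rw [Finset.sum_sub_distrib, ← hc, ← hpx, Polynomial.eval₂_eq_sum_range' ψ hpn,
        Finset.sum_range, sub_self]
    have hP0 := hinj P (hdeg P hPd) hPev
    funext i
    have h1 : P.coeff (i : ℕ) = c i - p.coeff i := by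
      rw [hP, Polynomial.finsetSum_coeff]
      rw [Finset.sum_eq_single i]
      · rw [Polynomial.coeff_monomial, if_pos rfl]
      · intro j _ hji
        rw [Polynomial.coeff_monomial, if_neg]
        intro h
        exact hji (Fin.ext h)
      · intro h
        exact absurd (Finset.mem_univ i) h
    rw [hP0, Polynomial.coeff_zero] at h1
    exact (sub_eq_zero.1 h1.symm)

end PowerBasis

end Fermat.Agent.S36lib.Norm
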