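/-
S36lib / Norm / DescendInst  (helper7)

**The degeneracy maps on the fixed fields, their degree and their norms** (concrete instance of
`Norm/NormDescend` with helper2's power bases of `Eis/Degree` and helper1's `fixF N H`).

For any subgroup `H ≤ G_ℚ`, `q` prime, `q ∤ M`:

* `fixMap H ψ hψ : fixF N H →+* fixF N' H` : restriction of a Galois-equivariant homomorphism;
* `alphaFix M q H`, `betaFix M q H : fixF (M q) H →+* fixF (M q q) H`;
* `finrankHom_alphaFix`, `finrankHom_betaFix` : both degrees are `q`; `finiteHom_alphaFix/betaFix`;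
* `coe_normHom_alphaFix`, `coe_normHom_betaFix` : the norm of the fixed fields is the restriction
  of `normAlong (heckeAlphaBar …)`, `normAlong (heckeBetaBar …)`  (the hypotheses `hNα`, `hNβ` of
  helper3's `Fin.smul_eq_zero_of_chainCtx`);
* `alphaFix_algebraMap`, `betaFix_algebraMap` : `K`-linearity.
-/
import Mathlib
import Fermat.Agent.S36lib.Eis.Degree
import Fermat.Agent.S36lib.Desc2.SpeiserBar
import Fermat.Agent.S36lib.Norm.NormDescend
import Fermat.Agent.S29lib.D.KummerCorr

set_option autoImplicit false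
set_option linter.unusedSectionVars false
set_option linter.style.haveILetI false

noncomputable section

namespace Fermat.Agent.S36lib.Norm

open ModularCurve AlgebraicCurve Polynomial Fermat.Agent.S18lib Fermat.Agent.S29lib.GH
open Fermat.Agent.S37lib.HeckeInst (FB)
open Fermat.Agent.S36lib.Desc2 Fermat.Agent.S36lib.Eis Fermat.Agent.LSb.Val

local notation "Qb" => AlgebraicClosure ℚ
local notation "GQ" => (AlgebraicClosure ℚ ≃ₐ[ℚ] AlgebraicClosure ℚ)

section FixMap

variable {N N' : ℕ} (H : Subgroup GQ)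

/-- the coefficientwise action of `σ` on `FB N` as a ring homomorphism -/
def galRing (N : ℕ) (σ : GQ) : FB N →+* FB N :=
  ((arithmeticRingAut (modularFunctionFieldFull N) σ : FB N ≃+* FB N) : FB N →+* FB N)

theorem galRing_apply (N : ℕ) (σ : GQ) (f : FB N) : galRing N σ f = galAutBar N σ • f := rfl

/-- restriction of a Galois-equivariant homomorphism to the fixed fields -/
def fixMap (ψ : FB N →+* FB N')
    (hψ : ∀ σ ∈ H, ∀ x : FB N, galAutBar N' σ • ψ x = ψ (galAutBar N σ • x)) :
    fixF N H →+* fixF N' H :=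
  (ψ.comp (fixF N H).subtype).codRestrict (fixF N' H) (fun x => by
    rw [mem_fixF]
    intro σ hσ
    rw [RingHom.comp_apply, hψ σ hσ]
    exact congrArg ψ (mem_fixF.1 x.2 σ hσ))

theorem coe_fixMap (ψ : FB N →+* FB N')
    (hψ : ∀ σ ∈ H, ∀ x : FB N, galAutBar N' σ • ψ x = ψ (galAutBar N σ • x)) (x : fixF N H) :
    ((fixMap H ψ hψ x : fixF N' H) : FB N') = ψ (x : FB N) := rfl

end FixMap

section Concrete

variable (M q : ℕ) [NeZero M] [NeZero q] (H : Subgroup GQ)

/-- `α` on the fixed fields -/
def alphaFix : fixF (M * q) H →+* fixF (M * q * q) H :=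
  fixMap H (alphaR M q) (fun σ _ x => intertwines_alpha (M * q) q σ x)

/-- `β` on the fixed fields -/
def betaFix : fixF (M * q) H →+* fixF (M * q * q) H :=
  fixMap H (betaR M q) (fun σ _ x => intertwines_beta (M * q) q σ x)

theorem coe_alphaFix (x : fixF (M * q) H) :
    ((alphaFix M q H x : fixF (M * q * q) H) : FB (M * q * q)) =
      heckeAlphaBar Qb (M * q) q (x : FB (M * q)) := rfl

theorem coe_betaFix (x : fixF (M * q) H) :
    ((betaFix M q H x : fixF (M * q * q) H) : FB (M * q * q)) =
      heckeBetaBar Qb (M * q) q (x : FB (M * q)) := rfl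

/-- `α` is `K`-linear -/
theorem alphaFix_algebraMap (c : fixK H) :
    alphaFix M q H (algebraMap (fixK H) (fixF (M * q) H) c) =
      algebraMap (fixK H) (fixF (M * q * q) H) c := by
  apply Subtype.ext
  rw [coe_alphaFix, coe_algebraMap_fixF, coe_algebraMap_fixF, AlgHom.commutes]

/-- `β` is `K`-linear -/
theorem betaFix_algebraMap (c : fixK H) :
    betaFix M q H (algebraMap (fixK H) (fixF (M * q) H) c) =
      algebraMap (fixK H) (fixF (M * q * q) H) c := by
  apply Subtype.ext
  rw [coe_betaFix, coe_algebraMap_fixF, coe_algebraMap_fixF, AlgHom.commutes]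

/-- `j_d` is fixed by `G_ℚ` -/
theorem jd_mem_fixF (N d : ℕ) [NeZero d] (hd : d ∣ N) : jd N d hd ∈ fixF N H := by
  rw [mem_fixF]
  intro σ _
  exact Fermat.Agent.LSb.Val.arithmeticRingAut_jd N d hd σ

/-- `x = j(t)` in the fixed field -/
def xTopFix : fixF (M * q * q) H := ⟨xTop M q, by unfold xTop; exact jd_mem_fixF H _ _ _⟩

/-- `y = j(t^(q²))` in the fixed field -/
def yTopFix : fixF (M * q * q) H := ⟨yTop M q, by unfold yTop; exact jd_mem_fixF H _ _ _⟩

variable (hq : q.Prime) (hqM : ¬ q ∣ M)

include hq hqM in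
theorem isBasisAlong_alpha :
    IsBasisAlong (alphaR M q) (fun i : Fin q => (yTop M q) ^ (i : ℕ)) :=
  isBasisAlong_pow_of_eval₂ _ _ q (eq_zero_of_eval₂_alpha M q hq hqM)
    (exists_eval₂_alpha_eq M q hq hqM)

include hq hqM in
theorem isBasisAlong_beta :
    IsBasisAlong (betaR M q) (fun i : Fin q => (xTop M q) ^ (i : ℕ)) :=
  isBasisAlong_pow_of_eval₂ _ _ q (eq_zero_of_eval₂_beta M q hq)
    (exists_eval₂_beta_eq M q hq hqM)

/-- the general descent statement for an equivariant `ψ` with a fixed power basis -/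
theorem descend_fix {N N' : ℕ} (ψ : FB N →+* FB N')
    (hψ : ∀ σ ∈ H, ∀ x : FB N, galAutBar N' σ • ψ x = ψ (galAutBar N σ • x))
    {n : ℕ} (y : fixF N' H)
    (hb : IsBasisAlong ψ (fun i : Fin n => (y : FB N') ^ (i : ℕ))) :
    finrankHom (fixMap H ψ hψ) = n ∧ FiniteHom (fixMap H ψ hψ) ∧
      ∀ u : fixF N' H, ((normHom (fixMap H ψ hψ) u : fixF N H) : FB N) =
        normHom ψ (u : FB N') := by
  have hcomm : ∀ a : fixF N H, (fixF N' H).subtype (fixMap H ψ hψ a) = ψ ((fixF N H).subtype a) :=
    fun a => rfl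
  have hb' : IsBasisAlong ψ (fun i : Fin n => (fixF N' H).subtype (y ^ (i : ℕ))) := by
    have : (fun i : Fin n => (fixF N' H).subtype (y ^ (i : ℕ))) =
        fun i : Fin n => (y : FB N') ^ (i : ℕ) := by
      funext i
      exact map_pow _ _ _
    rw [this]
    exact hb
  have hcoord : ∀ (x : fixF N' H) (c : Fin n → FB N),
      (fixF N' H).subtype x = ∑ i, ψ (c i) * (fixF N' H).subtype (y ^ (i : ℕ)) →
      ∀ i, ∃ a : fixF N H, (fixF N H).subtype a = c i := by
    intro x c hc i
    have hfixA : ∀ a : FB N, (∀ σ : H, galRing N (σ : GQ) a = a) →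
        ∃ a₀ : fixF N H, (fixF N H).subtype a₀ = a := by
      intro a ha
      refine ⟨⟨a, ?_⟩, rfl⟩
      rw [mem_fixF]
      intro σ hσ
      exact ha ⟨σ, hσ⟩
    have hfixB : ∀ (x : fixF N' H) (σ : H),
        galRing N' (σ : GQ) ((fixF N' H).subtype x) = (fixF N' H).subtype x :=
      fun x σ => mem_fixF.1 x.2 σ σ.2
    exact coord_mem_of_fixed (T := H) (fun σ => galRing N (σ : GQ))
      (fun σ => galRing N' (σ : GQ)) (fun σ a => hψ σ σ.2 a) hfixA hfixB hb' x c hc i
  obtain ⟨h1, -, h3, -, h5⟩ := normHom_descend_of_coord (ψ := ψ) (ψ₀ := fixMap H ψ hψ)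
    (iA := (fixF N H).subtype) (iB := (fixF N' H).subtype) (b₀ := fun i : Fin n => y ^ (i : ℕ))
    hcomm hb' hcoord
  exact ⟨h1, h3, h5⟩

include hq hqM in
theorem finrankHom_alphaFix : finrankHom (alphaFix M q H) = q :=
  (descend_fix H (alphaR M q) _ (yTopFix M q H) (isBasisAlong_alpha M q hq hqM)).1

include hq hqM in
theorem finiteHom_alphaFix : FiniteHom (alphaFix M q H) :=
  (descend_fix H (alphaR M q) _ (yTopFix M q H) (isBasisAlong_alpha M q hq hqM)).2.1

include hq hqM in
/-- **the norm along `α` of the fixed fields is the restriction of the geometric norm** -/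
theorem coe_normHom_alphaFix (u : fixF (M * q * q) H) :
    ((normHom (alphaFix M q H) u : fixF (M * q) H) : FB (M * q)) =
      Fermat.Agent.S29lib.D.normAlong (heckeAlphaBar Qb (M * q) q) (u : FB (M * q * q)) :=
  (descend_fix H (alphaR M q) _ (yTopFix M q H) (isBasisAlong_alpha M q hq hqM)).2.2 u

include hq hqM in
theorem finrankHom_betaFix : finrankHom (betaFix M q H) = q :=
  (descend_fix H (betaR M q) _ (xTopFix M q H) (isBasisAlong_beta M q hq hqM)).1

include hq hqM in
theorem finiteHom_betaFix : FiniteHom (betaFix M q H) :=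
  (descend_fix H (betaR M q) _ (xTopFix M q H) (isBasisAlong_beta M q hq hqM)).2.1

include hq hqM in
/-- **the norm along `β` of the fixed fields is the restriction of the geometric norm** -/
theorem coe_normHom_betaFix (u : fixF (M * q * q) H) :
    ((normHom (betaFix M q H) u : fixF (M * q) H) : FB (M * q)) =
      Fermat.Agent.S29lib.D.normAlong (heckeBetaBar Qb (M * q) q) (u : FB (M * q * q)) :=
  (descend_fix H (betaR M q) _ (xTopFix M q H) (isBasisAlong_beta M q hq hqM)).2.2 u

end Concrete

end Fermat.Agent.S36lib.Norm
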