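/-
S36lib / Norm / ChartNorm  (helper7)

**Norms of functions regular off the cusps are regular off the cusps** (field `chart` of
`J.NormCtx`, cuspidal chart `b = 0`).

* `normAlong_mem_regAway` (generic): `f ∈ regAway K (ψ y) ⟹ N_ψ f ∈ regAway K y`
  (push-forward norm formula: the order of `N f` at `Q` is a nonnegative combination of the orders
  of `f` at the places above `Q`);
* `jd_one_mem_of_jd_mem` : at a place where `j(t^q)` is regular, `j(t)` is regular (modular equation);
* `heckeAlphaBar_jF`, `heckeBetaBar_jF`;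
* `normAlong_alpha_mem_regAway`, `normAlong_beta_mem_regAway` : over `ℚ̄`, levels `N ∣ N q`;
* `coe_normHom_alphaFix_mem_regAway`, `coe_normHom_betaFix_mem_regAway` : the `K`-rational forms
  for `alphaFix`, `betaFix` (`Norm/DescendInst`);
* `mem_regAway_of_mem_rr` : `L(a (y)_∞) ⊆ regAway K y`.
-/
import Mathlib
import Fermat.Agent.S36lib.Norm.DescendInst
import Fermat.Agent.LSb.Unit.Nodes
import Fermat.Agent.LSc.Core.NormPush

set_option autoImplicit false
set_option linter.unusedSectionVars false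
set_option linter.style.haveILetI false

noncomputable section

namespace Fermat.Agent.S36lib.Norm

open ModularCurve AlgebraicCurve Polynomial Fermat.Agent.S18lib Fermat.Agent.S29lib.GH
open Fermat.Agent.S37lib.HeckeInst
open Fermat.Agent.S36lib.Desc2 Fermat.Agent.S36lib.Eis Fermat.Agent.LSb.Val
open Fermat.Agent.LSb.Unit (regAway mem_regAway)
open Fermat.Agent.S29lib.D (normAlong)
open Fermat.Agent.S37lib.ConjNorm Fermat.Agent.ProgramR

local notation "Qb" => AlgebraicClosure ℚ
local notation "GQ" => (AlgebraicClosure ℚ ≃ₐ[ℚ] AlgebraicClosure ℚ)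

section Generic

variable {K F F' : Type*} [Field K] [Field F] [Field F'] [Algebra K F] [Algebra K F']

/-- **norms of functions regular where `ψ y` is regular are regular where `y` is regular** -/
theorem normAlong_mem_regAway [HasPrincipalDivisors K F'] (ψ : F →ₐ[K] F')
    (hψ : ψ.toRingHom.IsIntegral) (hfin : FiniteAlong K ψ) (hN : NormFormulaAlong K ψ hfin)
    {y : F} {f : F'} (hf : f ∈ regAway K (ψ y)) : normAlong ψ f ∈ regAway K y := by
  classical
  letI := algebraAlong ψ
  haveI := isScalarTower_along ψ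
  haveI := isIntegral_along ψ hψ
  haveI : Module.Finite F F' := hfin
  intro Q hQ
  rcases eq_or_ne f 0 with rfl | hf0
  · have : normAlong ψ (0 : F') = 0 := by
      show Algebra.norm F (0 : F') = 0
      exact Algebra.norm_zero
    rw [this]
    exact Q.toValuationSubring.zero_mem
  obtain ⟨D, hD, -⟩ := HasPrincipalDivisors.exists_divisor (K := K) f hf0
  have h1 : Divisor.pushforward F D Q = Q.ord (Algebra.norm F f) := hN f hf0 D hD Q
  rw [FF.mem_iff_ord_nonneg]
  show 0 ≤ Q.ord (Algebra.norm F f)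
  rw [← h1, Divisor.pushforward_apply]
  refine Finset.sum_nonneg fun w _ => ?_
  split_ifs with hw
  · have hyw : algebraMap F F' y ∈ w.toValuationSubring := by
      rw [← Place.mem_restrict_iff (F := F), hw]
      exact hQ
    have hfw : f ∈ w.toValuationSubring := hf w hyw
    rw [hD w]
    exact mul_nonneg ((FF.mem_iff_ord_nonneg w f).1 hfw) (Nat.cast_nonneg _)
  · exact le_rfl

/-- `L(a (y)_∞) ⊆ regAway K y` -/
theorem mem_regAway_of_mem_rr [HasPrincipalDivisors K F] {y f : F} (a : ℕ)
    (hf : f ∈ riemannRochSpace ((a : ℤ) • Fermat.Agent.S18lib.polesOf (K := K) y)) :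
    f ∈ regAway K y := by
  intro Q hQ
  rcases eq_or_ne f 0 with rfl | hf0
  · exact Q.toValuationSubring.zero_mem
  have h1 := (mem_riemannRochSpace_iff.1 hf Q).resolve_left hf0
  rw [Finsupp.smul_apply, Fermat.Agent.S18lib.polesOf_apply, smul_eq_mul] at h1
  have hy : 0 ≤ Q.ord y := (FF.mem_iff_ord_nonneg Q y).1 hQ
  rw [FF.mem_iff_ord_nonneg]
  have : max (-Q.ord y) 0 = 0 := max_eq_right (by linarith)
  rw [this, mul_zero] at h1
  linarith

end Generic

section Modular

variable (N q : ℕ) [NeZero N] [NeZero q] [Fact q.Prime]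

/-- `j = j_1` -/
theorem jF_eq_jd : Gin0.jF N = jd N 1 (one_dvd N) := by
  apply Subtype.ext
  rw [Gin0.coe_jF, coe_jd_eq, qExpand_one_apply]

/-- `α j = j` -/
theorem heckeAlphaBar_jF : heckeAlphaBar Qb N q (Gin0.jF N) = Gin0.jF (N * q) := by
  apply Subtype.ext
  rw [coe_heckeAlphaBar, Gin0.coe_jF, Gin0.coe_jF]

/-- `β j = j(t^q)` -/
theorem heckeBetaBar_jF :
    heckeBetaBar Qb N q (Gin0.jF N) = jd (N * q) q (Dvd.intro_left N rfl) := by
  apply Subtype.ext
  rw [coe_heckeBetaBar, Gin0.coe_jF, coe_jd_eq]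

/-- **`Φ_q(j(t), j(t^q)) = 0`** at any level divisible by `q` -/
theorem biEval₂_jd_one_jd (hq : q ∣ N) :
    biEval₂ (iotaFB N) (Fermat.Agent.S28lib.phiZ q) (jd N 1 (one_dvd N)) (jd N q hq) = 0 := by
  apply Subtype.val_injective
  have h1 := map_biEval₂ ((modularFunctionFieldBar N).val : FBar N →+* LaurentSeries Qb)
    (iotaFB N) (Fermat.Agent.S28lib.phiZ q) (jd N 1 (one_dvd N)) (jd N q hq)
  have hq0 : ((q : ℕ) : Qb) ≠ 0 := Nat.cast_ne_zero.mpr (NeZero.ne q)
  have h2 := biEval₂_jqModC_qExpand (k := Qb) (p := q)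
    (Fermat.Agent.S18lib.Gink.intToQbar : Fermat.Agent.S28lib.Zb →+* Qb) hq0
  show ((modularFunctionFieldBar N).val : FBar N →+* LaurentSeries Qb) _ = 0
  rw [h1, val_comp_iotaFB]
  have e1 : ((modularFunctionFieldBar N).val : FBar N →+* LaurentSeries Qb)
      (jd N 1 (one_dvd N)) = jqModC Qb := by
    show ((jd N 1 (one_dvd N) : FBar N) : LaurentSeries Qb) = _
    rw [coe_jd_eq, qExpand_one_apply]
  have e2 : ((modularFunctionFieldBar N).val : FBar N →+* LaurentSeries Qb) (jd N q hq) =
      qExpand Qb q (jqModC Qb) := coe_jd_eq N q hq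
  rw [e1, e2]
  exact h2

/-- at a place where `j(t^q)` is regular, `j(t)` is regular -/
theorem jd_one_mem_of_jd_mem (hq : q ∣ N) (w : AlgebraicCurve.Place Qb (FBar N))
    (h : jd N q hq ∈ w.toValuationSubring) : jd N 1 (one_dvd N) ∈ w.toValuationSubring := by
  set O := w.toValuationSubring with hO
  -- the coefficient homomorphism lands in `O`
  have hmem : ∀ c : (Fermat.Agent.S28lib.Zb)[X],
      Polynomial.eval₂RingHom (iotaFB N) (jd N q hq) c ∈ O.toSubring := by
    intro c
    show Polynomial.eval₂ (iotaFB N) (jd N q hq) c ∈ O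
    rw [Polynomial.eval₂_eq_sum_range]
    refine O.sum_mem fun i _ => ?_
    exact O.mul_mem _ _ (w.algebraMap_mem' _) (O.pow_mem h i)
  let φ : (Fermat.Agent.S28lib.Zb)[X] →+* O.toSubring :=
    (Polynomial.eval₂RingHom (iotaFB N) (jd N q hq)).codRestrict O.toSubring hmem
  have hint : IsIntegral O.toSubring (jd N 1 (one_dvd N)) := by
    refine ⟨(Fermat.Agent.S28lib.phiZ q).map φ, (Fermat.Agent.S28lib.phiZ_monic q).map φ, ?_⟩
    rw [Polynomial.eval₂_map]
    exact biEval₂_jd_one_jd N q hq
  have : IsIntegrallyClosedIn O.toSubring (FBar N) := inferInstanceAs (IsIntegrallyClosedIn O _)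
  exact Subring.isIntegrallyClosedIn_iff.mp this hint

/-- **`N_α`** of a function regular off the cusps is regular off the cusps -/
theorem normAlong_alpha_mem_regAway {f : FBar (N * q)}
    (hf : f ∈ regAway Qb (Gin0.jF (N * q))) :
    normAlong (heckeAlphaBar Qb N q) f ∈ regAway Qb (Gin0.jF N) := by
  haveI := hasPrincipalDivisors_FB (N * q)
  refine normAlong_mem_regAway (heckeAlphaBar Qb N q) (heckeAlphaBarIntegral N q)
    (finiteAlong_alpha N q) (normFormulaAlong_alpha N q) ?_
  rw [heckeAlphaBar_jF]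
  exact hf

/-- **`N_β`** of a function regular off the cusps is regular off the cusps -/
theorem normAlong_beta_mem_regAway {f : FBar (N * q)}
    (hf : f ∈ regAway Qb (Gin0.jF (N * q))) :
    normAlong (heckeBetaBar Qb N q) f ∈ regAway Qb (Gin0.jF N) := by
  haveI := hasPrincipalDivisors_FB (N * q)
  refine normAlong_mem_regAway (heckeBetaBar Qb N q) (heckeBetaBarIntegral N q)
    (finiteAlong_beta N q) (normFormulaAlong_beta N q) ?_
  rw [heckeBetaBar_jF]
  intro w hw
  refine hf w ?_
  rw [jF_eq_jd]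
  exact jd_one_mem_of_jd_mem (N * q) q _ w hw

end Modular

section Fixed

variable (M q : ℕ) [NeZero M] [NeZero q] [Fact q.Prime] (H : Subgroup GQ)
variable (hq : q.Prime) (hqM : ¬ q ∣ M)

include hq hqM in
/-- field `chart` of `J.NormCtx` along `α` (`regAway` form) -/
theorem coe_normHom_alphaFix_mem_regAway (f : fixF (M * q * q) H)
    (hf : (f : FB (M * q * q)) ∈ regAway Qb (Gin0.jF (M * q * q))) :
    ((normHom (alphaFix M q H) f : fixF (M * q) H) : FB (M * q)) ∈
      regAway Qb (Gin0.jF (M * q)) := by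
  rw [coe_normHom_alphaFix M q H hq hqM]
  exact normAlong_alpha_mem_regAway (M * q) q hf

include hq hqM in
/-- field `chart` of `J.NormCtx` along `β` (`regAway` form) -/
theorem coe_normHom_betaFix_mem_regAway (f : fixF (M * q * q) H)
    (hf : (f : FB (M * q * q)) ∈ regAway Qb (Gin0.jF (M * q * q))) :
    ((normHom (betaFix M q H) f : fixF (M * q) H) : FB (M * q)) ∈
      regAway Qb (Gin0.jF (M * q)) := by
  rw [coe_normHom_betaFix M q H hq hqM]
  exact normAlong_beta_mem_regAway (M * q) q hf

end Fixed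

end Fermat.Agent.S36lib.Norm
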