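/-
S36lib / Norm / Bridge  (helper7)

Bridges from the existing Gauss data (`S18lib.GaussDatum A F Fk`, value group = value group of the
base `A`) to the bare places of `S36lib/Norm`:

* `ofGauss D : Place F Fk`, `ofGauss_redF`;
* `isArch_ofGauss` (from `Frame.RankOneDvd A`);
* `liesOver_of_restricts` (`LSc.Restricts ⇒ LiesOver`);
* `valuation_algebraMap_*` : comparison of `D.O.valuation ∘ algebraMap` with `A.valuation`;
* `isUnif_ofGauss` : a uniformizer of `A` is a uniformizer of `D.O`;
* `ramOver_ofGauss` : an unramified (`e = 1`) `RamOver` from `Restricts`;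
* `exists_zpow_ofGauss` : discreteness of `D.O` from discreteness of `A`.
-/
import Mathlib
import Fermat.Agent.S18lib.Weak.Lemmas
import Fermat.Agent.LSb.Frame.Approx
import Fermat.Agent.LSc.Core.NormRed
import Fermat.Agent.S36lib.Norm.RamWrap

set_option autoImplicit false
set_option linter.unusedSectionVars false

noncomputable section

namespace Fermat.Agent.S36lib.Norm

open Fermat.Agent.S18lib Fermat.Agent.LSb Fermat.Agent.LSc

section

variable {L : Type*} [Field L] {A : ValuationSubring L}
variable {F : Type*} [Field F] [Algebra L F]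
variable {Fk : Type*} [Field Fk] [Algebra (IsLocalRing.ResidueField A) Fk]

/-- forget the base of a Gauss datum -/
def ofGauss (D : GaussDatum A F Fk) : Place F Fk := ⟨D.O, D.red, D.red_surjective⟩

@[simp] theorem ofGauss_O (D : GaussDatum A F Fk) : (ofGauss D).O = D.O := rfl

theorem ofGauss_redF (D : GaussDatum A F Fk) (y : F) : (ofGauss D).redF y = D.redF y := rfl

variable (D : GaussDatum A F Fk)

theorem inMax_iff_valuation_lt (z : F) : Frame.InMax D z ↔ D.O.valuation z < 1 := by
  constructor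
  · rintro ⟨hz, hred⟩
    have := (ofGauss D).redF_eq_zero_iff (x := z) hz
    exact this.1 hred
  · intro h
    have hz : z ∈ D.O := (D.O.valuation_le_one_iff z).1 h.le
    exact ⟨hz, (ofGauss D).redF_eq_zero_of_lt h⟩

theorem isArch_ofGauss (hA : Frame.RankOneDvd A) : IsArch D.O := by
  intro z hz x
  obtain ⟨N, -, hN⟩ := Frame.exists_pow_mul_inMax hA ((inMax_iff_valuation_lt D z).2 hz) x
  exact ⟨N, (D.O.valuation_le_one_iff _).2 hN.1⟩

theorem valuation_algebraMap_le_one_iff (c : L) :
    D.O.valuation (algebraMap L F c) ≤ 1 ↔ A.valuation c ≤ 1 := by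
  rw [D.O.valuation_le_one_iff, A.valuation_le_one_iff, D.algebraMap_mem_iff]

theorem valuation_algebraMap_lt_one_iff (c : L) :
    D.O.valuation (algebraMap L F c) < 1 ↔ A.valuation c < 1 := by
  constructor
  · intro h
    have hc : c ∈ A := (D.algebraMap_mem_iff c).1 ((D.O.valuation_le_one_iff _).1 h.le)
    have h0 : D.redF (algebraMap L F ((⟨c, hc⟩ : A) : L)) = 0 :=
      (ofGauss D).redF_eq_zero_of_lt h
    exact (A.valuation_lt_one_iff ⟨c, hc⟩).1 ((D.redF_algebraMap_eq_zero_iff ⟨c, hc⟩).1 h0)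
  · intro h
    have hc : c ∈ A := (A.valuation_le_one_iff c).1 h.le
    have h0 : D.redF (algebraMap L F ((⟨c, hc⟩ : A) : L)) = 0 :=
      (D.redF_algebraMap_eq_zero_iff ⟨c, hc⟩).2 ((A.valuation_lt_one_iff ⟨c, hc⟩).2 h)
    exact ((ofGauss D).redF_eq_zero_iff (x := algebraMap L F c) ((D.algebraMap_mem_iff c).2 hc)).1 h0

theorem valuation_algebraMap_le_iff {c d : L} (hd : d ≠ 0) :
    D.O.valuation (algebraMap L F c) ≤ D.O.valuation (algebraMap L F d) ↔
      A.valuation c ≤ A.valuation d := by
  have hd' : 0 < A.valuation d := zero_lt_iff.2 ((Valuation.ne_zero_iff _).2 hd)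
  have hdF : 0 < D.O.valuation (algebraMap L F d) :=
    zero_lt_iff.2 ((Valuation.ne_zero_iff _).2 ((map_ne_zero _).2 hd))
  have := valuation_algebraMap_le_one_iff D (c / d)
  rwa [map_div₀, map_div₀, map_div₀, div_le_one₀ hdF, div_le_one₀ hd'] at this

theorem valuation_algebraMap_eq_one_iff (c : L) :
    D.O.valuation (algebraMap L F c) = 1 ↔ A.valuation c = 1 := by
  constructor
  · intro h
    refine le_antisymm ((valuation_algebraMap_le_one_iff D c).1 h.le) (not_lt.1 fun hlt => ?_)
    have := (valuation_algebraMap_lt_one_iff D c).2 hlt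
    rw [h] at this
    exact lt_irrefl _ this
  · intro h
    refine le_antisymm ((valuation_algebraMap_le_one_iff D c).2 h.le) (not_lt.1 fun hlt => ?_)
    have := (valuation_algebraMap_lt_one_iff D c).1 hlt
    rw [h] at this
    exact lt_irrefl _ this

/-- the valuation of any nonzero function is the valuation of a constant -/
theorem exists_valuation_eq_algebraMap {y : F} (hy : y ≠ 0) :
    ∃ c : L, c ≠ 0 ∧ D.O.valuation y = D.O.valuation (algebraMap L F c) := by
  obtain ⟨c, hc, u, hu⟩ := D.exists_const_mul_isUnit y hy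
  refine ⟨c⁻¹, inv_ne_zero hc, ?_⟩
  have h1 : D.O.valuation ((u : D.O) : F) = 1 := D.O.valuation_unit u
  rw [← hu, map_mul] at h1
  rw [map_inv₀, map_inv₀]
  exact eq_inv_of_mul_eq_one_right h1

/-- a uniformizer of the base is a uniformizer of the Gauss valuation ring -/
theorem isUnif_ofGauss {πA : L} (hπ : IsUnif A πA) : IsUnif D.O (algebraMap L F πA) where
  ne_zero := (map_ne_zero _).2 hπ.ne_zero
  lt_one := (valuation_algebraMap_lt_one_iff D πA).2 hπ.lt_one
  gen := by
    intro y hy
    rcases eq_or_ne y 0 with rfl | hy0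
    · rw [map_zero]; exact zero_le
    obtain ⟨c, -, hc⟩ := exists_valuation_eq_algebraMap D hy0
    rw [hc] at hy ⊢
    exact (valuation_algebraMap_le_iff D hπ.ne_zero).2
      (hπ.gen c ((valuation_algebraMap_lt_one_iff D c).1 hy))

/-- discreteness of the Gauss valuation ring from discreteness of the base -/
theorem exists_zpow_ofGauss {πA : L} (hπ0 : πA ≠ 0)
    (hdisc : ∀ c : L, c ≠ 0 → ∃ n : ℤ, A.valuation c = A.valuation πA ^ n)
    {y : F} (hy : y ≠ 0) :
    ∃ n : ℤ, D.O.valuation y = D.O.valuation (algebraMap L F πA) ^ n := by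
  obtain ⟨c, hc0, hc⟩ := exists_valuation_eq_algebraMap D hy
  obtain ⟨n, hn⟩ := hdisc c hc0
  refine ⟨n, ?_⟩
  have hπn : πA ^ n ≠ 0 := zpow_ne_zero _ hπ0
  have h1 : A.valuation (c / πA ^ n) = 1 := by
    rw [map_div₀, map_zpow₀, hn]
    exact div_self (zpow_ne_zero _ ((Valuation.ne_zero_iff _).2 hπ0))
  have h2 := (valuation_algebraMap_eq_one_iff D _).2 h1
  rw [map_div₀, map_div₀, map_zpow₀, map_zpow₀, div_eq_one_iff_eq
    (zpow_ne_zero _ ((Valuation.ne_zero_iff _).2 ((map_ne_zero _).2 hπ0)))] at h2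
  rw [hc, h2]

end

section Over

variable {L : Type*} [Field L] {A : ValuationSubring L}
variable {F' F : Type*} [Field F'] [Field F] [Algebra L F'] [Algebra L F] [Algebra F' F]
variable {Fk0 Fk1 : Type*} [Field Fk0] [Field Fk1]
variable [Algebra (IsLocalRing.ResidueField A) Fk0] [Algebra (IsLocalRing.ResidueField A) Fk1]
  [Algebra Fk0 Fk1]

theorem liesOver_of_restricts {D0 : GaussDatum A F' Fk0} {D1 : GaussDatum A F Fk1}
    (h : Restricts D0 D1) : LiesOver (ofGauss D0) (ofGauss D1) :=
  ⟨h.mem, h.red⟩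

/-- an unramified extension of Gauss data, as a `RamOver` with `e = 1` -/
theorem ramOver_ofGauss [IsScalarTower L F' F] {D0 : GaussDatum A F' Fk0}
    {D1 : GaussDatum A F Fk1} (hA : Frame.RankOneDvd A) {πA : L} (hπ : IsUnif A πA)
    (h : Restricts D0 D1) :
    RamOver (ofGauss D0) (algebraMap L F' πA) (ofGauss D1) (algebraMap L F πA) 1 where
  liesOver := liesOver_of_restricts h
  arch := isArch_ofGauss D1 hA
  unif := isUnif_ofGauss D1 hπ
  ram := by
    rw [pow_one, ← IsScalarTower.algebraMap_apply L F' F πA]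

end Over

end Fermat.Agent.S36lib.Norm
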