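/-
S36lib / Norm / ApproxFamily  (helper7)

APPROXIMATION THEOREM for a finite family of pairwise incomparable valuation subrings `O i`
of a field `F`, each of "rank one" in the elementary form `IsArch` (powers of a non-unit kill
every denominator).  Mathlib only, no Gauss data, no base field.

Main statements (`v i := (O i).valuation`):

* `exists_sep`      : `∃ x, v i x < 1 ∧ ∀ j ∈ s, 1 < v j x`            (`i ∉ s`)
* `exists_idem`     : `∃ θ, v i ((θ - 1) * y i) < 1 ∧ ∀ j ≠ i, v j (θ * y j) < 1`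
* `exists_approx`   : `∃ x, ∀ i, v i (x - a i) < v i (c i)`            (`c i ≠ 0`)
* `exists_valuation_eq` : `∃ x ≠ 0, ∀ i, v i x = v i (a i)`            (`a i ≠ 0`)
* `exists_mem_sub_mem_nonunits` : membership form of `exists_approx` with `c = 1`
* `isArch_of_uniformizer`, `not_le_of_isArch` : how to get the hypotheses.
-/
import Mathlib

set_option autoImplicit false

namespace Fermat.Agent.S36lib.Norm

variable {F : Type*} [Field F]

/-- Elementary form of "rank one": powers of an element of the maximal ideal kill every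
denominator. -/
def IsArch (O : ValuationSubring F) : Prop :=
  ∀ z : F, O.valuation z < 1 → ∀ x : F, ∃ n : ℕ, O.valuation (z ^ n * x) ≤ 1

theorem IsArch.eventually_lt {O : ValuationSubring F} (hO : IsArch O) {z : F}
    (hz : O.valuation z < 1) (x : F) :
    ∃ n : ℕ, ∀ m, n ≤ m → O.valuation (z ^ m * x) < 1 := by
  obtain ⟨n, hn⟩ := hO z hz x
  refine ⟨n + 1, fun m hm => ?_⟩
  obtain ⟨k, rfl⟩ : ∃ k, m = (k + 1) + n := ⟨m - (n + 1), by omega⟩
  rw [pow_add, mul_assoc, map_mul, map_pow]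
  calc O.valuation z ^ (k + 1) * O.valuation (z ^ n * x)
      ≤ O.valuation z ^ (k + 1) * 1 := mul_le_mul' le_rfl hn
    _ = O.valuation z ^ (k + 1) := mul_one _
    _ < 1 := pow_lt_one₀ zero_le hz (Nat.succ_ne_zero k)

/-- finitely many "eventually" statements hold simultaneously -/
theorem exists_uniform {ι : Type*} (s : Finset ι) (P : ι → ℕ → Prop)
    (h : ∀ j ∈ s, ∃ n, ∀ m, n ≤ m → P j m) : ∃ N, ∀ j ∈ s, ∀ m, N ≤ m → P j m := by
  classical
  induction s using Finset.induction_on with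
  | empty => exact ⟨0, by simp⟩
  | insert k s hk ih =>
    obtain ⟨N, hN⟩ := ih (fun j hj => h j (Finset.mem_insert_of_mem hj))
    obtain ⟨n, hn⟩ := h k (Finset.mem_insert_self k s)
    refine ⟨max N n, fun j hj m hm => ?_⟩
    rcases Finset.mem_insert.1 hj with rfl | hj
    · exact hn m (le_trans (le_max_right _ _) hm)
    · exact hN j hj m (le_trans (le_max_left _ _) hm)

/-- two incomparable valuation rings are separated by an element -/
theorem exists_sep_pair {O₁ O₂ : ValuationSubring F} (h12 : ¬ O₁ ≤ O₂) (h21 : ¬ O₂ ≤ O₁) :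
    ∃ z : F, O₁.valuation z < 1 ∧ 1 < O₂.valuation z := by
  obtain ⟨x, hx1, hx2⟩ := SetLike.not_le_iff_exists.1 h12
  obtain ⟨y, hy2, hy1⟩ := SetLike.not_le_iff_exists.1 h21
  have hy0 : y ≠ 0 := by rintro rfl; exact hy1 O₁.zero_mem
  have a1 : O₁.valuation x ≤ 1 := (O₁.valuation_le_one_iff x).2 hx1
  have a2 : 1 < O₁.valuation y := lt_of_not_ge fun h => hy1 ((O₁.valuation_le_one_iff y).1 h)
  have b1 : O₂.valuation y ≤ 1 := (O₂.valuation_le_one_iff y).2 hy2
  have b2 : 1 < O₂.valuation x := lt_of_not_ge fun h => hx2 ((O₂.valuation_le_one_iff x).1 h)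
  have hvy : 0 < O₂.valuation y := zero_lt_iff.2 ((Valuation.ne_zero_iff _).2 hy0)
  refine ⟨x / y, ?_, ?_⟩
  · rw [map_div₀, div_lt_one₀ (lt_trans zero_lt_one a2)]
    exact lt_of_le_of_lt a1 a2
  · rw [map_div₀, one_lt_div₀ hvy]
    exact lt_of_le_of_lt b1 b2

/-- adding a large power of `z` to `y` (with `1 < v y`) keeps the valuation `> 1` -/
theorem IsArch.eventually_one_lt_add {O : ValuationSubring F} (hO : IsArch O) {y : F}
    (hy : 1 < O.valuation y) (z : F) :
    ∃ n : ℕ, ∀ m, n ≤ m → 1 < O.valuation (y + z ^ m) := by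
  rcases le_or_gt (O.valuation z) 1 with hz | hz
  · refine ⟨0, fun m _ => ?_⟩
    have hlt : O.valuation (z ^ m) < O.valuation y := by
      rw [map_pow]
      exact lt_of_le_of_lt (pow_le_one₀ zero_le hz) hy
    rw [Valuation.map_add_eq_of_lt_left _ hlt]
    exact hy
  · have hzi : O.valuation z⁻¹ < 1 := by
      rw [map_inv₀]
      exact inv_lt_one_of_one_lt₀ hz
    obtain ⟨n, hn⟩ := hO.eventually_lt hzi y
    refine ⟨n, fun m hm => ?_⟩
    have h1 := hn m hm
    have hpos : 0 < O.valuation (z ^ m) := by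
      rw [map_pow]
      exact pow_pos (lt_trans zero_lt_one hz) m
    have hlt : O.valuation y < O.valuation (z ^ m) := by
      rw [inv_pow, map_mul, map_inv₀, inv_mul_lt_iff₀ hpos, mul_one] at h1
      exact h1
    rw [Valuation.map_add_eq_of_lt_right _ hlt]
    exact lt_trans hy hlt

section Family

variable {ι : Type*} (O : ι → ValuationSubring F)

/-- **Separation for a family.** -/
theorem exists_sep (hO : ∀ i j, i ≠ j → ¬ O i ≤ O j) (harch : ∀ i, IsArch (O i))
    (i : ι) (s : Finset ι) (hi : i ∉ s) :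
    ∃ x : F, (O i).valuation x < 1 ∧ ∀ j ∈ s, 1 < (O j).valuation x := by
  classical
  induction s using Finset.induction_on with
  | empty => exact ⟨0, by simp, by simp⟩
  | insert k s hk ih =>
    have hik : i ≠ k := fun h => hi (h ▸ Finset.mem_insert_self _ _)
    have his : i ∉ s := fun h => hi (Finset.mem_insert_of_mem h)
    obtain ⟨y, hyi, hys⟩ := ih his
    by_cases hyk : 1 < (O k).valuation y
    · refine ⟨y, hyi, fun j hj => ?_⟩
      rcases Finset.mem_insert.1 hj with rfl | hj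
      · exact hyk
      · exact hys j hj
    · have hyk' : (O k).valuation y ≤ 1 := not_lt.1 hyk
      obtain ⟨z, hzi, hzk⟩ := exists_sep_pair (hO i k hik) (hO k i (Ne.symm hik))
      obtain ⟨N, hN⟩ := exists_uniform s (fun j m => 1 < (O j).valuation (y + z ^ m))
        (fun j hj => (harch j).eventually_one_lt_add (hys j hj) z)
      refine ⟨y + z ^ (N + 1), ?_, fun j hj => ?_⟩
      · refine Valuation.map_add_lt _ hyi ?_
        rw [map_pow]
        exact pow_lt_one₀ zero_le hzi (Nat.succ_ne_zero N)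
      · rcases Finset.mem_insert.1 hj with rfl | hj
        · have h1 : 1 < (O j).valuation (z ^ (N + 1)) := by
            rw [map_pow]
            exact one_lt_pow₀ hzk (Nat.succ_ne_zero N)
          rw [Valuation.map_add_eq_of_lt_right _ (lt_of_le_of_lt hyk' h1)]
          exact h1
        · exact hN j hj (N + 1) (Nat.le_succ N)

variable [Fintype ι] [DecidableEq ι]

/-- **Approximate idempotents.**  `θ ≡ 1` at `i` and `θ ≡ 0` at the other places, to any
prescribed precision (`y`). -/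
theorem exists_idem (hO : ∀ i j, i ≠ j → ¬ O i ≤ O j) (harch : ∀ i, IsArch (O i))
    (i : ι) (y : ι → F) :
    ∃ θ : F, (O i).valuation ((θ - 1) * y i) < 1 ∧
      ∀ j, j ≠ i → (O j).valuation (θ * y j) < 1 := by
  obtain ⟨x, hxi, hxs⟩ := exists_sep O hO harch i (Finset.univ.erase i) (by simp)
  have hxj : ∀ j, j ≠ i → 1 < (O j).valuation x := fun j hj =>
    hxs j (Finset.mem_erase.2 ⟨hj, Finset.mem_univ j⟩)
  obtain ⟨n₀, hn₀⟩ := (harch i).eventually_lt hxi (y i)
  obtain ⟨N, hN⟩ := exists_uniform (Finset.univ.erase i)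
    (fun j m => (O j).valuation (x⁻¹ ^ m * y j) < 1)
    (fun j hj => (harch j).eventually_lt (by
      rw [map_inv₀]
      exact inv_lt_one_of_one_lt₀ (hxj j (Finset.mem_erase.1 hj).1)) (y j))
  set M := max (max n₀ N) 1 with hM
  have hM1 : M ≠ 0 := by
    have : 1 ≤ M := le_max_right _ _
    omega
  have hMn : n₀ ≤ M := le_trans (le_max_left _ _) (le_max_left _ _)
  have hMN : N ≤ M := le_trans (le_max_right _ _) (le_max_left _ _)
  have hxM : (O i).valuation (x ^ M) < 1 := by
    rw [map_pow]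
    exact pow_lt_one₀ zero_le hxi hM1
  have h1 : (O i).valuation (1 + x ^ M) = 1 := Valuation.map_one_add_of_lt _ hxM
  have hne : 1 + x ^ M ≠ 0 := by
    intro h0
    rw [h0, map_zero] at h1
    exact zero_ne_one h1
  refine ⟨(1 + x ^ M)⁻¹, ?_, fun j hj => ?_⟩
  · have : (1 + x ^ M)⁻¹ - 1 = -(x ^ M) * (1 + x ^ M)⁻¹ := by
      field_simp
      ring
    rw [this, mul_right_comm, map_mul, map_inv₀, h1, inv_one, mul_one, neg_mul,
      Valuation.map_neg]
    exact hn₀ M hMn
  · have hj1 : 1 < (O j).valuation (x ^ M) := by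
      rw [map_pow]
      exact one_lt_pow₀ (hxj j hj) hM1
    have h2 : (O j).valuation (1 + x ^ M) = (O j).valuation (x ^ M) :=
      Valuation.map_add_eq_of_lt_right _ (by rw [map_one]; exact hj1)
    have := hN j (Finset.mem_erase.2 ⟨hj, Finset.mem_univ j⟩) M hMN
    rw [map_mul, map_inv₀, h2, ← map_inv₀, ← map_mul, ← inv_pow]
    exact this

/-- **Approximation theorem.** -/
theorem exists_approx (hO : ∀ i j, i ≠ j → ¬ O i ≤ O j) (harch : ∀ i, IsArch (O i))
    (a c : ι → F) (hc : ∀ i, c i ≠ 0) :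
    ∃ x : F, ∀ i, (O i).valuation (x - a i) < (O i).valuation (c i) := by
  choose θ hθ1 hθ2 using fun i => exists_idem O hO harch i (fun k => a i / c k)
  refine ⟨∑ i, θ i * a i, fun k => ?_⟩
  have hck : 0 < (O k).valuation (c k) := zero_lt_iff.2 ((Valuation.ne_zero_iff _).2 (hc k))
  have hsplit : ∑ i, θ i * a i - a k =
      (θ k - 1) * a k + ∑ i ∈ Finset.univ.erase k, θ i * a i := by
    rw [← Finset.add_sum_erase Finset.univ (fun i => θ i * a i) (Finset.mem_univ k)]
    ring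
  have hlt : ∀ u : F, (O k).valuation (u / c k) < 1 → (O k).valuation u < (O k).valuation (c k) := by
    intro u hu
    rwa [map_div₀, div_lt_one₀ hck] at hu
  rw [hsplit]
  refine Valuation.map_add_lt _ ?_ (Valuation.map_sum_lt _ (ne_of_gt hck) fun i hi => ?_)
  · apply hlt
    rw [mul_div_assoc]
    exact hθ1 k
  · apply hlt
    rw [mul_div_assoc]
    exact hθ2 i k (Ne.symm (Finset.mem_erase.1 hi).1)

/-- prescribed valuations -/
theorem exists_valuation_eq [Nonempty ι] (hO : ∀ i j, i ≠ j → ¬ O i ≤ O j)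
    (harch : ∀ i, IsArch (O i)) (a : ι → F) (ha : ∀ i, a i ≠ 0) :
    ∃ x : F, x ≠ 0 ∧ ∀ i, (O i).valuation x = (O i).valuation (a i) := by
  obtain ⟨x, hx⟩ := exists_approx O hO harch a a ha
  have hv : ∀ i, (O i).valuation x = (O i).valuation (a i) := fun i =>
    Valuation.map_eq_of_sub_lt _ (hx i)
  refine ⟨x, ?_, hv⟩
  rintro rfl
  obtain ⟨i⟩ := ‹Nonempty ι›
  have := hv i
  rw [map_zero] at this
  exact (Valuation.ne_zero_iff _).2 (ha i) this.symm

/-- membership form: prescribed residues (`x - a i ∈ 𝔪_i`) -/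
theorem exists_sub_mem_nonunits (hO : ∀ i j, i ≠ j → ¬ O i ≤ O j) (harch : ∀ i, IsArch (O i))
    (a : ι → F) : ∃ x : F, ∀ i, x - a i ∈ (O i).nonunits := by
  obtain ⟨x, hx⟩ := exists_approx O hO harch a (fun _ => 1) (fun _ => one_ne_zero)
  refine ⟨x, fun i => ?_⟩
  rw [ValuationSubring.mem_nonunits_iff]
  simpa using hx i

end Family

/-- a valuation ring with a "uniformizer" (value group `= ⟨v ϖ⟩`) is of rank one -/
theorem isArch_of_uniformizer {O : ValuationSubring F} (ϖ : F) (h0 : ϖ ≠ 0)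
    (h1 : O.valuation ϖ < 1)
    (hgen : ∀ x : F, x ≠ 0 → ∃ n : ℤ, O.valuation x = O.valuation ϖ ^ n) : IsArch O := by
  intro z hz x
  rcases eq_or_ne x 0 with rfl | hx
  · exact ⟨0, by simp⟩
  rcases eq_or_ne z 0 with rfl | hz0
  · exact ⟨1, by simp⟩
  obtain ⟨a, ha⟩ := hgen z hz0
  obtain ⟨b, hb⟩ := hgen x hx
  have hϖ0 : 0 < O.valuation ϖ := zero_lt_iff.2 ((Valuation.ne_zero_iff _).2 h0)
  -- `a > 0`
  have ha0 : 0 < a := by
    by_contra hneg
    have : a ≤ 0 := not_lt.1 hneg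
    have h2 : 1 ≤ O.valuation ϖ ^ a := one_le_zpow_of_nonpos₀ hϖ0 h1.le this
    rw [← ha] at h2
    exact not_lt.2 h2 hz
  refine ⟨(-b).toNat, ?_⟩
  rw [map_mul, map_pow, ha, hb, ← zpow_natCast, ← zpow_mul, ← zpow_add₀ (ne_of_gt hϖ0)]
  refine zpow_le_one₀ hϖ0 h1.le ?_
  have h3 : -b ≤ ((-b).toNat : ℤ) := Int.self_le_toNat _
  have h4 : (0 : ℤ) ≤ ((-b).toNat : ℤ) := Int.natCast_nonneg _
  nlinarith

/-- a rank one valuation ring is maximal among proper subrings: distinct ⇒ incomparable -/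
theorem not_le_of_isArch {O₁ O₂ : ValuationSubring F} (h1 : IsArch O₁) (h2 : O₂ ≠ ⊤)
    (hne : O₁ ≠ O₂) : ¬ O₁ ≤ O₂ := by
  intro hle
  apply h2
  have hnot : ¬ O₂ ≤ O₁ := fun h => hne (le_antisymm hle h)
  obtain ⟨x, hx2, hx1⟩ := SetLike.not_le_iff_exists.1 hnot
  have hx0 : x ≠ 0 := by rintro rfl; exact hx1 O₁.zero_mem
  have hxi : O₁.valuation x⁻¹ < 1 := by
    rw [map_inv₀]
    exact inv_lt_one_of_one_lt₀ (lt_of_not_ge fun h => hx1 ((O₁.valuation_le_one_iff x).1 h))
  rw [eq_top_iff]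
  intro y _
  obtain ⟨n, hn⟩ := h1 x⁻¹ hxi y
  have hmem : x⁻¹ ^ n * y ∈ O₂ := hle ((O₁.valuation_le_one_iff _).1 hn)
  have : y = x ^ n * (x⁻¹ ^ n * y) := by
    rw [← mul_assoc, ← mul_pow, mul_inv_cancel₀ hx0, one_pow, one_mul]
  rw [this]
  exact O₂.mul_mem _ _ (O₂.pow_mem hx2 n) hmem

end Fermat.Agent.S36lib.Norm
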