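/-
S36lib / Norm / Place  (helper7)

A bare "place" of a field `F`: a valuation subring `O` together with a presentation
`red : O →+* κ` (surjective) of its residue field.  No base field, no value group condition
(so ramified valuations such as `v₁₁` at level `q²` fit).  Total reduction `redF : F → κ`
(`0` outside `O`) with the usual calculus, the kernel is the maximal ideal
(`redF_eq_zero_iff : P.redF x = 0 ↔ P.O.valuation x < 1` for `x ∈ O`), and simultaneous lifting
of residues for a finite family of pairwise incomparable rank one places (`exists_lift_family`).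
Mathlib only (+ `ApproxFamily`).
-/
import Mathlib
import Fermat.Agent.S36lib.Norm.ApproxFamily

set_option autoImplicit false

noncomputable section

namespace Fermat.Agent.S36lib.Norm

/-- A valuation subring of `F` with a presentation `κ` of its residue field. -/
structure Place (F : Type*) [Field F] (κ : Type*) [Field κ] where
  /-- the valuation ring -/
  O : ValuationSubring F
  /-- the reduction map -/
  red : O →+* κ
  red_surjective : Function.Surjective red

namespace Place

variable {F : Type*} [Field F] {κ : Type*} [Field κ] (P : Place F κ)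

/-- total version of the reduction map: `0` outside `O` -/
def redF (y : F) : κ :=
  letI := Classical.propDecidable
  if h : y ∈ P.O then P.red ⟨y, h⟩ else 0

theorem redF_of_mem {y : F} (h : y ∈ P.O) : P.redF y = P.red ⟨y, h⟩ := by
  classical
  rw [redF, dif_pos h]

theorem redF_of_not_mem {y : F} (h : y ∉ P.O) : P.redF y = 0 := by
  classical
  rw [redF, dif_neg h]

@[simp] theorem redF_zero : P.redF 0 = 0 := by
  rw [P.redF_of_mem P.O.zero_mem]
  exact map_zero P.red

@[simp] theorem redF_one : P.redF 1 = 1 := by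
  rw [P.redF_of_mem P.O.one_mem]
  exact map_one P.red

theorem redF_add {x y : F} (hx : x ∈ P.O) (hy : y ∈ P.O) :
    P.redF (x + y) = P.redF x + P.redF y := by
  rw [P.redF_of_mem hx, P.redF_of_mem hy, P.redF_of_mem (P.O.add_mem _ _ hx hy)]
  exact map_add P.red ⟨x, hx⟩ ⟨y, hy⟩

theorem redF_mul {x y : F} (hx : x ∈ P.O) (hy : y ∈ P.O) :
    P.redF (x * y) = P.redF x * P.redF y := by
  rw [P.redF_of_mem hx, P.redF_of_mem hy, P.redF_of_mem (P.O.mul_mem _ _ hx hy)]
  exact map_mul P.red ⟨x, hx⟩ ⟨y, hy⟩

theorem redF_neg {x : F} (hx : x ∈ P.O) : P.redF (-x) = -P.redF x := by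
  rw [P.redF_of_mem hx, P.redF_of_mem (P.O.neg_mem _ hx)]
  exact map_neg P.red ⟨x, hx⟩

theorem redF_sub {x y : F} (hx : x ∈ P.O) (hy : y ∈ P.O) :
    P.redF (x - y) = P.redF x - P.redF y := by
  rw [sub_eq_add_neg, P.redF_add hx (P.O.neg_mem _ hy), P.redF_neg hy, sub_eq_add_neg]

theorem redF_pow {x : F} (hx : x ∈ P.O) (n : ℕ) : P.redF (x ^ n) = P.redF x ^ n := by
  rw [P.redF_of_mem hx, P.redF_of_mem (P.O.pow_mem hx n)]
  exact map_pow P.red ⟨x, hx⟩ n

theorem redF_sum {ι : Type*} (s : Finset ι) (f : ι → F) (hf : ∀ i ∈ s, f i ∈ P.O) :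
    P.redF (∑ i ∈ s, f i) = ∑ i ∈ s, P.redF (f i) := by
  classical
  induction s using Finset.induction_on with
  | empty => simp
  | insert k s hk ih =>
    have h1 : f k ∈ P.O := hf k (Finset.mem_insert_self k s)
    have h2 : ∀ i ∈ s, f i ∈ P.O := fun i hi => hf i (Finset.mem_insert_of_mem hi)
    rw [Finset.sum_insert hk, Finset.sum_insert hk, P.redF_add h1 (P.O.sum_mem h2), ih h2]

theorem redF_prod {ι : Type*} (s : Finset ι) (f : ι → F) (hf : ∀ i ∈ s, f i ∈ P.O) :
    P.redF (∏ i ∈ s, f i) = ∏ i ∈ s, P.redF (f i) := by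
  classical
  induction s using Finset.induction_on with
  | empty => simp
  | insert k s hk ih =>
    have h1 : f k ∈ P.O := hf k (Finset.mem_insert_self k s)
    have h2 : ∀ i ∈ s, f i ∈ P.O := fun i hi => hf i (Finset.mem_insert_of_mem hi)
    rw [Finset.prod_insert hk, Finset.prod_insert hk, P.redF_mul h1 (P.O.prod_mem h2), ih h2]

theorem ker_red : RingHom.ker P.red = IsLocalRing.maximalIdeal P.O :=
  IsLocalRing.eq_maximalIdeal (RingHom.ker_isMaximal_of_surjective P.red P.red_surjective)

/-- the kernel of the reduction is the maximal ideal -/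
theorem redF_eq_zero_iff {x : F} (hx : x ∈ P.O) : P.redF x = 0 ↔ P.O.valuation x < 1 := by
  rw [P.redF_of_mem hx, ← RingHom.mem_ker, P.ker_red, ValuationSubring.valuation_lt_one_iff]

theorem redF_eq_zero_of_lt {x : F} (hx : P.O.valuation x < 1) : P.redF x = 0 :=
  (P.redF_eq_zero_iff ((P.O.valuation_le_one_iff x).1 hx.le)).2 hx

theorem valuation_eq_one_of_redF_ne_zero {x : F} (hx : P.redF x ≠ 0) : P.O.valuation x = 1 := by
  have hmem : x ∈ P.O := by
    by_contra h
    exact hx (P.redF_of_not_mem h)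
  refine le_antisymm ((P.O.valuation_le_one_iff x).2 hmem) (not_lt.1 fun h => ?_)
  exact hx ((P.redF_eq_zero_iff hmem).2 h)

theorem mem_of_redF_ne_zero {x : F} (hx : P.redF x ≠ 0) : x ∈ P.O := by
  by_contra h
  exact hx (P.redF_of_not_mem h)

theorem redF_ne_zero_iff {x : F} (hx : x ∈ P.O) : P.redF x ≠ 0 ↔ P.O.valuation x = 1 := by
  refine ⟨P.valuation_eq_one_of_redF_ne_zero, fun h h0 => ?_⟩
  have := (P.redF_eq_zero_iff hx).1 h0
  rw [h] at this
  exact lt_irrefl _ this

theorem inv_mem_of_redF_ne_zero {x : F} (hx : P.redF x ≠ 0) : x⁻¹ ∈ P.O := by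
  rw [← P.O.valuation_le_one_iff, map_inv₀, P.valuation_eq_one_of_redF_ne_zero hx, inv_one]

theorem redF_inv {x : F} (hx : P.redF x ≠ 0) : P.redF x⁻¹ = (P.redF x)⁻¹ := by
  have hmem := P.mem_of_redF_ne_zero hx
  have hx0 : x ≠ 0 := by
    rintro rfl
    exact hx P.redF_zero
  have := P.redF_mul hmem (P.inv_mem_of_redF_ne_zero hx)
  rw [mul_inv_cancel₀ hx0, P.redF_one] at this
  exact eq_inv_of_mul_eq_one_right this.symm

/-- two elements of `O` congruent modulo the maximal ideal have the same reduction -/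
theorem redF_eq_of_sub_lt {x y : F} (hy : y ∈ P.O) (h : P.O.valuation (x - y) < 1) :
    P.redF x = P.redF y := by
  have hd : x - y ∈ P.O := (P.O.valuation_le_one_iff _).1 h.le
  have hx : x ∈ P.O := by
    have := P.O.add_mem _ _ hd hy
    rwa [sub_add_cancel] at this
  have := P.redF_sub hx hy
  rw [P.redF_eq_zero_of_lt h] at this
  exact (sub_eq_zero.1 this.symm)

/-- every residue has a lift -/
theorem exists_redF_eq (η : κ) : ∃ x : F, x ∈ P.O ∧ P.redF x = η := by
  obtain ⟨y, hy⟩ := P.red_surjective η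
  exact ⟨y, y.2, by rw [P.redF_of_mem y.2]; exact hy⟩

end Place

section Family

variable {F : Type*} [Field F] {ι : Type*} [Fintype ι] [DecidableEq ι]
variable {κ : ι → Type*} [∀ i, Field (κ i)] (P : ∀ i, Place F (κ i))

/-- **Simultaneous lifting of residues** for finitely many pairwise incomparable rank one
places. -/
theorem exists_lift_family (hO : ∀ i j, i ≠ j → ¬ (P i).O ≤ (P j).O)
    (harch : ∀ i, IsArch (P i).O) (η : ∀ i, κ i) :
    ∃ x : F, ∀ i, x ∈ (P i).O ∧ (P i).redF x = η i := by
  choose a ha1 ha2 using fun i => (P i).exists_redF_eq (η i)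
  obtain ⟨x, hx⟩ := exists_approx (fun i => (P i).O) hO harch a (fun _ => 1)
    (fun _ => one_ne_zero)
  refine ⟨x, fun i => ?_⟩
  have hi : (P i).O.valuation (x - a i) < 1 := by simpa using hx i
  have hd : x - a i ∈ (P i).O := ((P i).O.valuation_le_one_iff _).1 hi.le
  have hmem : x ∈ (P i).O := by
    have := (P i).O.add_mem _ _ hd (ha1 i)
    rwa [sub_add_cancel] at this
  exact ⟨hmem, by rw [(P i).redF_eq_of_sub_lt (ha1 i) hi, ha2 i]⟩

end Family

end Fermat.Agent.S36lib.Norm
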