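/-
S36lib / Norm / ThickBridge  (helper7)

Bridges from helper6's thick datum (`S36lib/Thick/Datum`) to the bare places of `S36lib/Norm`:

* `ofRamGauss V : Place F Fk` for `V : RamGaussDatum R F Fk`, `ofRamGauss_redF`;
* `exists_zpow_ofRamGauss`, `isUnif_ofRamGauss`, `isArch_ofRamGauss` (discreteness of `V.O`);
* for a `ThickCtx`: `thick_isUnif_base` (`IsUnif R π`), `thick_exists_zpow_base`,
  `thick_unif_ne_zero`, and the three places are of rank one (`thick_isArch₁/₂/₃`)
  with uniformizers `π`, `ϖ`, `π` (`thick_isUnif₁/₂/₃`), `thick_valuation₂_pi`.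
-/
import Mathlib
import Fermat.Agent.S36lib.Thick.Datum
import Fermat.Agent.S36lib.Norm.Bridge

set_option autoImplicit false
set_option linter.unusedSectionVars false

noncomputable section

namespace Fermat.Agent.S36lib.Norm

open Fermat.Agent.S18lib Fermat.Agent.S36lib.Thick

section Ram

variable {K : Type*} [Field K] {R : ValuationSubring K}
variable {F : Type*} [Field F] [Algebra K F]
variable {Fk : Type*} [Field Fk] [Algebra (IsLocalRing.ResidueField R) Fk]

/-- forget the base of a ramified Gauss datum -/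
def ofRamGauss (V : RamGaussDatum R F Fk) : Place F Fk := ⟨V.O, V.red, V.red_surjective⟩

@[simp] theorem ofRamGauss_O (V : RamGaussDatum R F Fk) : (ofRamGauss V).O = V.O := rfl

variable (V : RamGaussDatum R F Fk)

theorem valuation_unif_lt_one : V.O.valuation V.unif < 1 := by
  have h := (ofRamGauss V).redF_eq_zero_iff (x := V.unif) V.unif_mem
  refine h.1 ?_
  rw [(ofRamGauss V).redF_of_mem V.unif_mem]
  exact V.red_unif

/-- discreteness of `V.O` in valuation form -/
theorem exists_zpow_ofRamGauss {y : F} (hy : y ≠ 0) :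
    ∃ n : ℤ, V.O.valuation y = V.O.valuation V.unif ^ n := by
  obtain ⟨j, u, hu⟩ := V.exists_zpow_mul_isUnit y hy
  refine ⟨j, ?_⟩
  rw [hu, map_mul, map_zpow₀, V.O.valuation_unit u, mul_one]

theorem isArch_ofRamGauss (hϖ : V.unif ≠ 0) : IsArch V.O :=
  isArch_of_uniformizer V.unif hϖ (valuation_unif_lt_one V) fun _ hy =>
    exists_zpow_ofRamGauss V hy

theorem isUnif_ofRamGauss (hϖ : V.unif ≠ 0) : IsUnif V.O V.unif where
  ne_zero := hϖ
  lt_one := valuation_unif_lt_one V
  gen := by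
    intro y hy
    rcases eq_or_ne y 0 with rfl | hy0
    · rw [map_zero]; exact zero_le
    obtain ⟨n, hn⟩ := exists_zpow_ofRamGauss V hy0
    have hpos : 0 < V.O.valuation V.unif :=
      zero_lt_iff.2 ((Valuation.ne_zero_iff _).2 hϖ)
    have hlt := valuation_unif_lt_one V
    rw [hn] at hy ⊢
    have hn1 : 1 ≤ n := by
      by_contra hneg
      have hn0 : n ≤ 0 := by omega
      have := one_le_zpow_of_nonpos₀ hpos hlt.le hn0
      exact absurd hy (not_lt.2 this)
    calc V.O.valuation V.unif ^ n ≤ V.O.valuation V.unif ^ (1 : ℤ) :=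
          zpow_le_zpow_right_of_le_one₀ hpos hlt.le hn1
      _ = V.O.valuation V.unif := zpow_one _

end Ram

section Ctx

variable {K : Type*} [Field K] {R : ValuationSubring K}
variable {F : Type*} [Field F] [Algebra K F]
variable {F₁ F₂ F₃ : Type*} [Field F₁] [Field F₂] [Field F₃]
variable [Algebra (IsLocalRing.ResidueField R) F₁] [Algebra (IsLocalRing.ResidueField R) F₂]
variable [Algebra (IsLocalRing.ResidueField R) F₃]
variable {D : ThickDatum R F F₁ F₂ F₃} {g g₁ g₂ g₃ : ℕ}

theorem red₂_eq_redF (D : ThickDatum R F F₁ F₂ F₃) (y : F) :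
    D.red₂ y = (ofRamGauss D.V₂).redF y := rfl

variable (h : ThickCtx D g g₁ g₂ g₃)
include h

theorem thick_pi_ne_zero : D.π ≠ 0 := by
  intro h0
  apply h.π_not_unit
  rw [h0, inv_zero]
  exact R.zero_mem

/-- discreteness of the base in valuation form -/
theorem thick_exists_zpow_base {c : K} (hc : c ≠ 0) :
    ∃ n : ℤ, R.valuation c = R.valuation D.π ^ n := by
  obtain ⟨m, h1, h2⟩ := h.exists_zpow_mul_unit c hc
  refine ⟨m, ?_⟩
  have hπ : R.valuation D.π ≠ 0 := (Valuation.ne_zero_iff _).2 (thick_pi_ne_zero h)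
  rw [← R.valuation_le_one_iff] at h1 h2
  rw [map_inv₀] at h2
  have hcm : c * D.π ^ (-m) ≠ 0 := mul_ne_zero hc (zpow_ne_zero _ (thick_pi_ne_zero h))
  have hpos : 0 < R.valuation (c * D.π ^ (-m)) :=
    zero_lt_iff.2 ((Valuation.ne_zero_iff _).2 hcm)
  have h3 : R.valuation (c * D.π ^ (-m)) = 1 :=
    le_antisymm h1 ((inv_le_one₀ hpos).1 h2)
  rw [map_mul, map_zpow₀, zpow_neg] at h3
  exact (mul_inv_eq_one₀ (zpow_ne_zero _ hπ)).1 h3

theorem thick_valuation_pi_lt_one : R.valuation D.π < 1 := by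
  refine lt_of_le_of_ne ((R.valuation_le_one_iff _).2 h.π_mem) fun h1 => ?_
  apply h.π_not_unit
  rw [← R.valuation_le_one_iff, map_inv₀, h1, inv_one]

theorem thick_isUnif_base : IsUnif R D.π where
  ne_zero := (thick_pi_ne_zero h)
  lt_one := (thick_valuation_pi_lt_one h)
  gen := by
    intro y hy
    rcases eq_or_ne y 0 with rfl | hy0
    · rw [map_zero]; exact zero_le
    obtain ⟨n, hn⟩ := (thick_exists_zpow_base h) hy0
    have hpos : 0 < R.valuation D.π := zero_lt_iff.2 ((Valuation.ne_zero_iff _).2 (thick_pi_ne_zero h))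
    have hlt := (thick_valuation_pi_lt_one h)
    rw [hn] at hy ⊢
    have hn1 : 1 ≤ n := by
      by_contra hneg
      have hn0 : n ≤ 0 := by omega
      have := one_le_zpow_of_nonpos₀ hpos hlt.le hn0
      exact absurd hy (not_lt.2 this)
    calc R.valuation D.π ^ n ≤ R.valuation D.π ^ (1 : ℤ) :=
          zpow_le_zpow_right_of_le_one₀ hpos hlt.le hn1
      _ = R.valuation D.π := zpow_one _

theorem thick_unif_ne_zero : D.ϖ ≠ 0 := by
  intro h0
  obtain ⟨u, hu⟩ := h.unif_pow
  rw [h0, zero_pow (Nat.pos_iff_ne_zero.1 h.e_pos)] at hu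
  have hu0 : ((u : D.V₂.O) : F) ≠ 0 := by
    intro h1
    have := D.V₂.O.valuation_unit u
    rw [h1, map_zero] at this
    exact zero_ne_one this
  exact mul_ne_zero ((map_ne_zero _).2 (thick_pi_ne_zero h)) hu0 hu.symm

theorem thick_isUnif₁ : IsUnif D.V₁.O (algebraMap K F D.π) := isUnif_ofGauss D.V₁ (thick_isUnif_base h)

theorem thick_isUnif₃ : IsUnif D.V₃.O (algebraMap K F D.π) := isUnif_ofGauss D.V₃ (thick_isUnif_base h)

theorem thick_isUnif₂ : IsUnif D.V₂.O D.ϖ := isUnif_ofRamGauss D.V₂ (thick_unif_ne_zero h)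

theorem thick_isArch₁ : IsArch D.V₁.O :=
  isArch_of_uniformizer _ (thick_isUnif₁ h).ne_zero (thick_isUnif₁ h).lt_one fun _ hy =>
    exists_zpow_ofGauss D.V₁ (thick_pi_ne_zero h) (fun _ hc => (thick_exists_zpow_base h) hc) hy

theorem thick_isArch₃ : IsArch D.V₃.O :=
  isArch_of_uniformizer _ (thick_isUnif₃ h).ne_zero (thick_isUnif₃ h).lt_one fun _ hy =>
    exists_zpow_ofGauss D.V₃ (thick_pi_ne_zero h) (fun _ hc => (thick_exists_zpow_base h) hc) hy

theorem thick_isArch₂ : IsArch D.V₂.O := isArch_ofRamGauss D.V₂ (thick_unif_ne_zero h)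

/-- `v₂ π = v₂ ϖ ^ e` -/
theorem thick_valuation₂_pi : D.V₂.O.valuation (algebraMap K F D.π) = D.V₂.O.valuation D.ϖ ^ D.e := by
  obtain ⟨u, hu⟩ := h.unif_pow
  have := congrArg D.V₂.O.valuation hu
  rw [map_pow, map_mul, D.V₂.O.valuation_unit u, mul_one] at this
  exact this.symm

end Ctx

end Fermat.Agent.S36lib.Norm
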