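/-
S36lib / Norm / RamIntegral  (helper7)

INTEGRALITY in the setting of `RamNormRed` (a `RamDatum` with `∑ e_i f_i = [F : F']`): the
intersection `R = ∩ O_i` of the valuation rings above `O'` is integral over `O'`, and reduction
preserves the integral equations.  (Input for (CHART) at level `q²`.)

* `RamDatum.exists_monic_of_mem` : `f ∈ ∩ O_i` is a root of a monic polynomial of degree `[F : F']`
  with coefficients in `O'` (the characteristic polynomial of `f` in a ramified frame);
* `RamDatum.isIntegral_of_mem`   : `IsIntegral ↥P'.O f`;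
* `RamDatum.minpoly_eq_map`      : `minpoly F' f = (minpoly ↥P'.O f).map (algebraMap ↥P'.O F')`;
* `RamDatum.minpoly_coeff_mem`   : the coefficients of `minpoly F' f` lie in `O'`;
* `LiesOver.redF_aeval`          : `red (p(f)) = (p.map red')(red f)` for `p ∈ O'[X]`, `f ∈ O`;
* `RamDatum.aeval_redF_minpoly`  : `red_i f` is a root of the (monic) reduction of `minpoly ↥P'.O f`.
-/
import Mathlib
import Fermat.Agent.S36lib.Norm.RamOrd

set_option autoImplicit false
set_option linter.unusedSectionVars false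

noncomputable section

namespace Fermat.Agent.S36lib.Norm

open Polynomial

section One

variable {F' F : Type*} [Field F'] [Field F] [Algebra F' F]
variable {κ' κ : Type*} [Field κ'] [Field κ] [Algebra κ' κ]
variable {P' : Place F' κ'} {P : Place F κ}

/-- reduction commutes with evaluation of polynomials over `O'` -/
theorem LiesOver.redF_aeval (h : LiesOver P' P) (p : (↥P'.O)[X]) {f : F} (hf : f ∈ P.O) :
    aeval f p ∈ P.O ∧ P.redF (aeval f p) = aeval (P.redF f) (p.map P'.red) := by
  have hterm : ∀ m : ℕ, (p.coeff m) • f ^ m ∈ P.O ∧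
      P.redF ((p.coeff m) • f ^ m) = P'.red (p.coeff m) • P.redF f ^ m := by
    intro m
    have h1 : (p.coeff m) • f ^ m = ((p.coeff m : ↥P'.O) : F') • f ^ m := rfl
    have hfm : f ^ m ∈ P.O := P.O.pow_mem hf m
    rw [h1]
    refine ⟨h.smul_mem (p.coeff m).2 hfm, ?_⟩
    rw [h.redF_smul (p.coeff m).2 hfm, P.redF_pow hf, P'.redF_of_mem (p.coeff m).2]
  rw [aeval_eq_sum_range, aeval_eq_sum_range]
  refine ⟨P.O.sum_mem fun m _ => (hterm m).1, ?_⟩
  rw [P.redF_sum _ _ fun m _ => (hterm m).1]
  have hdeg : (p.map P'.red).natDegree ≤ p.natDegree := natDegree_map_le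
  rw [Finset.sum_congr rfl fun m _ => (hterm m).2]
  -- extend the range on the right-hand side
  have : ∑ m ∈ Finset.range (p.natDegree + 1), (p.map P'.red).coeff m • P.redF f ^ m =
      ∑ m ∈ Finset.range ((p.map P'.red).natDegree + 1), (p.map P'.red).coeff m • P.redF f ^ m := by
    symm
    refine Finset.sum_subset (Finset.range_subset_range.2 (by omega)) fun m _ hm => ?_
    rw [Finset.mem_range, not_lt] at hm
    rw [coeff_eq_zero_of_natDegree_lt (by omega), zero_smul]
  rw [← this]
  refine Finset.sum_congr rfl fun m _ => ?_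
  rw [coeff_map]

end One

section Ram

variable {F' F : Type*} [Field F'] [Field F] [Algebra F' F]
variable {κ' : Type*} [Field κ']
variable {ι : Type*} [Fintype ι] [DecidableEq ι]
variable {κ : ι → Type*} [∀ i, Field (κ i)] [∀ i, Algebra κ' (κ i)]
variable {P' : Place F' κ'} {π : F'} {P : ∀ i, Place F (κ i)} {ϖ : ι → F} {e : ι → ℕ}

/-- **Integrality of `∩ O_i` over `O'`**, explicit form (Cayley–Hamilton in a ramified frame). -/
theorem RamDatum.exists_monic_of_mem [FiniteDimensional F' F] [∀ i, Module.Finite κ' (κ i)]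
    (D : RamDatum P' π P ϖ e)
    (hdeg : ∑ i, e i * Module.finrank κ' (κ i) = Module.finrank F' F)
    {f : F} (hf : ∀ i, f ∈ (P i).O) :
    ∃ p : (↥P'.O)[X], p.Monic ∧ p.natDegree = Module.finrank F' F ∧ aeval f p = 0 := by
  classical
  set Bas := fun i => Module.Free.chooseBasis κ' (κ i) with hBas
  obtain ⟨t, B, hfr⟩ := D.exists_isRamFrame (fun i => ⇑(Bas i))
  have hβ : ∀ j, LinearIndependent κ' (⇑(Bas j)) := fun j => (Bas j).linearIndependent
  have hcard : Fintype.card (Σ i, Module.Free.ChooseBasisIndex κ' (κ i) × Fin (e i)) =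
      Module.finrank F' F := by
    rw [Fintype.card_sigma, ← hdeg]
    refine Finset.sum_congr rfl fun i _ => ?_
    rw [Fintype.card_prod, Fintype.card_fin, ← Module.finrank_eq_card_chooseBasisIndex, mul_comm]
  obtain ⟨Bs, hBs⟩ := hfr.exists_basis D hβ hcard
  set M := Algebra.leftMulMatrix Bs f with hMdef
  have hexp : ∀ Jc, ∑ I, M I Jc • ramFrame e t B I = f * ramFrame e t B Jc := by
    intro Jc
    have := Bs.sum_repr (f * Bs Jc)
    simp only [hBs] at this
    rw [← this]
    refine Finset.sum_congr rfl fun I _ => ?_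
    rw [hMdef, Algebra.leftMulMatrix_eq_repr_mul, hBs]
  have hfv : ∀ j, (P j).O.valuation f ≤ 1 := fun j => ((P j).O.valuation_le_one_iff _).2 (hf j)
  have hM : ∀ I Jc, M I Jc ∈ P'.O := fun I Jc =>
    (P'.O.valuation_le_one_iff _).1 (hfr.coeff_le_one D hβ (fun I => M I Jc) (fun j => by
      rw [hexp, map_mul]
      exact mul_le_one' (hfv j) (hfr.val_ramFrame_le_one D Jc j)) I)
  set M₀ : Matrix _ _ (↥P'.O) := fun I Jc => ⟨M I Jc, hM I Jc⟩ with hM₀
  have hmap : M = M₀.map (algebraMap (↥P'.O) F') := by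
    ext I Jc
    rfl
  refine ⟨M₀.charpoly, Matrix.charpoly_monic M₀, ?_, ?_⟩
  · rw [Matrix.charpoly_natDegree_eq_dim, hcard]
  · have h1 : aeval M (M₀.charpoly.map (algebraMap (↥P'.O) F')) = 0 := by
      rw [← Matrix.charpoly_map, ← hmap]
      exact Matrix.aeval_self_charpoly M
    rw [aeval_map_algebraMap] at h1
    have h2 : Algebra.leftMulMatrix Bs (aeval f M₀.charpoly) = 0 := by
      rw [← h1, hMdef]
      exact (aeval_algHom_apply ((Algebra.leftMulMatrix Bs).restrictScalars (↥P'.O)) f
        M₀.charpoly).symm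
    exact (Algebra.leftMulMatrix_injective Bs) (by rw [h2, map_zero])

/-- `∩ O_i` is integral over `O'` -/
theorem RamDatum.isIntegral_of_mem [FiniteDimensional F' F] [∀ i, Module.Finite κ' (κ i)]
    (D : RamDatum P' π P ϖ e)
    (hdeg : ∑ i, e i * Module.finrank κ' (κ i) = Module.finrank F' F)
    {f : F} (hf : ∀ i, f ∈ (P i).O) : IsIntegral (↥P'.O) f := by
  obtain ⟨p, hp, -, h0⟩ := D.exists_monic_of_mem hdeg hf
  exact ⟨p, hp, by rwa [← aeval_def]⟩

/-- the minimal polynomial over `F'` of an element of `∩ O_i` comes from `O'[X]` -/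
theorem RamDatum.minpoly_eq_map [FiniteDimensional F' F] [∀ i, Module.Finite κ' (κ i)]
    (D : RamDatum P' π P ϖ e)
    (hdeg : ∑ i, e i * Module.finrank κ' (κ i) = Module.finrank F' F)
    {f : F} (hf : ∀ i, f ∈ (P i).O) :
    minpoly F' f = (minpoly (↥P'.O) f).map (algebraMap (↥P'.O) F') :=
  minpoly.isIntegrallyClosed_eq_field_fractions' F' (D.isIntegral_of_mem hdeg hf)

theorem RamDatum.minpoly_coeff_mem [FiniteDimensional F' F] [∀ i, Module.Finite κ' (κ i)]
    (D : RamDatum P' π P ϖ e)
    (hdeg : ∑ i, e i * Module.finrank κ' (κ i) = Module.finrank F' F)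
    {f : F} (hf : ∀ i, f ∈ (P i).O) (m : ℕ) : (minpoly F' f).coeff m ∈ P'.O := by
  rw [D.minpoly_eq_map hdeg hf, coeff_map]
  exact ((minpoly (↥P'.O) f).coeff m).2

/-- `red_i f` is a root of the reduction of the minimal polynomial of `f` over `O'` -/
theorem RamDatum.aeval_redF_minpoly [FiniteDimensional F' F] [∀ i, Module.Finite κ' (κ i)]
    (D : RamDatum P' π P ϖ e)
    (hdeg : ∑ i, e i * Module.finrank κ' (κ i) = Module.finrank F' F)
    {f : F} (hf : ∀ i, f ∈ (P i).O) (i : ι) :
    ((minpoly (↥P'.O) f).map P'.red).Monic ∧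
      aeval ((P i).redF f) ((minpoly (↥P'.O) f).map P'.red) = 0 := by
  have hint := D.isIntegral_of_mem hdeg hf
  refine ⟨(minpoly.monic hint).map _, ?_⟩
  have := ((D.liesOver i).redF_aeval (minpoly (↥P'.O) f) (hf i)).2
  rw [minpoly.aeval, (P i).redF_zero] at this
  exact this.symm

end Ram

end Fermat.Agent.S36lib.Norm
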