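/-
S36lib / Norm / ResInst  (helper7)

**The residue-field inputs of `J.NormCtx` / `J.ChainCtx` for the modular instance** (route (TH),
helper4's conventions (C0)–(C3)): all five residue fields are `κ = FRes A M`, an algebra over
`kR = ResidueField R` (`R = Wfix A`) through `I : J.ConstIso kR kA κ`; the residue norm maps are
`a₁ = a₂ = b₂ = b₃ = id`, `a₃ = b₁ = frobCoeffM hA` (coefficientwise Frobenius, `Vq ∘ a₃ = (·)^q`).

* `frobCoeffR hA : κ →+* κ`, `frobCoeffM hA : κ →* κ`, `VqR_frobCoeffR`, `frobCoeffR_algebraMap`;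
* `preservesConst_id/one/pow/frobCoeffM/VqR` : the fields `φ₁_const … ψ₃_const` of `J.NormCtx` and
  the constant-preservation of the retractions;
* `hasValueAt_id`, `hasValueAt_frobCoeffM` : the fields `val₁`, `val₃` of `J.NormCtx`
  (`HasValueAt (I.place x') ρ v → HasValueAt (I.place (Fr x')) (a₃ ρ) (v ^ q)`);
* `retr_frobCoeffM`, `retr_id` : the fields `retr₁ retr₂ retr₃` of `J.ChainCtx`;
* `charP_FRes` : `CharP (FRes A M) q`.
-/
import Mathlib
import Fermat.Agent.S36lib.J.Setup
import Fermat.Agent.S36lib.J.BaseIso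
import Fermat.Agent.S36lib.Reg.FrobOrd
import Fermat.Agent.LSb.Unit.Instance

set_option autoImplicit false
set_option linter.unusedSectionVars false

noncomputable section

namespace Fermat.Agent.S36lib.Norm

open AlgebraicCurve ModularCurve HahnSeries
open Fermat.Agent.S18lib Fermat.Agent.LSb Fermat.Agent.LSb.Unit Fermat.Agent.S36lib.J

variable {M q : ℕ} [NeZero M] [NeZero q] [hq : Fact q.Prime]
variable {A : ValuationSubring (AlgebraicClosure ℚ)}

local notation "kA" => IsLocalRing.ResidueField A

/-! ### the coefficientwise Frobenius -/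

/-- the coefficientwise Frobenius of `FRes A M`, as a ring homomorphism -/
def frobCoeffR (hA : A.LiesOverPrime q) : FRes A M →+* FRes A M :=
  haveI := Old.charP_kRes hA
  { toFun := Old.frobCoeff hA
    map_one' := Subtype.ext (map_one (coeffMap (frobenius kA q)))
    map_mul' := fun _ _ => Subtype.ext (map_mul (coeffMap (frobenius kA q)) _ _)
    map_zero' := Subtype.ext (map_zero (coeffMap (frobenius kA q)))
    map_add' := fun _ _ => Subtype.ext (map_add (coeffMap (frobenius kA q)) _ _) }

theorem frobCoeffR_apply (hA : A.LiesOverPrime q) (z : FRes A M) :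
    frobCoeffR hA z = Old.frobCoeff hA z := rfl

/-- `Vq (z^{(q)}) = z ^ q` -/
theorem VqR_frobCoeffR (hA : A.LiesOverPrime q) (z : FRes A M) :
    VqR hA (frobCoeffR hA z) = z ^ q := Old.Vq_frobCoeff hA z

theorem frobCoeffR_algebraMap (hA : A.LiesOverPrime q) (c : kA) :
    frobCoeffR (M := M) hA (algebraMap kA (FRes A M) c) = algebraMap kA (FRes A M) (c ^ q) := by
  have := Old.charP_kRes hA
  apply Subtype.ext
  show coeffMap (frobenius kA q) (algebraMap kA (LaurentSeries kA) c) = _
  rw [S37lib.C0.coeffMap_algebraMap_field]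
  rfl

/-- the coefficientwise Frobenius as a monoid homomorphism (`a₃ = b₁`) -/
def frobCoeffM (hA : A.LiesOverPrime q) : FRes A M →* FRes A M :=
  (frobCoeffR (M := M) hA).toMonoidHom

theorem frobCoeffM_apply (hA : A.LiesOverPrime q) (z : FRes A M) :
    frobCoeffM hA z = frobCoeffR hA z := rfl

/-- the Frobenius substitution as a monoid homomorphism (the retraction of `a₃ = b₁`) -/
def VqM (hA : A.LiesOverPrime q) : FRes A M →* FRes A M := (VqR (M := M) hA).toMonoidHom

theorem VqM_apply (hA : A.LiesOverPrime q) (z : FRes A M) : VqM hA z = VqR hA z := rfl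

theorem VqM_frobCoeffM (hA : A.LiesOverPrime q) (z : FRes A M) :
    VqM hA (frobCoeffM hA z) = z ^ q := VqR_frobCoeffR hA z

/-- the residue function field has characteristic `q` -/
theorem charP_FRes (hA : A.LiesOverPrime q) : CharP (FRes A M) q :=
  have := Old.charP_kRes hA
  charP_of_injective_algebraMap (algebraMap kA (FRes A M)).injective q

/-! ### constant preservation -/

section Const

variable {K : Type*} [Field K] {R : ValuationSubring K}

section Generic

variable {B C : Type*} [Field B] [Field C] [Algebra (IsLocalRing.ResidueField R) B]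
  [Algebra (IsLocalRing.ResidueField R) C]

theorem preservesConst_id : PreservesConst (R := R) (MonoidHom.id B) :=
  fun c hc => ⟨c, hc, rfl⟩

theorem preservesConst_one : PreservesConst (R := R) (1 : B →* C) :=
  fun _ _ => ⟨1, one_ne_zero, by rw [MonoidHom.one_apply, map_one]⟩

theorem preservesConst_pow {S : B →* C} (hS : PreservesConst (R := R) S) (e : ℕ) :
    PreservesConst (R := R) (S ^ e) := by
  intro c hc
  obtain ⟨c', hc', h⟩ := hS c hc
  exact ⟨c' ^ e, pow_ne_zero _ hc', by rw [MonoidHom.pow_apply, h, map_pow]⟩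

end Generic

variable [Algebra (IsLocalRing.ResidueField R) (FRes A M)]
  (I : ConstIso (IsLocalRing.ResidueField R) (IsLocalRing.ResidueField A) (FRes A M))
include I

theorem preservesConst_frobCoeffM (hA : A.LiesOverPrime q) :
    PreservesConst (R := R) (frobCoeffM (M := M) hA) := by
  intro c hc
  refine ⟨c ^ q, pow_ne_zero _ hc, ?_⟩
  rw [frobCoeffM_apply, I.comp, frobCoeffR_algebraMap, I.comp, map_pow I.e]

theorem preservesConst_VqM (hA : A.LiesOverPrime q) :
    PreservesConst (R := R) (VqM (M := M) hA) := by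
  intro c hc
  refine ⟨c, hc, ?_⟩
  rw [VqM_apply, I.comp, VqR_algebraMap]

/-- field `retr₁`/`retr₃` of `J.ChainCtx` -/
theorem retr_frobCoeffM (hA : A.LiesOverPrime q) :
    ∃ ρ : FRes A M →* FRes A M, PreservesConst (R := R) ρ ∧
      ∀ y, ρ (frobCoeffM hA y) = y ^ q :=
  ⟨VqM hA, preservesConst_VqM I hA, VqM_frobCoeffM hA⟩

omit I in
/-- field `retr₂` of `J.ChainCtx` -/
theorem retr_id {B : Type*} [Field B] [Algebra (IsLocalRing.ResidueField R) B] :
    ∃ ρ : B →* B, PreservesConst (R := R) ρ ∧ ∀ y, ρ (MonoidHom.id B y) = y :=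
  ⟨MonoidHom.id B, preservesConst_id, fun _ => rfl⟩

/-! ### values at the points -/

omit I in
/-- fields `val₁` (along `α`) and `val₃` (along `β`) of `J.NormCtx`: degree one -/
theorem hasValueAt_id {B : Type*} [Field B] [Algebra (IsLocalRing.ResidueField R) B]
    (x : AlgebraicCurve.Place (IsLocalRing.ResidueField R) B) (ρ : B) (v : IsLocalRing.ResidueField R)
    (h : HasValueAt x ρ v) : HasValueAt x (MonoidHom.id B ρ) (v ^ 1) := by
  rw [pow_one]
  exact h

/-- fields `val₃` (along `α`) and `val₁` (along `β`) of `J.NormCtx`: Frobenius type.  The value of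
`a₃ ρ` at the Frobenius image of a point is the `q`-th power of the value of `ρ` at the point. -/
theorem hasValueAt_frobCoeffM (hA : A.LiesOverPrime q) (x' : AlgebraicCurve.Place kA (FRes A M))
    (ρ : FRes A M) (v : IsLocalRing.ResidueField R) (h : HasValueAt (I.place x') ρ v) :
    HasValueAt (I.place (Reg.frobPl hA x')) (frobCoeffM hA ρ) (v ^ q) := by
  rw [I.hasValueAt_place] at h ⊢
  rw [hasValueAt_frobPlace_iff, frobCoeffM_apply, VqR_frobCoeffR, map_pow]
  exact h.pow q

end Const

end Fermat.Agent.S36lib.Norm
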