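/-
S36lib / Norm / RowsInst  (helper7)

**`AlphaData` / `BetaData` from the restriction ROWS, and the two `J.NormCtx` records of the
modular instance** (route (TH), instance layer).

Abstract part (`D : ThickDatum R F F₁ F₂ F₃` with `h : ThickCtx D g g₁ g₂ g₃`, `L : LowDatum`):
* `RamOverAlong.of_row`      : a row (helper8's `Reg.Row`: `mem` + `red`) plus `arch`, `unif`, `ram`;
* `ramOverAlong_gauss₁/₃`, `ramOverAlong_ram₂` : the three kinds of records over the components
  of a thick datum, from a row and `K`-linearity of `ψ` (everything else comes from `ThickCtx`);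
* `alphaData_of_rows`, `betaData_of_rows` : the six records assembled.

Modular part (all residue fields `κ = FRes A M`, `V = VqR hA`, `I : J.ConstIso kR kA κ`):
* `normCtx_alpha`, `normCtx_beta` : the fields `normα`, `normβ` of `J.ChainCtx` with
  `a₁ = a₂ = b₂ = b₃ = id`, `a₃ = b₁ = frobCoeffM hA`, from `AlphaData`/`BetaData`, the chart
  statement (`Norm/ChartNorm`) and the incidence of the points (helper4's conventions (C1)).
-/
import Mathlib
import Fermat.Agent.S36lib.Norm.ChainInst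
import Fermat.Agent.S36lib.Norm.ResInst
import Fermat.Agent.S36lib.Reg.Rows

set_option autoImplicit false
set_option linter.unusedSectionVars false
set_option linter.style.haveILetI false

noncomputable section

namespace Fermat.Agent.S36lib.Norm

open Fermat.Agent.S18lib Fermat.Agent.S36lib.Thick Fermat.Agent.S36lib.J
open Fermat.Agent.LSb Fermat.Agent.LSb.Unit

/-! ### records from rows -/

section Abstract

universe u

variable {K : Type*} [Field K] {R : ValuationSubring K}
variable {F : Type*} [Field F] [Algebra K F]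
variable {F₁ F₂ F₃ : Type u} [Field F₁] [Field F₂] [Field F₃]
variable [Algebra (IsLocalRing.ResidueField R) F₁] [Algebra (IsLocalRing.ResidueField R) F₂]
variable [Algebra (IsLocalRing.ResidueField R) F₃]
variable {G : Type*} [Field G] [Algebra K G]
variable {G₁ G₂ : Type*} [Field G₁] [Field G₂]
variable [Algebra (IsLocalRing.ResidueField R) G₁] [Algebra (IsLocalRing.ResidueField R) G₂]

/-- a row with the valuation-theoretic complements is a `RamOverAlong` record -/
theorem RamOverAlong.of_row {G F : Type*} [Field G] [Field F] {κ' κ : Type*} [Field κ'] [Field κ]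
    {ψ : G →+* F} {ι : κ' →+* κ} {P' : Place G κ'} {P : Place F κ} (r : Reg.Row ψ ι P' P)
    {π : G} {ϖ : F} {e : ℕ} (arch : IsArch P.O) (unif : IsUnif P.O ϖ)
    (ram : P.O.valuation (ψ π) = P.O.valuation ϖ ^ e) : RamOverAlong ψ ι P' π P ϖ e :=
  ⟨r.mem, r.red, arch, unif, ram⟩

theorem RamOverAlong.row {G F : Type*} [Field G] [Field F] {κ' κ : Type*} [Field κ'] [Field κ]
    {ψ : G →+* F} {ι : κ' →+* κ} {P' : Place G κ'} {P : Place F κ} {π : G} {ϖ : F} {e : ℕ}
    (h : RamOverAlong ψ ι P' π P ϖ e) : Reg.Row ψ ι P' P := ⟨h.mem, h.red⟩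

variable {D : ThickDatum R F F₁ F₂ F₃} {g g₁ g₂ g₃ : ℕ} (h : ThickCtx D g g₁ g₂ g₃)
variable {ψ : G →+* F} (hψK : ∀ c : K, ψ (algebraMap K G c) = algebraMap K F c)
include h hψK

/-- a record over the first component -/
theorem ramOverAlong_gauss₁ {κ' : Type*} [Field κ'] {ι : κ' →+* F₁} {P' : Place G κ'}
    (r : Reg.Row ψ ι P' (gaussPlace D.V₁)) :
    RamOverAlong ψ ι P' (algebraMap K G D.π) (gaussPlace D.V₁) (algebraMap K F D.π) 1 :=
  RamOverAlong.of_row r (thick_isArch₁ h) (thick_isUnif₁ h) (by rw [pow_one, hψK])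

/-- a record over the third component -/
theorem ramOverAlong_gauss₃ {κ' : Type*} [Field κ'] {ι : κ' →+* F₃} {P' : Place G κ'}
    (r : Reg.Row ψ ι P' (gaussPlace D.V₃)) :
    RamOverAlong ψ ι P' (algebraMap K G D.π) (gaussPlace D.V₃) (algebraMap K F D.π) 1 :=
  RamOverAlong.of_row r (thick_isArch₃ h) (thick_isUnif₃ h) (by rw [pow_one, hψK])

/-- a record over the second (ramified) component -/
theorem ramOverAlong_ram₂ {κ' : Type*} [Field κ'] {ι : κ' →+* F₂} {P' : Place G κ'}
    (r : Reg.Row ψ ι P' (ofRamGauss D.V₂)) :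
    RamOverAlong ψ ι P' (algebraMap K G D.π) (ofRamGauss D.V₂) D.ϖ D.e :=
  RamOverAlong.of_row r (thick_isArch₂ h) (thick_isUnif₂ h)
    (by rw [hψK]; exact thick_valuation₂_pi h)

variable {L : LowDatum R G G₁ G₂} {q : ℕ}

/-- **`AlphaData` from the three rows along `α`.** -/
theorem alphaData_of_rows (fin : FiniteHom ψ) (deg : finrankHom ψ = q) (he : 1 + D.e = q)
    {ι₁ : G₁ ≃+* F₁} {ι₂ : G₁ ≃+* F₂} {ι₃ : G₂ →+* F₃}
    (r₁ : Reg.Row ψ (ι₁ : G₁ →+* F₁) (gaussPlace L.W₁) (gaussPlace D.V₁))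
    (r₂ : Reg.Row ψ (ι₂ : G₁ →+* F₂) (gaussPlace L.W₁) (ofRamGauss D.V₂))
    (r₃ : Reg.Row ψ ι₃ (gaussPlace L.W₂) (gaussPlace D.V₃))
    (ne₁₂ : D.V₁.O ≠ D.V₂.O)
    (resdeg : (letI := ι₃.toAlgebra; Module.finrank G₂ F₃) = q)
    (insep : ∀ z : F₃, ∃ a : G₂, ι₃ a = z ^ q) :
    AlphaData D L ψ q ι₁ ι₂ ι₃ where
  fin := fin
  deg := deg
  he := he
  base₁ := isUnif_ofGauss L.W₁ (thick_isUnif_base h)
  base₂ := isUnif_ofGauss L.W₂ (thick_isUnif_base h)
  gen₁ := fun _ hx => exists_zpow_ofGauss L.W₁ (thick_pi_ne_zero h)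
    (fun _ hc => thick_exists_zpow_base h hc) hx
  gen₂ := fun _ hx => exists_zpow_ofGauss L.W₂ (thick_pi_ne_zero h)
    (fun _ hc => thick_exists_zpow_base h hc) hx
  over₁ := ramOverAlong_gauss₁ h hψK r₁
  over₂ := ramOverAlong_ram₂ h hψK r₂
  over₃ := ramOverAlong_gauss₃ h hψK r₃
  ne₁₂ := ne₁₂
  resdeg := resdeg
  insep := insep

/-- **`BetaData` from the three rows along `β`.** -/
theorem betaData_of_rows (fin : FiniteHom ψ) (deg : finrankHom ψ = q) (he : D.e + 1 = q)
    {ι₁ : G₁ →+* F₁} {ι₂ : G₂ ≃+* F₂} {ι₃ : G₂ ≃+* F₃}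
    (r₁ : Reg.Row ψ ι₁ (gaussPlace L.W₁) (gaussPlace D.V₁))
    (r₂ : Reg.Row ψ (ι₂ : G₂ →+* F₂) (gaussPlace L.W₂) (ofRamGauss D.V₂))
    (r₃ : Reg.Row ψ (ι₃ : G₂ →+* F₃) (gaussPlace L.W₂) (gaussPlace D.V₃))
    (ne₂₃ : D.V₂.O ≠ D.V₃.O)
    (resdeg : (letI := ι₁.toAlgebra; Module.finrank G₁ F₁) = q)
    (insep : ∀ z : F₁, ∃ a : G₁, ι₁ a = z ^ q) :
    BetaData D L ψ q ι₁ ι₂ ι₃ where
  fin := fin
  deg := deg
  he := he
  base₁ := isUnif_ofGauss L.W₁ (thick_isUnif_base h)
  base₂ := isUnif_ofGauss L.W₂ (thick_isUnif_base h)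
  gen₁ := fun _ hx => exists_zpow_ofGauss L.W₁ (thick_pi_ne_zero h)
    (fun _ hc => thick_exists_zpow_base h hc) hx
  gen₂ := fun _ hx => exists_zpow_ofGauss L.W₂ (thick_pi_ne_zero h)
    (fun _ hc => thick_exists_zpow_base h hc) hx
  over₁ := ramOverAlong_gauss₁ h hψK r₁
  over₂ := ramOverAlong_ram₂ h hψK r₂
  over₃ := ramOverAlong_gauss₃ h hψK r₃
  ne₂₃ := ne₂₃
  resdeg := resdeg
  insep := insep

end Abstract

/-! ### the two `NormCtx` records of the modular instance -/

section Modular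

variable {M q : ℕ} [NeZero M] [NeZero q] [hq : Fact q.Prime]
variable {A : ValuationSubring (AlgebraicClosure ℚ)}
variable {K : Type*} [Field K] {R : ValuationSubring K}
variable {F : Type*} [Field F] [Algebra K F] {G : Type*} [Field G] [Algebra K G]
variable [Algebra (IsLocalRing.ResidueField R) (FRes A M)]
variable (I : ConstIso (IsLocalRing.ResidueField R) (IsLocalRing.ResidueField A) (FRes A M))
variable {D : ThickDatum R F (FRes A M) (FRes A M) (FRes A M)}
variable {L : LowDatum R G (FRes A M) (FRes A M)}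
variable {ψ : G →+* F} (hψK : ∀ c : K, ψ (algebraMap K G c) = algebraMap K F c)
variable (hA : A.LiesOverPrime q)

include I hψK

/-- **the field `normα` of `J.ChainCtx`** (`a₁ = a₂ = id`, `a₃ = frobCoeffM hA`): over the node
`cα c` lie the triple point `c` on the first component (`y₁ (cα c) = x₁ c`) and its Frobenius
image on the second one (`y₂ (cα c) = Fr (x₃ c)`). -/
theorem normCtx_alpha
    (X : AlphaData D L ψ q (RingEquiv.refl (FRes A M)) (RingEquiv.refl (FRes A M)) (VqR hA))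
    (hchart : ∀ (a : ℕ) (f : F), f ∈ D.𝓛 a 0 → normMonoidHom ψ f ∈ L.𝓛')
    (cα : Fin D.s → Fin L.s') (hy₁ : ∀ c, L.y₁ (cα c) = D.x₁ c)
    (P : Fin D.s → AlgebraicCurve.Place (IsLocalRing.ResidueField A) (FRes A M))
    (hx₃ : ∀ c, D.x₃ c = I.place (P c))
    (hy₂ : ∀ c, L.y₂ (cα c) = I.place (Reg.frobPl hA (P c))) :
    NormCtx D L (normMonoidHom ψ) (MonoidHom.id (FRes A M)) (MonoidHom.id (FRes A M) ^ D.e) 1
      (frobCoeffM hA) cα 1 q := by
  haveI := charP_FRes (M := M) hA
  exact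
  { const := normMonoidHom_const ψ hψK
    mem₁ := X.mem₁
    mem₂ := X.mem₂
    red₁ := fun u hu => by
      rw [(X.two hu).2, pow_one, MonoidHom.pow_apply]
      rfl
    red₂ := X.red₂ (frobCoeffM hA) (VqR_frobCoeffR hA)
    chart := hchart
    φ₁_const := preservesConst_id
    φ₂_const := preservesConst_pow preservesConst_id _
    ψ₂_const := preservesConst_one
    ψ₃_const := preservesConst_frobCoeffM I hA
    val₁ := fun c ρ v hv => by
      rw [hy₁]
      exact hasValueAt_id _ _ _ hv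
    val₃ := fun c ρ v hv => by
      rw [hy₂]
      rw [hx₃] at hv
      exact hasValueAt_frobCoeffM I hA _ _ _ hv }

/-- **the field `normβ` of `J.ChainCtx`** (`b₁ = frobCoeffM hA`, `b₂ = b₃ = id`): over the node
`cβ c` lie the Frobenius image of the triple point `c` on the first component
(`y₁ (cβ c) = Fr (x₁ c)`) and the triple point itself on the second one (`y₂ (cβ c) = x₃ c`). -/
theorem normCtx_beta
    (X : BetaData D L ψ q (VqR hA) (RingEquiv.refl (FRes A M)) (RingEquiv.refl (FRes A M)))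
    (hchart : ∀ (a : ℕ) (f : F), f ∈ D.𝓛 a 0 → normMonoidHom ψ f ∈ L.𝓛')
    (cβ : Fin D.s → Fin L.s') (hy₂ : ∀ c, L.y₂ (cβ c) = D.x₃ c)
    (P : Fin D.s → AlgebraicCurve.Place (IsLocalRing.ResidueField A) (FRes A M))
    (hx₁ : ∀ c, D.x₁ c = I.place (P c))
    (hy₁ : ∀ c, L.y₁ (cβ c) = I.place (Reg.frobPl hA (P c))) :
    NormCtx D L (normMonoidHom ψ) (frobCoeffM hA) 1 (MonoidHom.id (FRes A M) ^ D.e)
      (MonoidHom.id (FRes A M)) cβ q 1 := by
  haveI := charP_FRes (M := M) hA
  exact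
  { const := normMonoidHom_const ψ hψK
    mem₁ := X.mem₁
    mem₂ := X.mem₂
    red₁ := X.red₁ (frobCoeffM hA) (VqR_frobCoeffR hA)
    red₂ := fun u hu => by
      rw [(X.two hu).2, pow_one, MonoidHom.pow_apply]
      rfl
    chart := hchart
    φ₁_const := preservesConst_frobCoeffM I hA
    φ₂_const := preservesConst_one
    ψ₂_const := preservesConst_pow preservesConst_id _
    ψ₃_const := preservesConst_id
    val₁ := fun c ρ v hv => by
      rw [hy₁]
      rw [hx₁] at hv
      exact hasValueAt_frobCoeffM I hA _ _ _ hv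
    val₃ := fun c ρ v hv => by
      rw [hy₂]
      exact hasValueAt_id _ _ _ hv }

end Modular

end Fermat.Agent.S36lib.Norm
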