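/-
S36lib / Norm / RestrictAlong  (helper7)

**`RamOverAlong` records for restricted Gauss data** (route (TH), instance layer).

* `rankOneDvd_of_dvr`            : a discrete valuation subring has rank one (`Frame.RankOneDvd`);
* `rankOneDvd_Wfix`, `isUnif_Wfix`, `exists_zpow_Wfix` : the base `(Kfix A, Wfix A)` of the descent
  (helper2's `Desc/Kfix.lean`) has rank one, uniformizer `q`, and value group `q ^ ℤ`;
* `ramOverAlong_restrict`        : let `G₁`, `G₂` be Gauss data over `(L, A)` on `F₁`, `F₂`, and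
  `ψ̄ : F₁ →+* F₂` with the table `y ∈ G₁.O → ψ̄ y ∈ G₂.O`, `G₂.redF (ψ̄ y) = ι (G₁.redF y)`
  (helper9's `Val/Along.lean`, `Val/Zero.lean`); let `F₁' ⊆ F₁`, `F₂' ⊆ F₂` be subfields over
  `K ⊆ L` with `ψ : F₁' →+* F₂'` the restriction of `ψ̄`, `K`-linear.  Then the restricted data
  (helper1's `Desc2.restrictDatum`) satisfy
  `RamOverAlong ψ ι (ofGauss (restrictDatum h₁)) π (ofGauss (restrictDatum h₂)) π 1`;
* `ramOverAlong_of_compat`       : the same for any pair of data `G₁'`, `G₂'` over `(K, R)` with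
  `Desc2.Compat G₁ G₁'`, `Desc2.Compat G₂ G₂'`;
* `isUnif_restrict`, `exists_zpow_restrict` : the fields `base` and `gen` of `AlphaData`/`BetaData`
  for a restricted Gauss datum.
-/
import Mathlib
import Fermat.Agent.S36lib.Desc.Kfix
import Fermat.Agent.S36lib.Desc2.Restrict
import Fermat.Agent.S36lib.Desc2.FixedLift
import Fermat.Agent.S36lib.Norm.Bridge
import Fermat.Agent.S36lib.Norm.Along

set_option autoImplicit false
set_option linter.unusedSectionVars false

noncomputable section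

namespace Fermat.Agent.S36lib.Norm

open Fermat.Agent.S18lib Fermat.Agent.LSb Fermat.Agent.S36lib.Desc Fermat.Agent.S36lib.Desc2
open Fermat.Agent.S13lib

section DVR

variable {K : Type*} [Field K]

/-- a discrete valuation subring has rank one, in the elementary form `Frame.RankOneDvd` -/
theorem rankOneDvd_of_dvr (R : ValuationSubring K) [IsDiscreteValuationRing R] :
    Frame.RankOneDvd R := by
  intro c hc d hd
  by_contra hall
  push Not at hall
  apply hd
  have hmem : d ∈ (⨅ n : ℕ, (IsLocalRing.maximalIdeal R) ^ n) := by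
    rw [Ideal.mem_iInf]
    intro n
    obtain ⟨w, hw⟩ := hall n
    rw [hw]
    exact Ideal.mul_mem_right _ _ (Ideal.pow_mem_pow hc n)
  rw [Ideal.iInf_pow_eq_bot_of_isLocalRing _ (IsLocalRing.maximalIdeal.isMaximal R).ne_top]
    at hmem
  exact hmem

end DVR

section Wfix

variable {A : ValuationSubring Qbar} {q : ℕ}

theorem rankOneDvd_Wfix (hq : q.Prime) (hA : A.LiesOverPrime q) : Frame.RankOneDvd (Wfix A) :=
  haveI := isDiscreteValuationRing_Wfix hq hA
  rankOneDvd_of_dvr (Wfix A)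

theorem valuation_Wfix_unit (u : (Wfix A)ˣ) : (Wfix A).valuation ((u : Wfix A) : Kfix A) = 1 :=
  (Wfix A).valuation_unit u

theorem valuation_Wfix_q_lt_one (hA : A.LiesOverPrime q) :
    (Wfix A).valuation ((q : ℕ) : Kfix A) < 1 := by
  have h1 : (Wfix A).valuation ((qW A q : Wfix A) : Kfix A) ≤ 1 :=
    (Wfix A).valuation_le_one (qW A q)
  have h2 : (Wfix A).valuation ((qW A q : Wfix A) : Kfix A) ≠ 1 := fun h =>
    qW_not_isUnit hA (((Wfix A).valuation_eq_one_iff (qW A q)).2 h)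
  exact lt_of_le_of_ne h1 h2

theorem natCast_Kfix_ne_zero (hq : q.Prime) : ((q : ℕ) : Kfix A) ≠ 0 := by
  exact_mod_cast hq.ne_zero

/-- the value group of `Wfix A` is `q ^ ℤ` -/
theorem exists_zpow_Wfix (hq : q.Prime) (hA : A.LiesOverPrime q) (c : Kfix A) (hc : c ≠ 0) :
    ∃ n : ℤ, (Wfix A).valuation c = (Wfix A).valuation ((q : ℕ) : Kfix A) ^ n := by
  obtain ⟨m, u, hu⟩ := exists_zpow_mul_unit_Kfix hq hA hc
  refine ⟨m, ?_⟩
  rw [hu, map_mul, map_zpow₀, valuation_Wfix_unit, mul_one]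

/-- `q` is a uniformizer of `Wfix A` -/
theorem isUnif_Wfix (hq : q.Prime) (hA : A.LiesOverPrime q) :
    IsUnif (Wfix A) ((q : ℕ) : Kfix A) where
  ne_zero := natCast_Kfix_ne_zero hq
  lt_one := valuation_Wfix_q_lt_one hA
  gen := by
    intro y hy
    rcases eq_or_ne y 0 with rfl | hy0
    · rw [map_zero]; exact zero_le
    obtain ⟨m, hm⟩ := exists_zpow_Wfix hq hA y hy0
    have hpos : 0 < (Wfix A).valuation ((q : ℕ) : Kfix A) :=
      zero_lt_iff.2 ((Valuation.ne_zero_iff _).2 (natCast_Kfix_ne_zero hq))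
    have hlt := valuation_Wfix_q_lt_one (A := A) hA
    rw [hm] at hy ⊢
    have hm1 : 1 ≤ m := by
      by_contra hneg
      rw [not_le] at hneg
      have hm0 : m ≤ 0 := by omega
      have : 1 ≤ (Wfix A).valuation ((q : ℕ) : Kfix A) ^ m := by
        obtain ⟨k, rfl⟩ : ∃ k : ℕ, m = -(k : ℤ) := ⟨(-m).toNat, by omega⟩
        rw [zpow_neg, zpow_natCast]
        exact (one_le_inv₀ (pow_pos hpos k)).2 (pow_le_one₀ hpos.le hlt.le)
      exact absurd hy (not_lt.2 this)
    obtain ⟨k, rfl⟩ : ∃ k : ℕ, m = (k : ℤ) + 1 := ⟨(m - 1).toNat, by omega⟩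
    rw [zpow_add₀ hpos.ne', zpow_one, zpow_natCast]
    calc (Wfix A).valuation ((q : ℕ) : Kfix A) ^ k * (Wfix A).valuation ((q : ℕ) : Kfix A)
        ≤ 1 * (Wfix A).valuation ((q : ℕ) : Kfix A) := by
          gcongr
          exact pow_le_one₀ hpos.le hlt.le
      _ = _ := one_mul _

end Wfix

section Restrict

variable {L : Type*} [Field L] {A : ValuationSubring L}
variable {K : Type*} [Field K] [Algebra K L] {R : ValuationSubring K}
variable {F₁ F₂ : Type*} [Field F₁] [Field F₂] [Algebra L F₁] [Algebra L F₂]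
variable {F₁' F₂' : Type*} [Field F₁'] [Field F₂']
variable [Algebra K F₁'] [Algebra F₁' F₁] [Algebra K F₁] [IsScalarTower K F₁' F₁]
  [IsScalarTower K L F₁]
variable [Algebra K F₂'] [Algebra F₂' F₂] [Algebra K F₂] [IsScalarTower K F₂' F₂]
  [IsScalarTower K L F₂]
variable {Fk₁ Fk₂ : Type*} [Field Fk₁] [Field Fk₂]
variable [Algebra (IsLocalRing.ResidueField A) Fk₁] [Algebra (IsLocalRing.ResidueField A) Fk₂]
variable [Algebra (IsLocalRing.ResidueField R) Fk₁] [Algebra (IsLocalRing.ResidueField R) Fk₂]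
variable {G₁ : GaussDatum A F₁ Fk₁} {G₂ : GaussDatum A F₂ Fk₂}

/-- the field `base` of `AlphaData`/`BetaData` for a restricted Gauss datum -/
theorem isUnif_restrict (h₁ : RestrictHyp G₁ R F₁') {π : K} (hπ : IsUnif R π) :
    IsUnif (restrictDatum h₁).O (algebraMap K F₁' π) :=
  isUnif_ofGauss (restrictDatum h₁) hπ

/-- the field `gen` of `AlphaData`/`BetaData` for a restricted Gauss datum -/
theorem exists_zpow_restrict (h₁ : RestrictHyp G₁ R F₁') {π : K} (hπ0 : π ≠ 0)
    (hdisc : ∀ c : K, c ≠ 0 → ∃ n : ℤ, R.valuation c = R.valuation π ^ n)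
    (x : F₁') (hx : x ≠ 0) :
    ∃ n : ℤ, (restrictDatum h₁).O.valuation x =
      (restrictDatum h₁).O.valuation (algebraMap K F₁' π) ^ n :=
  exists_zpow_ofGauss (restrictDatum h₁) hπ0 hdisc hx

/-- **`RamOverAlong` for `K`-rational Gauss data compatible with data upstairs**, from the table
upstairs. -/
theorem ramOverAlong_of_compat {G₁' : GaussDatum R F₁' Fk₁} {G₂' : GaussDatum R F₂' Fk₂}
    (h₁ : Compat G₁ G₁') (h₂ : Compat G₂ G₂')
    (ψb : F₁ →+* F₂) (ψ : F₁' →+* F₂') (ι : Fk₁ →+* Fk₂)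
    (hcomm : ∀ f : F₁', algebraMap F₂' F₂ (ψ f) = ψb (algebraMap F₁' F₁ f))
    (hmem : ∀ y : F₁, y ∈ G₁.O → ψb y ∈ G₂.O)
    (hred : ∀ y : F₁, y ∈ G₁.O → G₂.redF (ψb y) = ι (G₁.redF y))
    (hR : Frame.RankOneDvd R) {π : K} (hπ : IsUnif R π)
    (hψK : ∀ c : K, ψ (algebraMap K F₁' c) = algebraMap K F₂' c) :
    RamOverAlong ψ ι (ofGauss G₁') (algebraMap K F₁' π) (ofGauss G₂') (algebraMap K F₂' π) 1 where
  mem := by
    intro y hy
    show ψ y ∈ G₂'.O
    rw [h₂.mem, hcomm]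
    exact hmem _ ((h₁.mem y).1 hy)
  red := by
    intro y hy
    show G₂'.redF (ψ y) = ι (G₁'.redF y)
    rw [h₂.red, h₁.red, hcomm]
    exact hred _ ((h₁.mem y).1 hy)
  arch := isArch_ofGauss G₂' hR
  unif := isUnif_ofGauss G₂' hπ
  ram := by
    rw [pow_one, hψK]

/-- **`RamOverAlong` for restricted Gauss data**, from the table upstairs. -/
theorem ramOverAlong_restrict (h₁ : RestrictHyp G₁ R F₁') (h₂ : RestrictHyp G₂ R F₂')
    (ψb : F₁ →+* F₂) (ψ : F₁' →+* F₂') (ι : Fk₁ →+* Fk₂)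
    (hcomm : ∀ f : F₁', algebraMap F₂' F₂ (ψ f) = ψb (algebraMap F₁' F₁ f))
    (hmem : ∀ y : F₁, y ∈ G₁.O → ψb y ∈ G₂.O)
    (hred : ∀ y : F₁, y ∈ G₁.O → G₂.redF (ψb y) = ι (G₁.redF y))
    (hR : Frame.RankOneDvd R) {π : K} (hπ : IsUnif R π)
    (hψK : ∀ c : K, ψ (algebraMap K F₁' c) = algebraMap K F₂' c) :
    RamOverAlong ψ ι (ofGauss (restrictDatum h₁)) (algebraMap K F₁' π)
      (ofGauss (restrictDatum h₂)) (algebraMap K F₂' π) 1 where
  mem := by
    intro y hy
    show algebraMap F₂' F₂ (ψ y) ∈ G₂.O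
    rw [hcomm]
    exact hmem _ hy
  red := by
    intro y hy
    show (restrictDatum h₂).redF (ψ y) = ι ((restrictDatum h₁).redF y)
    rw [restrictDatum_redF, restrictDatum_redF, hcomm]
    exact hred _ hy
  arch := isArch_ofGauss (restrictDatum h₂) hR
  unif := isUnif_ofGauss (restrictDatum h₂) hπ
  ram := by
    rw [pow_one, hψK]

end Restrict

end Fermat.Agent.S36lib.Norm
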