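/-
S36lib / Norm / ChartPoint  (helper7)

The two function-field halves of (CHART), separated from the valuation-theoretic middle
(`ChartTransfer`), so that the generic fibre (over `Q̄`) and the special fibre (over `k`) can live
over different base fields from the valuation rings (`K`-rational):

* `isIntegralOver_of_mem_chart` (generic fibre, char. 0):
    `f ∈ L(a • polar(y) + b • zeros(y - c))  ⟹  f (y-c)^b` integral over `L[y]` and
    `f (y-c)^b y^{-(a+b)}` integral over `L[y⁻¹]`;
* `mem_chart_of_isIntegralOver` (special fibre, any characteristic): the converse on `κ / k`.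

Both are extracted from the proof of `LSb.Old.redF_mem_chart`.
-/
import Mathlib
import Fermat.Agent.LSb.Old.Chart

set_option autoImplicit false
set_option linter.unusedSectionVars false

noncomputable section

namespace Fermat.Agent.S36lib.Norm

open AlgebraicCurve IntermediateField Polynomial Fermat.Agent.ProgramR Fermat.Agent.S18lib
open Fermat.Agent.LSb.Old

section Generic

variable {L F : Type*} [Field L] [Field F] [Algebra L F]

/-- pole bound for `f (y - c)^b` when `f ∈ L(a • polar(y) + b • zeros(y - c))` -/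
theorem ord_mul_pow_ge_of_mem_chart [HasPrincipalDivisors L F] (y : F) (c : L)
    (hw0 : y - algebraMap L F c ≠ 0) (a b : ℕ) {f : F}
    (hf : f ∈ riemannRochSpace ((a : ℤ) • polesOf (K := L) y +
      (b : ℤ) • zerosOf (K := L) (y - algebraMap L F c))) (v : Place L F) :
    ((a + b : ℕ) : ℤ) * min (v.ord y) 0 ≤ v.ord (f * (y - algebraMap L F c) ^ b) := by
  set w : F := y - algebraMap L F c with hw
  rcases eq_or_ne f 0 with rfl | hf0
  · rw [zero_mul, Place.ord_zero]
    exact mul_nonpos_of_nonneg_of_nonpos (Nat.cast_nonneg _) (min_le_right _ _)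
  have h1 := (mem_riemannRochSpace_iff.1 hf v).resolve_left hf0
  rw [Finsupp.add_apply, Finsupp.smul_apply, Finsupp.smul_apply, polesOf_apply, zerosOf_apply,
    smul_eq_mul, smul_eq_mul] at h1
  rw [v.ord_mul hf0 (pow_ne_zero _ hw0), Cech.ord_pow]
  push_cast
  rcases ord_sub_const_cases v y c with ⟨h2, h3⟩ | ⟨h2, h3⟩
  · rw [← hw] at h3
    rw [h3, max_eq_left (by linarith), max_eq_right (by linarith)] at h1
    rw [min_eq_left h2.le, h3]
    linarith
  · rw [← hw] at h3
    rw [max_eq_right (by linarith), max_eq_left h3] at h1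
    rw [min_eq_right h2]
    linarith

/-- **(CHART), generic half.** -/
theorem isIntegralOver_of_mem_chart [CharZero L] [HasPrincipalDivisors L F] (y : F)
    [FiniteDimensional L⟮y⟯ F] (hy : Transcendental L y) (c : L) (a b : ℕ) {f : F}
    (hf : f ∈ riemannRochSpace ((a : ℤ) • polesOf (K := L) y +
      (b : ℤ) • zerosOf (K := L) (y - algebraMap L F c))) :
    IsIntegralOver L y (f * (y - algebraMap L F c) ^ b) ∧
      IsIntegralOver L y⁻¹ (f * (y - algebraMap L F c) ^ b * (y⁻¹) ^ (a + b)) := by
  have hy0 : y ≠ 0 := by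
    rintro rfl
    exact hy (isAlgebraic_zero)
  have hw0 : y - algebraMap L F c ≠ 0 := by
    intro h
    apply hy
    rw [sub_eq_zero.1 h]
    exact isAlgebraic_algebraMap _
  have hord := ord_mul_pow_ge_of_mem_chart y c hw0 a b hf
  set f' : F := f * (y - algebraMap L F c) ^ b with hf'
  refine ⟨?_, ?_⟩
  · refine isIntegralOver_of_forall_place y hy (fun v hv => ?_)
    have := hord v
    rwa [min_eq_right hv, mul_zero] at this
  · have := finiteDimensional_inv (K := L) y
    refine isIntegralOver_of_forall_place y⁻¹ (transcendental_inv hy) (fun v hv => ?_)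
    rw [Place.ord_inv] at hv
    have hv' : v.ord y ≤ 0 := by linarith
    have h2 := hord v
    rw [min_eq_left hv'] at h2
    rcases eq_or_ne f' 0 with h0 | h0
    · rw [h0, zero_mul, Place.ord_zero]
    · rw [v.ord_mul h0 (pow_ne_zero _ (inv_ne_zero hy0)), Cech.ord_pow, Place.ord_inv]
      linarith

end Generic

section Special

variable {k κ : Type*} [Field k] [Field κ] [Algebra k κ]

/-- **(CHART), special half.** -/
theorem mem_chart_of_isIntegralOver [HasPrincipalDivisors k κ] {yb φ : κ} (hyb : yb ≠ 0)
    (cb : k) (hwb : yb - algebraMap k κ cb ≠ 0) (a b : ℕ)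
    (h1 : IsIntegralOver k yb (φ * (yb - algebraMap k κ cb) ^ b))
    (h2 : IsIntegralOver k yb⁻¹ (φ * (yb - algebraMap k κ cb) ^ b * (yb⁻¹) ^ (a + b))) :
    φ ∈ riemannRochSpace ((a : ℤ) • polesOf (K := k) yb +
      (b : ℤ) • zerosOf (K := k) (yb - algebraMap k κ cb)) := by
  set wb : κ := yb - algebraMap k κ cb with hwbdef
  rw [mem_riemannRochSpace_iff]
  intro Q
  rcases eq_or_ne φ 0 with h0 | h0
  · exact Or.inl h0
  right
  have hφw : φ * wb ^ b ≠ 0 := mul_ne_zero h0 (pow_ne_zero _ hwb)
  -- the key inequality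
  have key : ((a + b : ℕ) : ℤ) * min (Q.ord yb) 0 ≤ Q.ord (φ * wb ^ b) := by
    rcases le_or_gt 0 (Q.ord yb) with hQ | hQ
    · rw [min_eq_right hQ, mul_zero]
      exact ord_nonneg_of_isIntegralOver Q hQ h1
    · rw [min_eq_left hQ.le]
      have hQ' : 0 ≤ Q.ord yb⁻¹ := by
        rw [Place.ord_inv]
        linarith
      have h4 := ord_nonneg_of_isIntegralOver Q hQ' h2
      rw [Q.ord_mul hφw (pow_ne_zero _ (inv_ne_zero hyb)), Cech.ord_pow, Place.ord_inv] at h4
      linarith
  rw [Q.ord_mul h0 (pow_ne_zero _ hwb), Cech.ord_pow] at key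
  push_cast at key
  rw [Finsupp.add_apply, Finsupp.smul_apply, Finsupp.smul_apply, polesOf_apply, zerosOf_apply,
    smul_eq_mul, smul_eq_mul]
  rcases ord_sub_const_cases Q yb cb with ⟨h2', h3⟩ | ⟨h2', h3⟩
  · rw [← hwbdef] at h3
    rw [min_eq_left h2'.le, h3] at key
    rw [h3, max_eq_left (by linarith), max_eq_right (by linarith)]
    linarith
  · rw [← hwbdef] at h3
    rw [min_eq_right h2'] at key
    rw [max_eq_right (by linarith), max_eq_left h3]
    linarith

end Special

end Fermat.Agent.S36lib.Norm
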