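/-
S36lib / Norm / ChartTransfer  (helper7)

(CHART) at level `q²`, abstract part: **reduction preserves integrality over `L[y]`**, transferred
from a level-one place `P₁` of `F₁` to the places `P i` of `F₂ ⊇ F₁` above it (a `RamDatum` with
`∑ e_i f_i = [F₂ : F₁]`).

* `isIntegral_of_monic_of_coeff` : a root of a monic polynomial with integral coefficients is
  integral;
* `isIntegralOver_map`           : `LSb.Old.IsIntegralOver` is preserved by algebra homomorphisms;
* `isIntegralOver_coeff_minpoly` : (Gauss lemma) the coefficients of `minpoly F₁ f` are integral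
  over `L[y₁]` when `f` is integral over `L[y₁]`;
* `RamDatum.redIntegral_transfer`: if reduction at `P₁` preserves integrality over `L[y₁]` on a
  set `S₁` containing the coefficients of `minpoly F₁ f`, then `red_i f` is integral over
  `k[red_i y₁]` for every `f ∈ ∩ O_i` integral over `L[y₁]`;
* `isIntegralOver_descend`       : integrality over `L[y]` descends to a subfield `K ⊆ L` with
  `L / K` algebraic (for the `K`-rational function field inside `FBar`).
-/
import Mathlib
import Fermat.Agent.LSb.Old.PlaceIntegral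
import Fermat.Agent.S36lib.Norm.RamIntegral

set_option autoImplicit false
set_option linter.unusedSectionVars false

noncomputable section

namespace Fermat.Agent.S36lib.Norm

open Polynomial Fermat.Agent.LSb.Old

/-- a root of a monic polynomial with integral coefficients is integral -/
theorem isIntegral_of_monic_of_coeff {R A : Type*} [CommRing R] [CommRing A] [Algebra R A]
    (p : A[X]) (hp : p.Monic) (hc : ∀ m, IsIntegral R (p.coeff m)) {x : A}
    (hx : p.eval x = 0) : IsIntegral R x := by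
  set B := integralClosure R A with hB
  have hsub : (↑p.coeffs : Set A) ⊆ B.toSubring := by
    intro c hc'
    obtain ⟨m, -, rfl⟩ := Polynomial.mem_coeffs_iff.1 (Finset.mem_coe.1 hc')
    exact hc m
  set pB : (↥B.toSubring)[X] := p.toSubring B.toSubring hsub with hpB
  have hmon : pB.Monic := (p.monic_toSubring _ _).2 hp
  have hBx : IsIntegral B x := by
    refine ⟨pB, hmon, ?_⟩
    have : pB.map (algebraMap B A) = p := p.map_toSubring B.toSubring hsub
    rw [← eval_map, this]
    exact hx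
  exact isIntegral_trans (R := R) (A := B) x hBx

section Map

variable {k κ₁ κ₂ : Type*} [Field k] [Field κ₁] [Field κ₂] [Algebra k κ₁] [Algebra k κ₂]

/-- integrality over `k[y]` is preserved by `k`-algebra homomorphisms -/
theorem isIntegralOver_map (φ : κ₁ →ₐ[k] κ₂) {y z : κ₁} (h : IsIntegralOver k y z) :
    IsIntegralOver k (φ y) (φ z) := by
  obtain ⟨P, hP, hPz⟩ := h
  refine ⟨P, hP, ?_⟩
  have h1 : ((aeval (φ y) : k[X] →ₐ[k] κ₂) : k[X] →+* κ₂) =
      (φ : κ₁ →+* κ₂).comp ((aeval y : k[X] →ₐ[k] κ₁) : k[X] →+* κ₁) := by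
    ext
    · simp
    · simp
  rw [h1]
  have h2 := Polynomial.hom_eval₂ P ((aeval y : k[X] →ₐ[k] κ₁) : k[X] →+* κ₁) (φ : κ₁ →+* κ₂) z
  rw [hPz, map_zero] at h2
  exact h2.symm

end Map

section Coeff

variable {L F₁ F₂ : Type*} [Field L] [Field F₁] [Field F₂] [Algebra L F₁] [Algebra L F₂]
  [Algebra F₁ F₂] [IsScalarTower L F₁ F₂]

/-- **Gauss lemma**: the coefficients of the minimal polynomial over `F₁` of an element
integral over `L[y₁]` are integral over `L[y₁]`. -/
theorem isIntegralOver_coeff_minpoly {y₁ : F₁} {f : F₂}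
    (hint : IsIntegralOver L (algebraMap F₁ F₂ y₁) f) (m : ℕ) :
    IsIntegralOver L y₁ ((minpoly F₁ f).coeff m) := by
  obtain ⟨Q, hQ, hQf⟩ := hint
  let ψ₁ : L[X] →+* Algebra.adjoin L {y₁} :=
    ((aeval y₁ : L[X] →ₐ[L] F₁).codRestrict (Algebra.adjoin L {y₁}) (fun p => by
      rw [Algebra.adjoin_singleton_eq_range_aeval]
      exact ⟨p, rfl⟩) : L[X] →+* Algebra.adjoin L {y₁})
  have hψ : (algebraMap (Algebra.adjoin L {y₁}) F₁).comp ψ₁ =
      ((aeval y₁ : L[X] →ₐ[L] F₁) : L[X] →+* F₁) := by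
    ext <;> rfl
  have hcomp : (algebraMap F₁ F₂).comp ((aeval y₁ : L[X] →ₐ[L] F₁) : L[X] →+* F₁) =
      ((aeval (algebraMap F₁ F₂ y₁) : L[X] →ₐ[L] F₂) : L[X] →+* F₂) := by
    ext
    · simp [← IsScalarTower.algebraMap_apply]
    · simp
  have hQ₁ : (Q.map ψ₁).Monic := hQ.map ψ₁
  have hroot : aeval f ((Q.map ψ₁).map (algebraMap (Algebra.adjoin L {y₁}) F₁)) = 0 := by
    rw [Polynomial.map_map, hψ, aeval_def, eval₂_map, hcomp]
    exact hQf
  have hfint : IsIntegral F₁ f :=
    ⟨(Q.map ψ₁).map (algebraMap (Algebra.adjoin L {y₁}) F₁), hQ₁.map _, by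
      rwa [← aeval_def]⟩
  have hdvd := minpoly.dvd F₁ f hroot
  have hlift := integralClosure.mem_lifts_of_monic_of_dvd_map F₁ hQ₁ (minpoly.monic hfint) hdvd
  obtain ⟨b, hb⟩ := (lifts_iff_coeff_lifts _).1 hlift m
  refine isIntegralOver_of_isIntegral_adjoin ?_
  rw [← hb]
  exact b.2

end Coeff

section Transfer

variable {L F₁ F₂ : Type*} [Field L] [Field F₁] [Field F₂] [Algebra L F₁] [Algebra L F₂]
  [Algebra F₁ F₂] [IsScalarTower L F₁ F₂] [FiniteDimensional F₁ F₂]
variable {k κ₁ : Type*} [Field k] [Field κ₁] [Algebra k κ₁]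
variable {ι : Type*} [Fintype ι] [DecidableEq ι]
variable {κ : ι → Type*} [∀ i, Field (κ i)] [∀ i, Algebra κ₁ (κ i)] [∀ i, Algebra k (κ i)]
  [∀ i, IsScalarTower k κ₁ (κ i)] [∀ i, Module.Finite κ₁ (κ i)]
variable {P₁ : Place F₁ κ₁} {π : F₁} {P : ∀ i, Place F₂ (κ i)} {ϖ : ι → F₂} {e : ι → ℕ}

/-- **Transfer of "reduction preserves integrality"** from `P₁` to the places above it. -/
theorem RamDatum.redIntegral_transfer (D : RamDatum P₁ π P ϖ e)
    (hdeg : ∑ i, e i * Module.finrank κ₁ (κ i) = Module.finrank F₁ F₂)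
    {y₁ : F₁} (hy₁ : y₁ ∈ P₁.O) (S₁ : Set F₁)
    (hred₁ : ∀ g ∈ S₁, IsIntegralOver L y₁ g → IsIntegralOver k (P₁.redF y₁) (P₁.redF g))
    {f : F₂} (hf : ∀ i, f ∈ (P i).O) (hfS : ∀ m, (minpoly F₁ f).coeff m ∈ S₁)
    (hint : IsIntegralOver L (algebraMap F₁ F₂ y₁) f) (i : ι) :
    IsIntegralOver k ((P i).redF (algebraMap F₁ F₂ y₁)) ((P i).redF f) := by
  have hq := D.minpoly_eq_map hdeg hf
  obtain ⟨hmon, hroot⟩ := D.aeval_redF_minpoly hdeg hf i
  have hcoef : ∀ m, ((minpoly (↥P₁.O) f).map P₁.red).coeff m =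
      P₁.redF ((minpoly F₁ f).coeff m) := by
    intro m
    rw [coeff_map, hq, coeff_map]
    exact (P₁.redF_of_mem ((minpoly (↥P₁.O) f).coeff m).2).symm
  refine isIntegralOver_of_isIntegral_adjoin ?_
  refine isIntegral_of_monic_of_coeff (((minpoly (↥P₁.O) f).map P₁.red).map
    (algebraMap κ₁ (κ i))) (hmon.map _) (fun m => ?_) (by
      rw [eval_map, ← aeval_def]; exact hroot)
  rw [coeff_map, hcoef]
  have h1 := isIntegralOver_coeff_minpoly (L := L) hint m
  have h2 := hred₁ _ (hfS m) h1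
  have h3 := isIntegralOver_map (IsScalarTower.toAlgHom k κ₁ (κ i)) h2
  have h4 := isIntegral_adjoin_of_isIntegralOver h3
  rw [(D.liesOver i).red y₁ hy₁]
  exact h4

end Transfer

section Descend

variable {K L FK FL : Type*} [Field K] [Field L] [Field FK] [Field FL]
  [Algebra K L] [Algebra.IsAlgebraic K L] [Algebra K FK] [Algebra K FL] [Algebra L FL]
  [IsScalarTower K L FL]

/-- **Descent of integrality** from `L[y]` to `K[y]` (`L / K` algebraic), through an embedding
`ι : FK → FL` of function fields. -/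
theorem isIntegralOver_descend (ι : FK →ₐ[K] FL) {y f : FK}
    (h : IsIntegralOver L (ι y) (ι f)) : IsIntegralOver K y f := by
  obtain ⟨P, hP, hPf⟩ := h
  -- step 1 : `ι f` is integral over `K[ι y]`
  have hS : IsIntegral (Algebra.adjoin K {ι y}) (ι f) := by
    refine isIntegral_of_monic_of_coeff
      (P.map ((aeval (ι y) : L[X] →ₐ[L] FL) : L[X] →+* FL)) (hP.map _) (fun m => ?_) (by
        rw [eval_map]; exact hPf)
    rw [coeff_map]
    have hy : IsIntegral (Algebra.adjoin K {ι y}) (ι y) := by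
      have := isIntegral_algebraMap (R := Algebra.adjoin K {ι y}) (A := FL)
        (x := ⟨ι y, Algebra.self_mem_adjoin_singleton K (ι y)⟩)
      exact this
    have hconst : ∀ l : L, IsIntegral (Algebra.adjoin K {ι y}) (algebraMap L FL l) := by
      intro l
      have h1 : IsIntegral K l := (Algebra.IsAlgebraic.isAlgebraic l).isIntegral
      have h2 : IsIntegral K (algebraMap L FL l) := h1.map (IsScalarTower.toAlgHom K L FL)
      exact h2.tower_top
    show IsIntegral (Algebra.adjoin K {ι y}) (aeval (ι y) (P.coeff m))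
    rw [aeval_eq_sum_range]
    refine IsIntegral.sum _ fun j _ => ?_
    rw [Algebra.smul_def]
    exact (hconst _).mul (hy.pow j)
  -- step 2 : pull the equation back along `ι`
  obtain ⟨P', hP', hP'f⟩ := isIntegralOver_of_isIntegral_adjoin hS
  refine ⟨P', hP', ?_⟩
  have hcomp : ((aeval (ι y) : K[X] →ₐ[K] FL) : K[X] →+* FL) =
      (ι : FK →+* FL).comp ((aeval y : K[X] →ₐ[K] FK) : K[X] →+* FK) := by
    ext
    · simp
    · simp
  rw [hcomp] at hP'f
  have h2 := Polynomial.hom_eval₂ P' ((aeval y : K[X] →ₐ[K] FK) : K[X] →+* FK)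
    (ι : FK →+* FL) f
  have h3 : (ι : FK →+* FL) (eval₂ ((aeval y : K[X] →ₐ[K] FK) : K[X] →+* FK) f P') = 0 := by
    rw [h2]; exact hP'f
  exact (map_eq_zero_iff _ (ι : FK →+* FL).injective).1 h3

end Descend

end Fermat.Agent.S36lib.Norm
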