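/-
S36lib / Norm / ChartRam  (helper7)

**(CHART) at level `q²`, assembled (semi-abstract).**

`K ⊆ L` (`L / K` algebraic, characteristic zero), `F_K` a `K`-rational function field embedded by
`emb : F_K →ₐ[K] F_L` into a function field `F_L / L` (where places and divisors live),
`F₁ ⊆ F_K` a subfield of finite index with a place `P₁`, and a `RamDatum` of places `P i` of `F_K`
above `P₁` with `∑ e_i f_i = [F_K : F₁]`.  If reduction at `P₁` preserves integrality over `K[y₁]`
and over `K[y₁⁻¹]` (on a set `S₁` containing the coefficients of the minimal polynomials of the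
elements of a subring `T ⊆ ∩ O_i`), then for `f ∈ T`, `y = y₁`:

  `emb f ∈ L_L(a (y)_∞ + b (y - c)_0)   ⟹   red_i f ∈ L_k(a (red_i y)_∞ + b (red_i y - c̄)_0)`.

* `isIntegralOver_ascend` : base change `K → L` of integrality over `K[y]`;
* `RamDatum.redF_mem_chart` : the statement above.
-/
import Mathlib
import Fermat.Agent.S36lib.Norm.ChartTransfer
import Fermat.Agent.S36lib.Norm.ChartPoint

set_option autoImplicit false
set_option linter.unusedSectionVars false

noncomputable section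

namespace Fermat.Agent.S36lib.Norm

open AlgebraicCurve IntermediateField Polynomial Fermat.Agent.ProgramR Fermat.Agent.S18lib
open Fermat.Agent.LSb.Old

section Ascend

variable {K L FK FL : Type*} [Field K] [Field L] [Field FK] [Field FL]
  [Algebra K L] [Algebra K FK] [Algebra K FL] [Algebra L FL] [IsScalarTower K L FL]

/-- **Base change of integrality** from `K[y]` to `L[y]` through an embedding of function
fields. -/
theorem isIntegralOver_ascend (emb : FK →ₐ[K] FL) {y f : FK} (h : IsIntegralOver K y f) :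
    IsIntegralOver L (emb y) (emb f) := by
  obtain ⟨P, hP, hPf⟩ := h
  refine ⟨P.map (mapRingHom (algebraMap K L)), hP.map _, ?_⟩
  rw [eval₂_map]
  have hcomp : (((aeval (emb y) : L[X] →ₐ[L] FL) : L[X] →+* FL).comp
      (mapRingHom (algebraMap K L))) =
      (emb : FK →+* FL).comp ((aeval y : K[X] →ₐ[K] FK) : K[X] →+* FK) := by
    ext
    · simp [← IsScalarTower.algebraMap_apply]
    · simp
  rw [hcomp]
  have h2 := Polynomial.hom_eval₂ P ((aeval y : K[X] →ₐ[K] FK) : K[X] →+* FK)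
    (emb : FK →+* FL) f
  rw [hPf, map_zero] at h2
  exact h2.symm

end Ascend

section Main

variable {K L : Type*} [Field K] [Field L] [Algebra K L] [Algebra.IsAlgebraic K L] [CharZero L]
variable {F₁ FK FL : Type*} [Field F₁] [Field FK] [Field FL]
  [Algebra K F₁] [Algebra K FK] [Algebra F₁ FK] [IsScalarTower K F₁ FK] [FiniteDimensional F₁ FK]
  [Algebra K FL] [Algebra L FL] [IsScalarTower K L FL] [HasPrincipalDivisors L FL]
variable {k κ₁ : Type*} [Field k] [Field κ₁] [Algebra k κ₁]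
variable {ι : Type*} [Fintype ι] [DecidableEq ι]
variable {κ : ι → Type*} [∀ i, Field (κ i)] [∀ i, Algebra κ₁ (κ i)] [∀ i, Algebra k (κ i)]
  [∀ i, IsScalarTower k κ₁ (κ i)] [∀ i, Module.Finite κ₁ (κ i)]
  [∀ i, HasPrincipalDivisors k (κ i)]
variable {P₁ : Place F₁ κ₁} {π : F₁} {P : ∀ i, Place FK (κ i)} {ϖ : ι → FK} {e : ι → ℕ}

/-- **(CHART) for a ramified family of places above a place where reduction preserves
integrality.** -/
theorem RamDatum.redF_mem_chart (D : RamDatum P₁ π P ϖ e)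
    (hdeg : ∑ i, e i * Module.finrank κ₁ (κ i) = Module.finrank F₁ FK)
    (emb : FK →ₐ[K] FL) {y₁ : F₁} (hy₁ : y₁ ∈ P₁.O) (hy₁i : y₁⁻¹ ∈ P₁.O)
    (hytr : Transcendental L (emb (algebraMap F₁ FK y₁)))
    [FiniteDimensional L⟮emb (algebraMap F₁ FK y₁)⟯ FL]
    (S₁ : Set F₁) (T : Subring FK) (hT : ∀ f ∈ T, ∀ i, f ∈ (P i).O)
    (hTS : ∀ f ∈ T, ∀ m, (minpoly F₁ f).coeff m ∈ S₁)
    (hred₁ : ∀ g ∈ S₁, IsIntegralOver K y₁ g → IsIntegralOver k (P₁.redF y₁) (P₁.redF g))
    (hred₁' : ∀ g ∈ S₁, IsIntegralOver K y₁⁻¹ g →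
      IsIntegralOver k (P₁.redF y₁⁻¹) (P₁.redF g))
    (hyT : algebraMap F₁ FK y₁ ∈ T) (hyiT : (algebraMap F₁ FK y₁)⁻¹ ∈ T)
    (c : K) (cb : k) (hcT : algebraMap K FK c ∈ T)
    (hcred : ∀ i, (P i).redF (algebraMap K FK c) = algebraMap k (κ i) cb)
    (hnc : ∀ i, (P i).redF (algebraMap F₁ FK y₁) - algebraMap k (κ i) cb ≠ 0)
    (a b : ℕ) {f : FK} (hfT : f ∈ T)
    (hf : emb f ∈ riemannRochSpace
      ((a : ℤ) • polesOf (K := L) (emb (algebraMap F₁ FK y₁)) +
        (b : ℤ) • zerosOf (K := L)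
          (emb (algebraMap F₁ FK y₁) - algebraMap L FL (algebraMap K L c)))) (i : ι) :
    (P i).redF f ∈ riemannRochSpace
      ((a : ℤ) • polesOf (K := k) ((P i).redF (algebraMap F₁ FK y₁)) +
        (b : ℤ) • zerosOf (K := k)
          ((P i).redF (algebraMap F₁ FK y₁) - algebraMap k (κ i) cb)) := by
  set y : FK := algebraMap F₁ FK y₁ with hy
  have hyO : y ∈ (P i).O := (D.liesOver i).mem y₁ hy₁
  have hyiO : y⁻¹ ∈ (P i).O := by
    rw [hy, ← map_inv₀]
    exact (D.liesOver i).mem _ hy₁i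
  have hy0 : y ≠ 0 := by
    intro h0
    apply hytr
    rw [h0, map_zero]
    exact isAlgebraic_zero
  have hyb : (P i).redF y ≠ 0 := by
    intro h0
    have h1 := (P i).redF_mul hyO hyiO
    rw [mul_inv_cancel₀ hy0, h0, zero_mul] at h1
    have h2 : (P i).redF (1 : FK) = 1 := by
      rw [(P i).redF_of_mem (P i).O.one_mem]
      exact map_one _
    rw [h2] at h1
    exact one_ne_zero h1
  have hybi : (P i).redF y⁻¹ = ((P i).redF y)⁻¹ := (P i).redF_inv hyb
  set w : FK := y - algebraMap K FK c with hw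
  have hwT : w ∈ T := T.sub_mem hyT hcT
  have hwO : w ∈ (P i).O := hT w hwT i
  have hcO : algebraMap K FK c ∈ (P i).O := hT _ hcT i
  have hredw : (P i).redF w = (P i).redF y - algebraMap k (κ i) cb := by
    rw [hw, (P i).redF_sub hyO hcO, hcred i]
  set f' : FK := f * w ^ b with hf'
  set f'' : FK := f' * (y⁻¹) ^ (a + b) with hf''
  have hf'T : f' ∈ T := T.mul_mem hfT (T.pow_mem hwT b)
  have hf''T : f'' ∈ T := T.mul_mem hf'T (T.pow_mem hyiT (a + b))
  have hfO : f ∈ (P i).O := hT f hfT i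
  have hf'O : f' ∈ (P i).O := hT f' hf'T i
  -- the generic half
  obtain ⟨h1, h2⟩ := isIntegralOver_of_mem_chart (emb y) hytr (algebraMap K L c) a b hf
  have e1 : emb f * (emb y - algebraMap L FL (algebraMap K L c)) ^ b = emb f' := by
    rw [hf', hw, map_mul, map_pow, map_sub, AlgHom.commutes,
      IsScalarTower.algebraMap_apply K L FL]
  have e2 : emb f * (emb y - algebraMap L FL (algebraMap K L c)) ^ b * ((emb y)⁻¹) ^ (a + b) =
      emb f'' := by
    rw [e1]
    show emb f' * ((emb y)⁻¹) ^ (a + b) = emb (f' * (y⁻¹) ^ (a + b))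
    rw [map_mul emb f' ((y⁻¹) ^ (a + b)), map_pow emb (y⁻¹) (a + b), map_inv₀ emb y]
  rw [e1] at h1
  rw [e2, ← map_inv₀] at h2
  have d1 : IsIntegralOver K y f' := isIntegralOver_descend emb h1
  have d2 : IsIntegralOver K y⁻¹ f'' := isIntegralOver_descend emb h2
  -- the valuation-theoretic middle
  have t1 := D.redIntegral_transfer hdeg hy₁ S₁ hred₁ (hT f' hf'T) (hTS f' hf'T) d1 i
  have d2' : IsIntegralOver K (algebraMap F₁ FK y₁⁻¹) f'' := by
    rw [map_inv₀]
    exact d2
  have t2 := D.redIntegral_transfer hdeg hy₁i S₁ hred₁' (hT f'' hf''T) (hTS f'' hf''T) d2' i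
  rw [map_inv₀] at t2
  -- the reductions
  have r1 : (P i).redF f' = (P i).redF f * ((P i).redF y - algebraMap k (κ i) cb) ^ b := by
    rw [hf', (P i).redF_mul hfO ((P i).O.pow_mem hwO b), (P i).redF_pow hwO, hredw]
  have r2 : (P i).redF f'' = (P i).redF f * ((P i).redF y - algebraMap k (κ i) cb) ^ b *
      (((P i).redF y)⁻¹) ^ (a + b) := by
    rw [hf'', (P i).redF_mul hf'O ((P i).O.pow_mem hyiO (a + b)), (P i).redF_pow hyiO, r1, hybi]
  rw [r1] at t1
  rw [r2, hybi] at t2
  exact mem_chart_of_isIntegralOver hyb cb (hnc i) a b t1 t2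

end Main

end Fermat.Agent.S36lib.Norm
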