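/-
S36lib / Norm / ChartBase  (helper7)

**The bottom input of (CHART): reduction at a `K`-rational Gauss place preserves integrality over
`K[y]`** (`hred₁`, `hred₁'` of `Norm/ChartConst`), from a frame upstairs.

* `isIntegralOver_of_constIso` : `LSb.Old.IsIntegralOver` does not depend on the constant field
  up to a `J.ConstIso`;
* `redIntegral_of_compat`      : `G` a Gauss datum over `(L, A)` on `F` with a frame `(y, θ)`
  (S18lib `WFrame.IsFrameFamily`), `G'` a Gauss datum over `(K, R)` on a subfield `F' ⊆ F` with
  `Desc2.Compat G G'`, residue field `Fk` an algebra over `k_R ≅ k_A` (`I : J.ConstIso k_R k_A Fk`):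
  for `g ∈ G'.O` integral over `K[y]`, `G'.redF g` is integral over `k_R[G'.redF y]`;
* `redIntegral_gaussM`, `redIntegral_gaussM_inv` : the instances for the level `M` Gauss datum
  (`y = j`, `y = j⁻¹`; frame `LSb.Frame.frameM`) and ANY `K`-rational datum compatible with it
  (helper1's `Desc2.gaussMK`).
-/
import Mathlib
import Fermat.Agent.S36lib.Norm.ChartRam
import Fermat.Agent.S36lib.J.BaseIso
import Fermat.Agent.S36lib.Desc2.FixedLift
import Fermat.Agent.S36lib.Desc2.SpeiserBar
import Fermat.Agent.S36lib.Desc.Kfix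
import Fermat.Agent.S18lib.Weak.IntegralRed
import Fermat.Agent.S18lib.Weak.FrameInv
import Fermat.Agent.LSb.Frame.Modular

set_option autoImplicit false
set_option linter.unusedSectionVars false
set_option linter.style.haveILetI false

noncomputable section

namespace Fermat.Agent.S36lib.Norm

open Polynomial Fermat.Agent.S18lib Fermat.Agent.LSb Fermat.Agent.LSb.Old
open Fermat.Agent.S36lib.J Fermat.Agent.S36lib.Desc2 Fermat.Agent.S36lib.Desc

section ConstIso

variable {k k' F : Type*} [Field k] [Field k'] [Field F] [Algebra k F] [Algebra k' F]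

/-- integrality over `k'[y]` is integrality over `k[y]` when `k ≅ k'` compatibly -/
theorem isIntegralOver_of_constIso (I : ConstIso k k' F) {y z : F}
    (h : IsIntegralOver k' y z) : IsIntegralOver k y z := by
  obtain ⟨P, hP, h0⟩ := h
  let σ : k' →+* k := ((RingEquiv.ofBijective I.e I.bijective).symm : k' →+* k)
  have hσ : ∀ c' : k', I.e (σ c') = c' := fun c' =>
    (RingEquiv.ofBijective I.e I.bijective).apply_symm_apply c'
  refine ⟨P.map (mapRingHom σ), hP.map _, ?_⟩
  rw [eval₂_map]
  have hcomp : (((aeval y : k[X] →ₐ[k] F) : k[X] →+* F).comp (mapRingHom σ)) =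
      ((aeval y : k'[X] →ₐ[k'] F) : k'[X] →+* F) := by
    ext c'
    · simp only [RingHom.coe_comp, Function.comp_apply, coe_mapRingHom, map_C, RingHom.coe_coe,
        aeval_C]
      rw [I.comp, hσ]
    · simp
  rw [hcomp]
  exact h0

end ConstIso

section Compat

variable {L : Type*} [Field L] {A : ValuationSubring L}
variable {K : Type*} [Field K] [Algebra K L] {R : ValuationSubring K}
variable {F : Type*} [Field F] [Algebra L F] [Algebra K F] [IsScalarTower K L F]
variable {F' : Type*} [Field F'] [Algebra K F'] [Algebra F' F] [IsScalarTower K F' F]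
variable {Fk : Type*} [Field Fk] [Algebra (IsLocalRing.ResidueField A) Fk]
variable [Algebra (IsLocalRing.ResidueField R) Fk]

/-- **reduction at a `K`-rational Gauss place preserves integrality over `K[y]`**, from a frame
`(y, θ)` of the Gauss place upstairs. -/
theorem redIntegral_of_compat
    (I : ConstIso (IsLocalRing.ResidueField R) (IsLocalRing.ResidueField A) Fk)
    {G : GaussDatum A F Fk} {G' : GaussDatum R F' Fk} (hc : Compat G G')
    {y : F'} {n : ℕ} {θ : Fin n → F} (fr : WFrame.IsFrameFamily G (algebraMap F' F y) θ)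
    {g : F'} (hg : g ∈ G'.O) (hint : IsIntegralOver K y g) :
    IsIntegralOver (IsLocalRing.ResidueField R) (G'.redF y) (G'.redF g) := by
  have h1 : IsIntegralOver L (algebraMap F' F y) (algebraMap F' F g) :=
    isIntegralOver_ascend (IsScalarTower.toAlgHom K F' F) hint
  have h2 := isIntegral_adjoin_of_isIntegralOver h1
  have h3 := fr.isIntegral_redF ((hc.mem g).1 hg) h2
  have h4 := isIntegralOver_of_isIntegral_adjoin h3
  rw [hc.red, hc.red]
  exact isIntegralOver_of_constIso I h4

end Compat

section Modular

open Fermat.Agent.S13lib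

variable {M q : ℕ} [NeZero M] [NeZero q] [hq : Fact q.Prime]
variable {A : ValuationSubring (AlgebraicClosure ℚ)} (hqM : ¬ q ∣ M) (hA : A.LiesOverPrime q)
variable {H : Subgroup (AlgebraicClosure ℚ ≃ₐ[ℚ] AlgebraicClosure ℚ)}
  {R : ValuationSubring (fixK H)}
variable [Algebra (IsLocalRing.ResidueField R) (FRes A M)]
variable (I : ConstIso (IsLocalRing.ResidueField R) (IsLocalRing.ResidueField A) (FRes A M))
variable {G' : GaussDatum R (fixF M H) (FRes A M)}
  (hc : Compat (V.gaussDatum M A hqM hA) G')

include I hc

/-- `hred₁` of (CHART) at level `M`: `y₁ = j` -/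
theorem redIntegral_gaussM {y : fixF M H} (hy : (y : FBar M) = Gin0.jF M)
    {g : fixF M H} (hg : g ∈ G'.O) (hint : IsIntegralOver (fixK H) y g) :
    IsIntegralOver (IsLocalRing.ResidueField R) (G'.redF y) (G'.redF g) := by
  have fr := Frame.frameM (M := M) (q := q) hqM hA
  rw [← hy] at fr
  exact redIntegral_of_compat I hc fr hg hint

/-- `hred₁'` of (CHART) at level `M`: `y₁⁻¹ = j⁻¹` -/
theorem redIntegral_gaussM_inv {y : fixF M H} (hy : (y : FBar M) = Gin0.jF M)
    {g : fixF M H} (hg : g ∈ G'.O) (hint : IsIntegralOver (fixK H) y⁻¹ g) :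
    IsIntegralOver (IsLocalRing.ResidueField R) (G'.redF y⁻¹) (G'.redF g) := by
  have fr := (Frame.frameM (M := M) (q := q) hqM hA).inv
  rw [← hy] at fr
  have hinv : algebraMap (fixF M H) (FBar M) y⁻¹ = ((y : FBar M))⁻¹ := map_inv₀ _ y
  rw [← hinv] at fr
  exact redIntegral_of_compat I hc fr hg hint

end Modular

end Fermat.Agent.S36lib.Norm
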