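/-
S36lib / Norm / ChartConst  (helper7)

**(CHART) at level `q²` in the instance-free `RamOverAlong` language** (route (TH)).

* `redF_mem_chart_const` : `RamDatum.redF_mem_chart` (`Norm/ChartRam`) for a complete family of
  places `P i` of `FK` with CONSTANT residue field `κ` over a place `P₁` of `F₁` along a
  homomorphism `ψ : F₁ →+* FK`, residue embeddings `ιs i : κ₁ →+* κ` (records
  `RamOverAlong ψ (ιs i) P₁ π (P i) (ϖ i) (e i)`, `∑ e_i f_i = deg ψ`), with `T = ⋂ O_i` and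
  `S₁ = O₁`; no `Algebra F₁ FK` / `Algebra κ₁ κ` instances in the statement;
* `redF_mem_chart_const'`, `TowerData.chart₃'` : the same with the constant `c` and the
  non-constancy of `red y` only required at the bottom place;
* `TowerData.chart₃` : the three chart statements for helper8's `Mid.TowerData`
  (`(v_a, v_b, v_c)` over `(F', v_M)` along `α₂ ∘ α₁`):
  for `f ∈ O_a ∩ O_b ∩ O_c` with `emb f ∈ L(a (y)_∞ + b (y - c)_0)`, `y = α₂ (α₁ y₁)`,
  `red_i f ∈ L(a (red_i y)_∞ + b (red_i y - c̄)_0)` for `i = a, b, c`.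
-/
import Mathlib
import Fermat.Agent.S36lib.Norm.ChartRam
import Fermat.Agent.S36lib.Mid.Three

set_option autoImplicit false
set_option linter.unusedSectionVars false
set_option linter.style.haveILetI false

noncomputable section

namespace Fermat.Agent.S36lib.Norm

open AlgebraicCurve IntermediateField Polynomial Fermat.Agent.ProgramR Fermat.Agent.S18lib
open Fermat.Agent.LSb.Old Fermat.Agent.S36lib.Mid

section Const

variable {K L : Type*} [Field K] [Field L] [Algebra K L] [Algebra.IsAlgebraic K L] [CharZero L]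
variable {F₁ FK FL : Type*} [Field F₁] [Field FK] [Field FL]
  [Algebra K F₁] [Algebra K FK] [Algebra K FL] [Algebra L FL] [IsScalarTower K L FL]
  [HasPrincipalDivisors L FL]
variable {k κ₁ κ : Type*} [Field k] [Field κ₁] [Field κ] [Algebra k κ₁] [Algebra k κ]
  [HasPrincipalDivisors k κ]
variable {ι : Type*} [Fintype ι] [DecidableEq ι]
variable {P₁ : Place F₁ κ₁} {π : F₁}

/-- **(CHART) for a complete family of places with constant residue field, along a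
homomorphism.** -/
theorem redF_mem_chart_const (ψ : F₁ →+* FK) (ιs : ι → κ₁ →+* κ) (P : ι → Place FK κ)
    (ϖ : ι → FK) (e : ι → ℕ) (hb : IsUnif P₁.O π)
    (h : ∀ i, RamOverAlong ψ (ιs i) P₁ π (P i) (ϖ i) (e i))
    (hne : ∀ i j, i ≠ j → (P i).O ≠ (P j).O) (hfin : FiniteHom ψ)
    (hιfin : ∀ i, FiniteHom (ιs i))
    (hdeg : ∑ i, e i * finrankHom (ιs i) = finrankHom ψ)
    (hψK : ∀ c : K, ψ (algebraMap K F₁ c) = algebraMap K FK c)
    (hιk : ∀ i (c : k), ιs i (algebraMap k κ₁ c) = algebraMap k κ c)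
    (emb : FK →ₐ[K] FL) {y₁ : F₁} (hy₁ : y₁ ∈ P₁.O) (hy₁i : y₁⁻¹ ∈ P₁.O)
    (hytr : Transcendental L (emb (ψ y₁))) [FiniteDimensional L⟮emb (ψ y₁)⟯ FL]
    (hred₁ : ∀ g ∈ P₁.O, IsIntegralOver K y₁ g → IsIntegralOver k (P₁.redF y₁) (P₁.redF g))
    (hred₁' : ∀ g ∈ P₁.O, IsIntegralOver K y₁⁻¹ g →
      IsIntegralOver k (P₁.redF y₁⁻¹) (P₁.redF g))
    (c : K) (cb : k) (hc : ∀ i, algebraMap K FK c ∈ (P i).O)
    (hcred : ∀ i, (P i).redF (algebraMap K FK c) = algebraMap k κ cb)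
    (hnc : ∀ i, (P i).redF (ψ y₁) - algebraMap k κ cb ≠ 0)
    (a b : ℕ) {f : FK} (hfO : ∀ i, f ∈ (P i).O)
    (hf : emb f ∈ riemannRochSpace
      ((a : ℤ) • polesOf (K := L) (emb (ψ y₁)) +
        (b : ℤ) • zerosOf (K := L) (emb (ψ y₁) - algebraMap L FL (algebraMap K L c)))) (i : ι) :
    (P i).redF f ∈ riemannRochSpace
      ((a : ℤ) • polesOf (K := k) ((P i).redF (ψ y₁)) +
        (b : ℤ) • zerosOf (K := k) ((P i).redF (ψ y₁) - algebraMap k κ cb)) := by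
  letI a1 : Algebra F₁ FK := ψ.toAlgebra
  letI a2 : ∀ i : ι, Algebra κ₁ ((fun _ : ι => κ) i) := fun i => (ιs i).toAlgebra
  haveI t1 : IsScalarTower K F₁ FK := IsScalarTower.of_algebraMap_eq fun c => (hψK c).symm
  haveI f1 : FiniteDimensional F₁ FK := hfin
  have t2 : ∀ i : ι, @IsScalarTower k κ₁ κ _ (ιs i).toAlgebra.toSMul _ := fun i =>
    @IsScalarTower.of_algebraMap_eq k κ₁ κ _ _ _ _ (ιs i).toAlgebra _ fun c => (hιk i c).symm
  have f2 : ∀ i : ι, @Module.Finite κ₁ κ _ _ (ιs i).toAlgebra.toModule := hιfin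
  have D := ramDatum_const ψ ιs P ϖ e hb h hne
  -- the subring `T = ⋂ O_i`
  let T : Subring FK :=
    { carrier := {x | ∀ i, x ∈ (P i).O}
      mul_mem' := fun hx hy i => (P i).O.mul_mem _ _ (hx i) (hy i)
      one_mem' := fun i => (P i).O.one_mem
      add_mem' := fun hx hy i => (P i).O.add_mem _ _ (hx i) (hy i)
      zero_mem' := fun i => (P i).O.zero_mem
      neg_mem' := fun hx i => (P i).O.neg_mem _ (hx i) }
  have hT : ∀ x ∈ T, ∀ i, x ∈ (P i).O := fun x hx => hx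
  have hTS : ∀ x ∈ T, ∀ m, (minpoly F₁ x).coeff m ∈ (P₁.O : Set F₁) := fun x hx m =>
    @RamDatum.minpoly_coeff_mem F₁ FK _ _ a1 κ₁ _ ι _ _ (fun _ => κ) (fun _ => inferInstance) a2
      P₁ π P ϖ e f1 f2 D hdeg x hx m
  have hyT : algebraMap F₁ FK y₁ ∈ T := fun i => (h i).mem y₁ hy₁
  have hyiT : (algebraMap F₁ FK y₁)⁻¹ ∈ T := fun i => by
    have := (h i).mem _ hy₁i
    rwa [map_inv₀] at this
  exact @RamDatum.redF_mem_chart K L _ _ _ _ _ F₁ FK FL _ _ _ _ _ a1 t1 f1 _ _ _ _ k κ₁ _ _ _ ι _ _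
    (fun _ => κ) (fun _ => inferInstance) a2 (fun _ => inferInstance) t2 f2
    (fun _ => inferInstance) P₁ π P ϖ e D hdeg emb y₁ hy₁ hy₁i hytr _ (P₁.O : Set F₁) T hT hTS
    (fun g hg => hred₁ g hg) (fun g hg => hred₁' g hg) hyT hyiT c cb (fun i => hc i) hcred hnc
    a b f hfO hf i

/-- **(CHART) for a complete family along a homomorphism, constants controlled at the bottom
place**: the constant `c` and the non-constancy of `red y` are only required for `P₁`. -/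
theorem redF_mem_chart_const' (ψ : F₁ →+* FK) (ιs : ι → κ₁ →+* κ) (P : ι → Place FK κ)
    (ϖ : ι → FK) (e : ι → ℕ) (hb : IsUnif P₁.O π)
    (h : ∀ i, RamOverAlong ψ (ιs i) P₁ π (P i) (ϖ i) (e i))
    (hne : ∀ i j, i ≠ j → (P i).O ≠ (P j).O) (hfin : FiniteHom ψ)
    (hιfin : ∀ i, FiniteHom (ιs i))
    (hdeg : ∑ i, e i * finrankHom (ιs i) = finrankHom ψ)
    (hψK : ∀ c : K, ψ (algebraMap K F₁ c) = algebraMap K FK c)
    (hιk : ∀ i (c : k), ιs i (algebraMap k κ₁ c) = algebraMap k κ c)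
    (emb : FK →ₐ[K] FL) {y₁ : F₁} (hy₁ : y₁ ∈ P₁.O) (hy₁i : y₁⁻¹ ∈ P₁.O)
    (hytr : Transcendental L (emb (ψ y₁))) [FiniteDimensional L⟮emb (ψ y₁)⟯ FL]
    (hred₁ : ∀ g ∈ P₁.O, IsIntegralOver K y₁ g → IsIntegralOver k (P₁.redF y₁) (P₁.redF g))
    (hred₁' : ∀ g ∈ P₁.O, IsIntegralOver K y₁⁻¹ g →
      IsIntegralOver k (P₁.redF y₁⁻¹) (P₁.redF g))
    (c : K) (cb : k) (hc₁ : algebraMap K F₁ c ∈ P₁.O)
    (hcred₁ : P₁.redF (algebraMap K F₁ c) = algebraMap k κ₁ cb)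
    (hnc₁ : P₁.redF y₁ - algebraMap k κ₁ cb ≠ 0)
    (a b : ℕ) {f : FK} (hfO : ∀ i, f ∈ (P i).O)
    (hf : emb f ∈ riemannRochSpace
      ((a : ℤ) • polesOf (K := L) (emb (ψ y₁)) +
        (b : ℤ) • zerosOf (K := L) (emb (ψ y₁) - algebraMap L FL (algebraMap K L c)))) (i : ι) :
    (P i).redF f ∈ riemannRochSpace
      ((a : ℤ) • polesOf (K := k) (ιs i (P₁.redF y₁)) +
        (b : ℤ) • zerosOf (K := k) (ιs i (P₁.redF y₁) - algebraMap k κ cb)) := by
  have hc : ∀ i, algebraMap K FK c ∈ (P i).O := fun i => by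
    rw [← hψK]
    exact (h i).mem _ hc₁
  have hcred : ∀ i, (P i).redF (algebraMap K FK c) = algebraMap k κ cb := fun i => by
    rw [← hψK, (h i).red _ hc₁, hcred₁, hιk]
  have hnc : ∀ i, (P i).redF (ψ y₁) - algebraMap k κ cb ≠ 0 := fun i => by
    rw [(h i).red _ hy₁, ← hιk i cb, ← map_sub]
    exact (map_ne_zero (ιs i)).2 hnc₁
  have key := redF_mem_chart_const (K := K) (L := L) (k := k) ψ ιs P ϖ e hb h hne hfin hιfin hdeg
    hψK hιk emb hy₁ hy₁i hytr hred₁ hred₁' c cb hc hcred hnc a b hfO hf i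
  rwa [(h i).red _ hy₁] at key

end Const

section Tower

variable {K L : Type*} [Field K] [Field L] [Algebra K L] [Algebra.IsAlgebraic K L] [CharZero L]
variable {F' G F FL κ : Type*} [Field F'] [Field G] [Field F] [Field FL] [Field κ]
  [Algebra K F'] [Algebra K F] [Algebra K FL] [Algebra L FL] [IsScalarTower K L FL]
  [HasPrincipalDivisors L FL]
variable {k : Type*} [Field k] [Algebra k κ] [HasPrincipalDivisors k κ]
variable {α₁ β₁ : F' →+* G} {α₂ : G →+* F} {V : κ →+* κ} {q eb : ℕ}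
  {WM : Place F' κ} {W₁ W₂ : Place G κ} {Pa Pb Pc : Place F κ} {π : F'} {π₁ : G}
  {ϖa ϖb ϖc : F}

/-- **(CHART) for the three places `(v_a, v_b, v_c)` of the tower** (helper8's `Mid.TowerData`),
from "reduction preserves integrality over `K[y₁]`, `K[y₁⁻¹]`" at the bottom place. -/
theorem _root_.Fermat.Agent.S36lib.Mid.TowerData.chart₃
    (T : TowerData α₁ β₁ α₂ V q eb WM W₁ W₂ Pa Pb Pc π π₁ ϖa ϖb ϖc)
    (hψK : ∀ c : K, α₂ (α₁ (algebraMap K F' c)) = algebraMap K F c)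
    (hVk : ∀ c : k, V (algebraMap k κ c) = algebraMap k κ c)
    (emb : F →ₐ[K] FL) {y₁ : F'} (hy₁ : y₁ ∈ WM.O) (hy₁i : y₁⁻¹ ∈ WM.O)
    (hytr : Transcendental L (emb (α₂ (α₁ y₁)))) [FiniteDimensional L⟮emb (α₂ (α₁ y₁))⟯ FL]
    (hred₁ : ∀ g ∈ WM.O, IsIntegralOver K y₁ g → IsIntegralOver k (WM.redF y₁) (WM.redF g))
    (hred₁' : ∀ g ∈ WM.O, IsIntegralOver K y₁⁻¹ g →
      IsIntegralOver k (WM.redF y₁⁻¹) (WM.redF g))
    (c : K) (cb : k)
    (hca : algebraMap K F c ∈ Pa.O ∧ Pa.redF (algebraMap K F c) = algebraMap k κ cb)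
    (hcb : algebraMap K F c ∈ Pb.O ∧ Pb.redF (algebraMap K F c) = algebraMap k κ cb)
    (hcc : algebraMap K F c ∈ Pc.O ∧ Pc.redF (algebraMap K F c) = algebraMap k κ cb)
    (hnca : Pa.redF (α₂ (α₁ y₁)) - algebraMap k κ cb ≠ 0)
    (hncb : Pb.redF (α₂ (α₁ y₁)) - algebraMap k κ cb ≠ 0)
    (hncc : Pc.redF (α₂ (α₁ y₁)) - algebraMap k κ cb ≠ 0)
    (a b : ℕ) {f : F} (hfa : f ∈ Pa.O) (hfb : f ∈ Pb.O) (hfc : f ∈ Pc.O)
    (hf : emb f ∈ riemannRochSpace
      ((a : ℤ) • polesOf (K := L) (emb (α₂ (α₁ y₁))) +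
        (b : ℤ) • zerosOf (K := L)
          (emb (α₂ (α₁ y₁)) - algebraMap L FL (algebraMap K L c)))) :
    Pa.redF f ∈ riemannRochSpace
        ((a : ℤ) • polesOf (K := k) (Pa.redF (α₂ (α₁ y₁))) +
          (b : ℤ) • zerosOf (K := k) (Pa.redF (α₂ (α₁ y₁)) - algebraMap k κ cb)) ∧
      Pb.redF f ∈ riemannRochSpace
        ((a : ℤ) • polesOf (K := k) (Pb.redF (α₂ (α₁ y₁))) +
          (b : ℤ) • zerosOf (K := k) (Pb.redF (α₂ (α₁ y₁)) - algebraMap k κ cb)) ∧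
      Pc.redF f ∈ riemannRochSpace
        ((a : ℤ) • polesOf (K := k) (Pc.redF (α₂ (α₁ y₁))) +
          (b : ℤ) • zerosOf (K := k) (Pc.redF (α₂ (α₁ y₁)) - algebraMap k κ cb)) := by
  have hιk : ∀ (i : Fin 3) (c : k), TowerData.embs₃ V i (algebraMap k κ c) = algebraMap k κ c := by
    intro i c
    fin_cases i
    · rfl
    · rfl
    · show V (V (algebraMap k κ c)) = algebraMap k κ c
      rw [hVk, hVk]
  have hc : ∀ i : Fin 3, algebraMap K F c ∈ (TowerData.places₃ Pa Pb Pc i).O := by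
    intro i
    fin_cases i
    · exact hca.1
    · exact hcb.1
    · exact hcc.1
  have hcred : ∀ i : Fin 3,
      (TowerData.places₃ Pa Pb Pc i).redF (algebraMap K F c) = algebraMap k κ cb := by
    intro i
    fin_cases i
    · exact hca.2
    · exact hcb.2
    · exact hcc.2
  have hnc : ∀ i : Fin 3,
      (TowerData.places₃ Pa Pb Pc i).redF ((α₂.comp α₁) y₁) - algebraMap k κ cb ≠ 0 := by
    intro i
    fin_cases i
    · exact hnca
    · exact hncb
    · exact hncc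
  have hfO : ∀ i : Fin 3, f ∈ (TowerData.places₃ Pa Pb Pc i).O := by
    intro i
    fin_cases i
    · exact hfa
    · exact hfb
    · exact hfc
  have key := fun i => redF_mem_chart_const (K := K) (L := L) (k := k) (α₂.comp α₁)
    (TowerData.embs₃ V) (TowerData.places₃ Pa Pb Pc) _ _ T.base T.over₃ T.ne₃ T.fin₃ T.fin_embs₃
    T.deg_sum₃ hψK hιk emb hy₁ hy₁i hytr hred₁ hred₁' c cb hc hcred hnc a b hfO hf i
  exact ⟨key 0, key 1, key 2⟩

/-- **(CHART) for the three places of the tower, constants controlled at the bottom place**: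
the reduced charts are `a (ȳ)_∞ + b (ȳ - c̄)_0`, `a (ȳ)_∞ + b (ȳ - c̄)_0`,
`a (V² ȳ)_∞ + b (V² ȳ - c̄)_0` with `ȳ = red_M y₁`. -/
theorem _root_.Fermat.Agent.S36lib.Mid.TowerData.chart₃'
    (T : TowerData α₁ β₁ α₂ V q eb WM W₁ W₂ Pa Pb Pc π π₁ ϖa ϖb ϖc)
    (hψK : ∀ c : K, α₂ (α₁ (algebraMap K F' c)) = algebraMap K F c)
    (hVk : ∀ c : k, V (algebraMap k κ c) = algebraMap k κ c)
    (emb : F →ₐ[K] FL) {y₁ : F'} (hy₁ : y₁ ∈ WM.O) (hy₁i : y₁⁻¹ ∈ WM.O)
    (hytr : Transcendental L (emb (α₂ (α₁ y₁)))) [FiniteDimensional L⟮emb (α₂ (α₁ y₁))⟯ FL]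
    (hred₁ : ∀ g ∈ WM.O, IsIntegralOver K y₁ g → IsIntegralOver k (WM.redF y₁) (WM.redF g))
    (hred₁' : ∀ g ∈ WM.O, IsIntegralOver K y₁⁻¹ g →
      IsIntegralOver k (WM.redF y₁⁻¹) (WM.redF g))
    (c : K) (cb : k) (hc₁ : algebraMap K F' c ∈ WM.O)
    (hcred₁ : WM.redF (algebraMap K F' c) = algebraMap k κ cb)
    (hnc₁ : WM.redF y₁ - algebraMap k κ cb ≠ 0)
    (a b : ℕ) {f : F} (hfa : f ∈ Pa.O) (hfb : f ∈ Pb.O) (hfc : f ∈ Pc.O)
    (hf : emb f ∈ riemannRochSpace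
      ((a : ℤ) • polesOf (K := L) (emb (α₂ (α₁ y₁))) +
        (b : ℤ) • zerosOf (K := L)
          (emb (α₂ (α₁ y₁)) - algebraMap L FL (algebraMap K L c)))) :
    Pa.redF f ∈ riemannRochSpace
        ((a : ℤ) • polesOf (K := k) (WM.redF y₁) +
          (b : ℤ) • zerosOf (K := k) (WM.redF y₁ - algebraMap k κ cb)) ∧
      Pb.redF f ∈ riemannRochSpace
        ((a : ℤ) • polesOf (K := k) (WM.redF y₁) +
          (b : ℤ) • zerosOf (K := k) (WM.redF y₁ - algebraMap k κ cb)) ∧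
      Pc.redF f ∈ riemannRochSpace
        ((a : ℤ) • polesOf (K := k) (V (V (WM.redF y₁))) +
          (b : ℤ) • zerosOf (K := k) (V (V (WM.redF y₁)) - algebraMap k κ cb)) := by
  have hιk : ∀ (i : Fin 3) (c : k), TowerData.embs₃ V i (algebraMap k κ c) = algebraMap k κ c := by
    intro i c
    fin_cases i
    · rfl
    · rfl
    · show V (V (algebraMap k κ c)) = algebraMap k κ c
      rw [hVk, hVk]
  have hfO : ∀ i : Fin 3, f ∈ (TowerData.places₃ Pa Pb Pc i).O := by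
    intro i
    fin_cases i
    · exact hfa
    · exact hfb
    · exact hfc
  have key := fun i => redF_mem_chart_const' (K := K) (L := L) (k := k) (α₂.comp α₁)
    (TowerData.embs₃ V) (TowerData.places₃ Pa Pb Pc) _ _ T.base T.over₃ T.ne₃ T.fin₃ T.fin_embs₃
    T.deg_sum₃ hψK hιk emb hy₁ hy₁i hytr hred₁ hred₁' c cb hc₁ hcred₁ hnc₁ a b hfO hf i
  exact ⟨key 0, key 1, key 2⟩

end Tower

end Fermat.Agent.S36lib.Norm
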