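/-
S36lib / Norm / ChartInst  (helper7)

**The fields `chart₁`, `chart₂`, `chart₃` of `ThickCtx` / `Reg.ThickBase` for helper5's modular
thick datum `Inst.modThick M q A hqM hA V₁ V₂ V₃`** (route (TH), instance layer), from ONE record
`T : Mid.TowerData (alphaFixM M q H) (betaFixM M q H) (alphaFix M q H) V q eb WM W₁ W₂
(ofGauss V₁) (ofRamGauss V₂) (ofGauss V₃) …` (helper8's `Mid/OverM`) whose bottom place is
`WM = ofGauss GM'`, `GM'` a `K`-rational Gauss datum of level `M` compatible with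
`V.gaussDatum M A hqM hA` (helper1's `Desc2.gaussMK`).

* `jFixM M H : fixF M H` : `j` at level `M` in the fixed field;
  `alphaFix_alphaFixM_jFixM : alphaFix M q H (alphaFixM M q H (jFixM M H)) = xTopFix M q H`;
* `modThick_chart` : the three chart statements together;
* `modThick_chart₁`, `modThick_chart₂`, `modThick_chart₃` : in the shapes of the fields.

Input hypotheses besides `T`: `hc : Desc2.Compat (V.gaussDatum M A hqM hA) GM'`,
`hVk : V` fixes the constants of `k_W`, and the reduction table of `j`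
(`V₁.redF j = red_M j`, `ramRedF V₂ j = red_M j`, `V₃.redF j = V (V (red_M j))` follow from `T`).
-/
import Mathlib
import Fermat.Agent.S36lib.Norm.ChartConst
import Fermat.Agent.S36lib.Norm.ChartBase
import Fermat.Agent.S36lib.Norm.ChartNorm
import Fermat.Agent.S36lib.Inst.Datum
import Fermat.Agent.S36lib.Mid.FixDegree

set_option autoImplicit false
set_option linter.unusedSectionVars false
set_option linter.style.haveILetI false

noncomputable section

namespace Fermat.Agent.S36lib.Norm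

open AlgebraicCurve ModularCurve IntermediateField Polynomial IsLocalRing
open Fermat.Agent.ProgramR Fermat.Agent.S18lib Fermat.Agent.LSb Fermat.Agent.LSb.Old
open Fermat.Agent.LSb.Val
open Fermat.Agent.S36lib.Mid Fermat.Agent.S36lib.Desc Fermat.Agent.S36lib.Desc2
open Fermat.Agent.S36lib.Thick Fermat.Agent.S36lib.Inst Fermat.Agent.S36lib.J
open Fermat.Agent.S36lib.Eis
open Fermat.Agent.S37lib.HeckeInst (FB)

local notation "Qb" => AlgebraicClosure ℚ
local notation "GQ" => (AlgebraicClosure ℚ ≃ₐ[ℚ] AlgebraicClosure ℚ)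

section JFix

variable (M q : ℕ) [NeZero M] [NeZero q] [Fact q.Prime] (H : Subgroup GQ)

/-- `j` at level `M`, in the fixed field -/
def jFixM : fixF M H := ⟨Gin0.jF M, by rw [jF_eq_jd]; exact jd_mem_fixF H _ _ _⟩

theorem coe_jFixM : ((jFixM M H : fixF M H) : FBar M) = Gin0.jF M := rfl

/-- `α₂ (α₁ j) = j` -/
theorem alphaFix_alphaFixM_jFixM :
    alphaFix M q H (alphaFixM M q H (jFixM M H)) = xTopFix M q H := by
  apply Subtype.ext
  rw [coe_alphaFix, coe_alphaFixM, coe_jFixM, heckeAlphaBar_jF, heckeAlphaBar_jF, jF_eq_jd]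
  rfl

end JFix

section Chart

variable {M q : ℕ} [NeZero M] [NeZero q] [hq : Fact q.Prime] {A : ValuationSubring Qb}
  {hqM : ¬ q ∣ M} {hA : A.LiesOverPrime q}
variable [HasPrincipalDivisors (IsLocalRing.ResidueField (Wfix A)) (FRes A M)]
variable {V₁ : GaussDatum (Wfix A) (FTop M q A) (FRes A M)}
  {V₂ : RamGaussDatum (Wfix A) (FTop M q A) (FRes A M)}
  {V₃ : GaussDatum (Wfix A) (FTop M q A) (FRes A M)}
variable {GM' : GaussDatum (Wfix A) (fixF M (HI A)) (FRes A M)}
variable {Vκ : FRes A M →+* FRes A M} {eb : ℕ}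
  {W₁ W₂ : Place (FMid M q A) (FRes A M)} {π : fixF M (HI A)} {π₁ : FMid M q A}
  {ϖa ϖb ϖc : FTop M q A}

/-- **(CHART) for the modular thick datum**: the three chart fields together. -/
theorem modThick_chart
    (T : TowerData (alphaFixM M q (HI A)) (betaFixM M q (HI A)) (alphaFix M q (HI A)) Vκ q eb
      (ofGauss GM') W₁ W₂ (ofGauss V₁) (ofRamGauss V₂) (ofGauss V₃) π π₁ ϖa ϖb ϖc)
    (hc : Compat (V.gaussDatum M A hqM hA) GM')
    (hVk : ∀ c : IsLocalRing.ResidueField (Wfix A),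
      Vκ (algebraMap _ (FRes A M) c) = algebraMap _ (FRes A M) c)
    (a b : ℕ) (f : FTop M q A) (hf : f ∈ (modThick M q A hqM hA V₁ V₂ V₃).𝓛 a b)
    (hfO : f ∈ (modThick M q A hqM hA V₁ V₂ V₃).O) :
    (modThick M q A hqM hA V₁ V₂ V₃).V₁.redF f ∈
        riemannRochSpace ((modThick M q A hqM hA V₁ V₂ V₃).chartDiv₁ a b) ∧
      (modThick M q A hqM hA V₁ V₂ V₃).red₂ f ∈
        riemannRochSpace ((modThick M q A hqM hA V₁ V₂ V₃).chartDiv₂ a b) ∧
      (modThick M q A hqM hA V₁ V₂ V₃).V₃.redF f ∈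
        riemannRochSpace ((modThick M q A hqM hA V₁ V₂ V₃).chartDiv₃ a b) := by
  haveI hpd : HasPrincipalDivisors Qb (FB (M * q * q)) :=
    S37lib.HeckeInst.hasPrincipalDivisors_FB (M * q * q)
  set I := constIso (A := A) hq.out hA M with hI
  set y₁ : fixF M (HI A) := jFixM M (HI A) with hy₁def
  have hjtop : alphaFix M q (HI A) (alphaFixM M q (HI A) y₁) = jTop M q A :=
    alphaFix_alphaFixM_jFixM M q (HI A)
  -- the frame at level `M`
  have fr := Frame.frameM (M := M) (q := q) hqM hA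
  have hy₁ : y₁ ∈ (ofGauss GM').O := (hc.mem y₁).2 fr.y_mem
  have hy₁i : y₁⁻¹ ∈ (ofGauss GM').O := by
    show y₁⁻¹ ∈ GM'.O
    rw [hc.mem, map_inv₀]
    exact fr.inv.y_mem
  -- the embedding into the geometric function field
  let emb : FTop M q A →ₐ[fixK (HI A)] FB (M * q * q) :=
    IsScalarTower.toAlgHom (fixK (HI A)) (FTop M q A) (FB (M * q * q))
  have hemb : emb (alphaFix M q (HI A) (alphaFixM M q (HI A) y₁)) = Gin0.jF (M * q * q) := by
    rw [hjtop]
    show ((xTopFix M q (HI A) : FTop M q A) : FB (M * q * q)) = _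
    rw [jF_eq_jd]
    rfl
  have hytr : Transcendental Qb (emb (alphaFix M q (HI A) (alphaFixM M q (HI A) y₁))) := by
    rw [hemb]
    exact Gin0.transcendental_jF (M * q * q)
  haveI hfd : FiniteDimensional Qb⟮emb (alphaFix M q (HI A) (alphaFixM M q (HI A) y₁))⟯
      (FB (M * q * q)) := by
    rw [hemb]
    exact Gin0.finiteDimensional_jF (M * q * q)
  have hψK : ∀ c : fixK (HI A), alphaFix M q (HI A)
      (alphaFixM M q (HI A) (algebraMap (fixK (HI A)) (fixF M (HI A)) c)) =
      algebraMap (fixK (HI A)) (FTop M q A) c := fun c => by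
    rw [alphaFixM_algebraMap, alphaFix_algebraMap]
  -- the constant
  set c₀ : Wfix A := c0W M q A hqM hA with hc₀
  have hc₁ : algebraMap (fixK (HI A)) (fixF M (HI A)) ((c₀ : Wfix A) : Kfix A) ∈
      (ofGauss GM').O := GM'.algebraMap_mem c₀
  have hcred₁ : (ofGauss GM').redF (algebraMap (fixK (HI A)) (fixF M (HI A))
      ((c₀ : Wfix A) : Kfix A)) =
      algebraMap (IsLocalRing.ResidueField (Wfix A)) (FRes A M) (residue (Wfix A) c₀) :=
    GM'.redF_algebraMap c₀
  have hredy : (ofGauss GM').redF y₁ = V.jRes M A := by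
    show GM'.redF y₁ = _
    rw [hc.red]
    exact Frame.redF_jF hqM hA
  have hnc₁ : (ofGauss GM').redF y₁ -
      algebraMap (IsLocalRing.ResidueField (Wfix A)) (FRes A M) (residue (Wfix A) c₀) ≠ 0 := by
    rw [hredy]
    intro h0
    apply Frame.transcendental_jRes (M := M) (q := q) hqM hA
    rw [sub_eq_zero.1 h0, I.comp]
    exact isAlgebraic_algebraMap _
  obtain ⟨hf1, hf2, hf3⟩ := ThickDatum.mem_O.1 hfO
  have hf' : emb f ∈ riemannRochSpace
      ((a : ℤ) • polesOf (K := Qb) (emb (alphaFix M q (HI A) (alphaFixM M q (HI A) y₁))) +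
        (b : ℤ) • zerosOf (K := Qb)
          (emb (alphaFix M q (HI A) (alphaFixM M q (HI A) y₁)) -
            algebraMap Qb (FB (M * q * q))
              (algebraMap (fixK (HI A)) Qb ((c₀ : Wfix A) : Kfix A)))) := by
    rw [hjtop]
    exact hf
  have key := T.chart₃' (K := fixK (HI A)) (L := Qb)
    (k := IsLocalRing.ResidueField (Wfix A)) hψK hVk emb hy₁ hy₁i hytr
    (fun g hg hint => redIntegral_gaussM hqM hA I hc rfl hg hint)
    (fun g hg hint => redIntegral_gaussM_inv hqM hA I hc rfl hg hint)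
    ((c₀ : Wfix A) : Kfix A) (residue (Wfix A) c₀) hc₁ hcred₁ hnc₁ a b hf1 hf2 hf3 hf'
  -- the reductions of `j` on the three components
  have hr1 : V₁.redF (jTop M q A) = (ofGauss GM').redF y₁ := by
    rw [← hjtop]
    exact (T.over₃ 0).red y₁ hy₁
  have hr2 : ramRedF V₂ (jTop M q A) = (ofGauss GM').redF y₁ := by
    rw [← hjtop]
    exact (T.over₃ 1).red y₁ hy₁
  have hr3 : V₃.redF (jTop M q A) = Vκ (Vκ ((ofGauss GM').redF y₁)) := by
    rw [← hjtop]
    exact (T.over₃ 2).red y₁ hy₁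
  refine ⟨?_, ?_, ?_⟩
  · show V₁.redF f ∈ riemannRochSpace (LSb.Core.lin2
      (polesOf (K := IsLocalRing.ResidueField (Wfix A)) (V₁.redF (jTop M q A)))
      (zerosOf (K := IsLocalRing.ResidueField (Wfix A)) (V₁.redF (jTop M q A) -
        algebraMap (IsLocalRing.ResidueField (Wfix A)) (FRes A M) (residue (Wfix A) c₀))) a b)
    rw [hr1]
    exact key.1
  · show ramRedF V₂ f ∈ riemannRochSpace (LSb.Core.lin2
      (polesOf (K := IsLocalRing.ResidueField (Wfix A)) (ramRedF V₂ (jTop M q A)))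
      (zerosOf (K := IsLocalRing.ResidueField (Wfix A)) (ramRedF V₂ (jTop M q A) -
        algebraMap (IsLocalRing.ResidueField (Wfix A)) (FRes A M) (residue (Wfix A) c₀))) a b)
    rw [hr2]
    exact key.2.1
  · show V₃.redF f ∈ riemannRochSpace (LSb.Core.lin2
      (polesOf (K := IsLocalRing.ResidueField (Wfix A)) (V₃.redF (jTop M q A)))
      (zerosOf (K := IsLocalRing.ResidueField (Wfix A)) (V₃.redF (jTop M q A) -
        algebraMap (IsLocalRing.ResidueField (Wfix A)) (FRes A M) (residue (Wfix A) c₀))) a b)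
    rw [hr3]
    exact key.2.2

variable (T : TowerData (alphaFixM M q (HI A)) (betaFixM M q (HI A)) (alphaFix M q (HI A)) Vκ q eb
      (ofGauss GM') W₁ W₂ (ofGauss V₁) (ofRamGauss V₂) (ofGauss V₃) π π₁ ϖa ϖb ϖc)
    (hc : Compat (V.gaussDatum M A hqM hA) GM')
    (hVk : ∀ c : IsLocalRing.ResidueField (Wfix A),
      Vκ (algebraMap _ (FRes A M) c) = algebraMap _ (FRes A M) c)

include T hc hVk

/-- the field `chart₁` of `ThickCtx` / `Reg.ThickBase` for `modThick` -/
theorem modThick_chart₁ (a b : ℕ) (f : FTop M q A)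
    (hf : f ∈ (modThick M q A hqM hA V₁ V₂ V₃).𝓛 a b)
    (hfO : f ∈ (modThick M q A hqM hA V₁ V₂ V₃).O) :
    (modThick M q A hqM hA V₁ V₂ V₃).V₁.redF f ∈
      riemannRochSpace ((modThick M q A hqM hA V₁ V₂ V₃).chartDiv₁ a b) :=
  (modThick_chart T hc hVk a b f hf hfO).1

/-- the field `chart₂` of `ThickCtx` / `Reg.ThickBase` for `modThick` -/
theorem modThick_chart₂ (a b : ℕ) (f : FTop M q A)
    (hf : f ∈ (modThick M q A hqM hA V₁ V₂ V₃).𝓛 a b)
    (hfO : f ∈ (modThick M q A hqM hA V₁ V₂ V₃).O) :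
    (modThick M q A hqM hA V₁ V₂ V₃).red₂ f ∈
      riemannRochSpace ((modThick M q A hqM hA V₁ V₂ V₃).chartDiv₂ a b) :=
  (modThick_chart T hc hVk a b f hf hfO).2.1

/-- the field `chart₃` of `ThickCtx` / `Reg.ThickBase` for `modThick` -/
theorem modThick_chart₃ (a b : ℕ) (f : FTop M q A)
    (hf : f ∈ (modThick M q A hqM hA V₁ V₂ V₃).𝓛 a b)
    (hfO : f ∈ (modThick M q A hqM hA V₁ V₂ V₃).O) :
    (modThick M q A hqM hA V₁ V₂ V₃).V₃.redF f ∈
      riemannRochSpace ((modThick M q A hqM hA V₁ V₂ V₃).chartDiv₃ a b) :=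
  (modThick_chart T hc hVk a b f hf hfO).2.2

end Chart

end Fermat.Agent.S36lib.Norm
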