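/-
S36lib / Norm / ChainInst  (helper7)

The **valuation-theoretic fields of `J.NormCtx` / `J.ChainCtx`** (helper4's `J/Setup.lean`) from
`RamOverAlong` data (`Norm/Along.lean`), for a homomorphism `ψ : G →+* F` (`α^*` or `β^*`) between
the function field `G` of level `M q` (with its two Gauss data `L.W₁, L.W₂`) and the function field
`F` of level `M q²` (with its thick datum `D`).

* `normMonoidHom ψ : F →* G`          : the norm along `ψ` as a monoid homomorphism;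
* `AlphaData D L ψ q ι₁ ι₂ ι₃`        : over `W₁` lie `V₁` (`e = f = 1`, `ι₁ : G₁ ≃+* F₁`) and `V₂`
                                         (`e = D.e`, `f = 1`, `ι₂ : G₁ ≃+* F₂`); over `W₂` lies `V₃`
                                         (`e = 1`, `f = q` purely inseparable, `ι₃ : G₂ →+* F₃`);
* `BetaData D L ψ q ι₁ ι₂ ι₃`         : over `W₁` lies `V₁` (`f = q` insep., `ι₁ : G₁ →+* F₁`); over
                                         `W₂` lie `V₂` (`e = D.e`, `ι₂ : G₂ ≃+* F₂`) and `V₃`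
                                         (`e = f = 1`, `ι₃ : G₂ ≃+* F₃`);
* `AlphaData.mem₁ mem₂ red₁ red₂ ord₁ ord₂`, `BetaData.mem₁ mem₂ red₁ red₂ ord₁ ord₂` in exactly
  the shapes of the fields `mem₁ mem₂ red₁ red₂` of `J.NormCtx` and `ordα₁ ordα₂ ordβ₁ ordβ₂` of
  `J.ChainCtx`;
* `normMonoidHom_const` : the field `const` of `J.NormCtx` for a `K`-linear `ψ`.
-/
import Mathlib
import Fermat.Agent.S36lib.J.Setup
import Fermat.Agent.S36lib.Norm.Along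
import Fermat.Agent.S36lib.Norm.ThickBridge

set_option autoImplicit false
set_option linter.unusedSectionVars false
set_option linter.style.haveILetI false

noncomputable section

namespace Fermat.Agent.S36lib.Norm

open Fermat.Agent.S18lib Fermat.Agent.S36lib.Thick Fermat.Agent.S36lib.J

universe u

variable {K : Type*} [Field K] {R : ValuationSubring K}
variable {F : Type*} [Field F] [Algebra K F]
variable {F₁ F₂ F₃ : Type u} [Field F₁] [Field F₂] [Field F₃]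
variable [Algebra (IsLocalRing.ResidueField R) F₁] [Algebra (IsLocalRing.ResidueField R) F₂]
variable [Algebra (IsLocalRing.ResidueField R) F₃]
variable {G : Type*} [Field G] [Algebra K G]
variable {G₁ G₂ : Type*} [Field G₁] [Field G₂]
variable [Algebra (IsLocalRing.ResidueField R) G₁] [Algebra (IsLocalRing.ResidueField R) G₂]

/-- the norm along a homomorphism of fields, as a monoid homomorphism -/
def normMonoidHom (ψ : G →+* F) : F →* G :=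
  letI := ψ.toAlgebra
  Algebra.norm G

theorem normMonoidHom_apply (ψ : G →+* F) (u : F) : normMonoidHom ψ u = normHom ψ u := rfl

/-- the field `const` of `J.NormCtx`: the norm of a constant is a constant -/
theorem normMonoidHom_const (ψ : G →+* F) (hψK : ∀ c : K, ψ (algebraMap K G c) = algebraMap K F c)
    (c : K) : ∃ c' : K, normMonoidHom ψ (algebraMap K F c) = algebraMap K G c' := by
  letI := ψ.toAlgebra
  refine ⟨c ^ Module.finrank G F, ?_⟩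
  show Algebra.norm G (algebraMap K F c) = _
  rw [← hψK c]
  show Algebra.norm G (algebraMap G F (algebraMap K G c)) = _
  rw [Algebra.norm_algebraMap, map_pow]

/-- **The data along `α`.** -/
structure AlphaData (D : ThickDatum R F F₁ F₂ F₃) (L : LowDatum R G G₁ G₂) (ψ : G →+* F) (q : ℕ)
    (ι₁ : G₁ ≃+* F₁) (ι₂ : G₁ ≃+* F₂) (ι₃ : G₂ →+* F₃) : Prop where
  fin : FiniteHom ψ
  deg : finrankHom ψ = q
  he : 1 + D.e = q
  base₁ : IsUnif L.W₁.O (algebraMap K G D.π)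
  base₂ : IsUnif L.W₂.O (algebraMap K G D.π)
  gen₁ : ∀ x : G, x ≠ 0 →
    ∃ n : ℤ, L.W₁.O.valuation x = L.W₁.O.valuation (algebraMap K G D.π) ^ n
  gen₂ : ∀ x : G, x ≠ 0 →
    ∃ n : ℤ, L.W₂.O.valuation x = L.W₂.O.valuation (algebraMap K G D.π) ^ n
  over₁ : RamOverAlong ψ (ι₁ : G₁ →+* F₁) (gaussPlace L.W₁) (algebraMap K G D.π)
    (gaussPlace D.V₁) (algebraMap K F D.π) 1
  over₂ : RamOverAlong ψ (ι₂ : G₁ →+* F₂) (gaussPlace L.W₁) (algebraMap K G D.π)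
    (ofRamGauss D.V₂) D.ϖ D.e
  over₃ : RamOverAlong ψ ι₃ (gaussPlace L.W₂) (algebraMap K G D.π)
    (gaussPlace D.V₃) (algebraMap K F D.π) 1
  ne₁₂ : D.V₁.O ≠ D.V₂.O
  resdeg : (letI := ι₃.toAlgebra; Module.finrank G₂ F₃) = q
  insep : ∀ z : F₃, ∃ a : G₂, ι₃ a = z ^ q

/-- **The data along `β`.** -/
structure BetaData (D : ThickDatum R F F₁ F₂ F₃) (L : LowDatum R G G₁ G₂) (ψ : G →+* F) (q : ℕ)
    (ι₁ : G₁ →+* F₁) (ι₂ : G₂ ≃+* F₂) (ι₃ : G₂ ≃+* F₃) : Prop where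
  fin : FiniteHom ψ
  deg : finrankHom ψ = q
  he : D.e + 1 = q
  base₁ : IsUnif L.W₁.O (algebraMap K G D.π)
  base₂ : IsUnif L.W₂.O (algebraMap K G D.π)
  gen₁ : ∀ x : G, x ≠ 0 →
    ∃ n : ℤ, L.W₁.O.valuation x = L.W₁.O.valuation (algebraMap K G D.π) ^ n
  gen₂ : ∀ x : G, x ≠ 0 →
    ∃ n : ℤ, L.W₂.O.valuation x = L.W₂.O.valuation (algebraMap K G D.π) ^ n
  over₁ : RamOverAlong ψ ι₁ (gaussPlace L.W₁) (algebraMap K G D.π)
    (gaussPlace D.V₁) (algebraMap K F D.π) 1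
  over₂ : RamOverAlong ψ (ι₂ : G₂ →+* F₂) (gaussPlace L.W₂) (algebraMap K G D.π)
    (ofRamGauss D.V₂) D.ϖ D.e
  over₃ : RamOverAlong ψ (ι₃ : G₂ →+* F₃) (gaussPlace L.W₂) (algebraMap K G D.π)
    (gaussPlace D.V₃) (algebraMap K F D.π) 1
  ne₂₃ : D.V₂.O ≠ D.V₃.O
  resdeg : (letI := ι₁.toAlgebra; Module.finrank G₁ F₁) = q
  insep : ∀ z : F₁, ∃ a : G₁, ι₁ a = z ^ q

variable {D : ThickDatum R F F₁ F₂ F₃} {L : LowDatum R G G₁ G₂} {ψ : G →+* F} {q : ℕ}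

namespace AlphaData

variable {ι₁ : G₁ ≃+* F₁} {ι₂ : G₁ ≃+* F₂} {ι₃ : G₂ →+* F₃}
variable (X : AlphaData D L ψ q ι₁ ι₂ ι₃)
include X

theorem two {u : F} (hu : u ∈ D.O) :
    normMonoidHom ψ u ∈ L.W₁.O ∧ L.W₁.redF (normMonoidHom ψ u) =
      ι₁.symm (D.V₁.redF u) ^ 1 * ι₂.symm (D.red₂ u) ^ D.e := by
  obtain ⟨h1, h2, -⟩ := ThickDatum.mem_O.1 hu
  exact redF_normHom_two_equiv (P' := gaussPlace L.W₁) (P₁ := gaussPlace D.V₁)
    (P₂ := ofRamGauss D.V₂) ψ ι₁ ι₂ X.fin X.base₁ X.over₁ X.over₂ X.ne₁₂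
    (by rw [X.deg]; exact X.he) h1 h2

/-- field `mem₁` of `J.NormCtx` -/
theorem mem₁ (u : F) (hu : u ∈ D.O) : normMonoidHom ψ u ∈ L.W₁.O := (X.two hu).1

/-- field `red₁` of `J.NormCtx` (`φ₁ = ι₁⁻¹`, `φ₂ = (ι₂⁻¹) ^ e`) -/
theorem red₁ (u : F) (hu : u ∈ D.O) :
    L.W₁.redF (normMonoidHom ψ u) =
      ι₁.symm.toMonoidHom (D.V₁.redF u) * (ι₂.symm.toMonoidHom ^ D.e) (D.red₂ u) := by
  rw [(X.two hu).2, pow_one, MonoidHom.pow_apply]
  rfl

theorem one [Fact q.Prime] [CharP G₂ q] {u : F} (hu : u ∈ D.O) :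
    normMonoidHom ψ u ∈ L.W₂.O ∧ ι₃ (L.W₂.redF (normMonoidHom ψ u)) = D.V₃.redF u ^ q := by
  obtain ⟨-, -, h3⟩ := ThickDatum.mem_O.1 hu
  exact redF_normHom_one_insep (P' := gaussPlace L.W₂) (P := gaussPlace D.V₃) ψ ι₃ q X.fin
    X.base₂ X.over₃ X.deg X.resdeg X.insep h3

/-- field `mem₂` of `J.NormCtx` -/
theorem mem₂ [Fact q.Prime] [CharP G₂ q] (u : F) (hu : u ∈ D.O) :
    normMonoidHom ψ u ∈ L.W₂.O := (X.one hu).1

/-- field `red₂` of `J.NormCtx` (`ψ₂ = 1`, `ψ₃ = a₃` of Frobenius type: `ι₃ (a₃ z) = z ^ q`) -/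
theorem red₂ [Fact q.Prime] [CharP G₂ q] (a₃ : F₃ →* G₂) (ha₃ : ∀ z, ι₃ (a₃ z) = z ^ q)
    (u : F) (hu : u ∈ D.O) :
    L.W₂.redF (normMonoidHom ψ u) = (1 : F₂ →* G₂) (D.red₂ u) * a₃ (D.V₃.redF u) := by
  rw [MonoidHom.one_apply, one_mul]
  apply ι₃.injective
  rw [(X.one hu).2, ha₃]

/-- field `ordα₁` of `J.ChainCtx` -/
theorem ord₁ (u : F) (w₁ w₂ : ℤ) (_hu : u ≠ 0)
    (h₁ : D.V₁.O.valuation u = D.V₁.O.valuation (algebraMap K F D.π) ^ w₁)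
    (h₂ : D.V₂.O.valuation u = D.V₂.O.valuation D.ϖ ^ w₂) :
    L.W₁.O.valuation (normMonoidHom ψ u) =
      L.W₁.O.valuation (algebraMap K G D.π) ^ (w₁ + w₂) :=
  val_normHom_two_equiv (P' := gaussPlace L.W₁) (P₁ := gaussPlace D.V₁)
    (P₂ := ofRamGauss D.V₂) ψ ι₁ ι₂ X.fin X.base₁ X.over₁ X.over₂ X.ne₁₂
    (by rw [X.deg]; exact X.he) X.gen₁ w₁ w₂ h₁ h₂

/-- field `ordα₂` of `J.ChainCtx` -/
theorem ord₂ (u : F) (w₃ : ℤ) (_hu : u ≠ 0)
    (h₃ : D.V₃.O.valuation u = D.V₃.O.valuation (algebraMap K F D.π) ^ w₃) :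
    L.W₂.O.valuation (normMonoidHom ψ u) =
      L.W₂.O.valuation (algebraMap K G D.π) ^ ((q : ℤ) * w₃) := by
  have hq : 0 < q := by have := X.he; omega
  have hfin : (letI := ι₃.toAlgebra; Module.Finite G₂ F₃) := by
    letI := ι₃.toAlgebra
    exact Module.finite_of_finrank_pos (by rw [X.resdeg]; exact hq)
  have := val_normHom_one (P' := gaussPlace L.W₂) (P := gaussPlace D.V₃) ψ ι₃ X.fin X.base₂
    X.over₃ hfin (by rw [one_mul, X.resdeg, X.deg]) X.gen₂ w₃ h₃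
  rw [X.resdeg] at this
  exact this

end AlphaData

namespace BetaData

variable {ι₁ : G₁ →+* F₁} {ι₂ : G₂ ≃+* F₂} {ι₃ : G₂ ≃+* F₃}
variable (X : BetaData D L ψ q ι₁ ι₂ ι₃)
include X

theorem two {u : F} (hu : u ∈ D.O) :
    normMonoidHom ψ u ∈ L.W₂.O ∧ L.W₂.redF (normMonoidHom ψ u) =
      ι₂.symm (D.red₂ u) ^ D.e * ι₃.symm (D.V₃.redF u) ^ 1 := by
  obtain ⟨-, h2, h3⟩ := ThickDatum.mem_O.1 hu
  exact redF_normHom_two_equiv (P' := gaussPlace L.W₂) (P₁ := ofRamGauss D.V₂)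
    (P₂ := gaussPlace D.V₃) ψ ι₂ ι₃ X.fin X.base₂ X.over₂ X.over₃ X.ne₂₃
    (by rw [X.deg]; exact X.he) h2 h3

/-- field `mem₂` of `J.NormCtx` -/
theorem mem₂ (u : F) (hu : u ∈ D.O) : normMonoidHom ψ u ∈ L.W₂.O := (X.two hu).1

/-- field `red₂` of `J.NormCtx` (`ψ₂ = (ι₂⁻¹) ^ e`, `ψ₃ = ι₃⁻¹`) -/
theorem red₂ (u : F) (hu : u ∈ D.O) :
    L.W₂.redF (normMonoidHom ψ u) =
      (ι₂.symm.toMonoidHom ^ D.e) (D.red₂ u) * ι₃.symm.toMonoidHom (D.V₃.redF u) := by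
  rw [(X.two hu).2, pow_one, MonoidHom.pow_apply]
  rfl

theorem one [Fact q.Prime] [CharP G₁ q] {u : F} (hu : u ∈ D.O) :
    normMonoidHom ψ u ∈ L.W₁.O ∧ ι₁ (L.W₁.redF (normMonoidHom ψ u)) = D.V₁.redF u ^ q := by
  obtain ⟨h1, -, -⟩ := ThickDatum.mem_O.1 hu
  exact redF_normHom_one_insep (P' := gaussPlace L.W₁) (P := gaussPlace D.V₁) ψ ι₁ q X.fin
    X.base₁ X.over₁ X.deg X.resdeg X.insep h1

/-- field `mem₁` of `J.NormCtx` -/
theorem mem₁ [Fact q.Prime] [CharP G₁ q] (u : F) (hu : u ∈ D.O) :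
    normMonoidHom ψ u ∈ L.W₁.O := (X.one hu).1

/-- field `red₁` of `J.NormCtx` (`φ₁ = b₁` of Frobenius type: `ι₁ (b₁ z) = z ^ q`, `φ₂ = 1`) -/
theorem red₁ [Fact q.Prime] [CharP G₁ q] (b₁ : F₁ →* G₁) (hb₁ : ∀ z, ι₁ (b₁ z) = z ^ q)
    (u : F) (hu : u ∈ D.O) :
    L.W₁.redF (normMonoidHom ψ u) = b₁ (D.V₁.redF u) * (1 : F₂ →* G₁) (D.red₂ u) := by
  rw [MonoidHom.one_apply, mul_one]
  apply ι₁.injective
  rw [(X.one hu).2, hb₁]

/-- field `ordβ₁` of `J.ChainCtx` -/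
theorem ord₁ (u : F) (w₁ : ℤ) (_hu : u ≠ 0)
    (h₁ : D.V₁.O.valuation u = D.V₁.O.valuation (algebraMap K F D.π) ^ w₁) :
    L.W₁.O.valuation (normMonoidHom ψ u) =
      L.W₁.O.valuation (algebraMap K G D.π) ^ ((q : ℤ) * w₁) := by
  have hq : 0 < q := by have := X.he; omega
  have hfin : (letI := ι₁.toAlgebra; Module.Finite G₁ F₁) := by
    letI := ι₁.toAlgebra
    exact Module.finite_of_finrank_pos (by rw [X.resdeg]; exact hq)
  have := val_normHom_one (P' := gaussPlace L.W₁) (P := gaussPlace D.V₁) ψ ι₁ X.fin X.base₁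
    X.over₁ hfin (by rw [one_mul, X.resdeg, X.deg]) X.gen₁ w₁ h₁
  rw [X.resdeg] at this
  exact this

/-- field `ordβ₂` of `J.ChainCtx` -/
theorem ord₂ (u : F) (w₂ w₃ : ℤ) (_hu : u ≠ 0)
    (h₂ : D.V₂.O.valuation u = D.V₂.O.valuation D.ϖ ^ w₂)
    (h₃ : D.V₃.O.valuation u = D.V₃.O.valuation (algebraMap K F D.π) ^ w₃) :
    L.W₂.O.valuation (normMonoidHom ψ u) =
      L.W₂.O.valuation (algebraMap K G D.π) ^ (w₂ + w₃) :=
  val_normHom_two_equiv (P' := gaussPlace L.W₂) (P₁ := ofRamGauss D.V₂)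
    (P₂ := gaussPlace D.V₃) ψ ι₂ ι₃ X.fin X.base₂ X.over₂ X.over₃ X.ne₂₃
    (by rw [X.deg]; exact X.he) X.gen₂ w₂ w₃ h₂ h₃

end BetaData

end Fermat.Agent.S36lib.Norm
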