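/-
S36lib / Norm / RamNormRed  (helper7)

NORM–REDUCTION WITH RAMIFICATION (brick B7 of the S36 plan, abstract part).

`F / F'` a finite extension of fields; `P'` a place of `F'` (valuation subring + residue map
`red' : O' →+* κ'`) whose maximal ideal is generated by `π`; finitely many pairwise incomparable
rank one places `P i` of `F` lying over `P'` (residue fields `κ i`, `κ'`-algebras), with
uniformizers `ϖ i` (generating the maximal ideal of `P i`) and ramification indices `e i`
(`v_i π = v_i (ϖ i) ^ e i`), such that `∑ i, e i * [κ i : κ'] = [F : F']`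
(`RamDatum` + `hdeg`).  Then for every `u ∈ ∩ O_i` (NOT necessarily a unit):

  `N_{F/F'} u ∈ O'`   and   `red' (N_{F/F'} u) = ∏ i, N_{κ i/κ'} (red_i u) ^ e i`
                                                       (`RamDatum.redF_norm`).

Proof: approximation (`ApproxFamily`) gives `t i` (uniformizer at `i`, unit elsewhere) and
`B i a` (lifting a `κ'`-basis of `κ i` at `i`, divisible by `π` elsewhere); the family
`B i a * t i ^ m` (`m < e i`) is an `F'`-basis of `F` in which the coordinates of elements of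
`R = ∩ O_i` are `O'`-integral (`IsRamFrame.coeff_le_one`), and the matrix of multiplication by
`u` is, modulo `π`, block diagonal in `i` and block triangular in `m`, with diagonal blocks the
matrices of multiplication by `red_i u` on `κ i`.

Mathlib only (+ `ApproxFamily`, `Place`).
-/
import Mathlib
import Fermat.Agent.S36lib.Norm.Place

set_option autoImplicit false
set_option linter.unusedSectionVars false

noncomputable section

namespace Fermat.Agent.S36lib.Norm

/-- In a valuation ring, a nonzero finite family has a coefficient of maximal valuation. -/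
theorem exists_max_coeff {K : Type*} [Field K] (O : ValuationSubring K) {ι : Type*} [Fintype ι]
    (α : ι → K) (hα : α ≠ 0) : ∃ i₀, α i₀ ≠ 0 ∧ ∀ i, α i / α i₀ ∈ O := by
  classical
  obtain ⟨j, hj⟩ : ∃ j, α j ≠ 0 := by
    by_contra h
    push Not at h
    exact hα (funext h)
  have hne : (Finset.univ : Finset ι).Nonempty := ⟨j, Finset.mem_univ j⟩
  obtain ⟨i₀, -, hmax⟩ := Finset.exists_max_image Finset.univ (fun i => O.valuation (α i)) hne
  have hvj : O.valuation (α j) ≠ 0 := (Valuation.ne_zero_iff _).mpr hj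
  have hv0 : O.valuation (α i₀) ≠ 0 := by
    intro h0
    have := hmax j (Finset.mem_univ j)
    rw [h0] at this
    exact hvj (le_antisymm this zero_le)
  refine ⟨i₀, (Valuation.ne_zero_iff _).mp hv0, fun i => ?_⟩
  rw [← O.valuation_le_one_iff, map_div₀, div_le_one₀ (zero_lt_iff.mpr hv0)]
  exact hmax i (Finset.mem_univ i)

section LiesOver

variable {F' F : Type*} [Field F'] [Field F] [Algebra F' F]
variable {κ' κ : Type*} [Field κ'] [Field κ] [Algebra κ' κ]

/-- the place `P` of `F` lies over the place `P'` of `F'` (compatibly with the residue maps) -/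
structure LiesOver (P' : Place F' κ') (P : Place F κ) : Prop where
  mem : ∀ y : F', y ∈ P'.O → algebraMap F' F y ∈ P.O
  red : ∀ y : F', y ∈ P'.O → P.redF (algebraMap F' F y) = algebraMap κ' κ (P'.redF y)

variable {P' : Place F' κ'} {P : Place F κ}

theorem LiesOver.val_le_one (h : LiesOver P' P) {y : F'} (hy : P'.O.valuation y ≤ 1) :
    P.O.valuation (algebraMap F' F y) ≤ 1 :=
  (P.O.valuation_le_one_iff _).2 (h.mem y ((P'.O.valuation_le_one_iff y).1 hy))

theorem LiesOver.val_lt_one (h : LiesOver P' P) {y : F'} (hy : P'.O.valuation y < 1) :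
    P.O.valuation (algebraMap F' F y) < 1 := by
  have hmem : y ∈ P'.O := (P'.O.valuation_le_one_iff y).1 hy.le
  rw [← P.redF_eq_zero_iff (h.mem y hmem), h.red y hmem, P'.redF_eq_zero_of_lt hy, map_zero]

theorem LiesOver.val_le (h : LiesOver P' P) {x y : F'} (hy : y ≠ 0)
    (hxy : P'.O.valuation x ≤ P'.O.valuation y) :
    P.O.valuation (algebraMap F' F x) ≤ P.O.valuation (algebraMap F' F y) := by
  have hy' : 0 < P'.O.valuation y := zero_lt_iff.2 ((Valuation.ne_zero_iff _).2 hy)
  have hyF : algebraMap F' F y ≠ 0 := (map_ne_zero _).2 hy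
  have hyF' : 0 < P.O.valuation (algebraMap F' F y) :=
    zero_lt_iff.2 ((Valuation.ne_zero_iff _).2 hyF)
  have h1 : P'.O.valuation (x / y) ≤ 1 := by rwa [map_div₀, div_le_one₀ hy']
  have h2 := h.val_le_one h1
  rwa [map_div₀, map_div₀, div_le_one₀ hyF'] at h2

theorem LiesOver.val_eq_one (h : LiesOver P' P) {y : F'} (hy : P'.O.valuation y = 1) :
    P.O.valuation (algebraMap F' F y) = 1 := by
  have hy0 : y ≠ 0 := by
    rintro rfl
    rw [map_zero] at hy
    exact zero_ne_one hy
  refine le_antisymm (h.val_le_one hy.le) ?_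
  have := h.val_le (x := 1) hy0 (by rw [map_one, hy])
  rwa [map_one, map_one] at this

/-- reduction of a scalar multiple -/
theorem LiesOver.redF_smul (h : LiesOver P' P) {d : F'} (hd : d ∈ P'.O) {x : F} (hx : x ∈ P.O) :
    P.redF (d • x) = P'.redF d • P.redF x := by
  rw [Algebra.smul_def, P.redF_mul (h.mem d hd) hx, h.red d hd, Algebra.smul_def]

theorem LiesOver.smul_mem (h : LiesOver P' P) {d : F'} (hd : d ∈ P'.O) {x : F} (hx : x ∈ P.O) :
    d • x ∈ P.O := by
  rw [Algebra.smul_def]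
  exact P.O.mul_mem _ _ (h.mem d hd) hx

end LiesOver

/-- determinant of a matrix indexed by `J × Fin e`, block triangular with respect to the
second index, all diagonal blocks equal to `Λ` -/
theorem det_of_block_lower {R : Type*} [CommRing R] {J : Type*} [Fintype J] [DecidableEq J]
    (e : ℕ) (D : Matrix (J × Fin e) (J × Fin e) R) (Λ : Matrix J J R)
    (hzero : ∀ a' m' a m, m' < m → D (a', m') (a, m) = 0)
    (hdiag : ∀ a' a m, D (a', m) (a, m) = Λ a' a) : D.det = Λ.det ^ e := by
  have hBT : D.BlockTriangular (fun x => Fin.rev x.2) := by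
    intro x y hxy
    exact hzero x.1 x.2 y.1 y.2 (Fin.rev_lt_rev.1 hxy)
  rw [hBT.det_fintype]
  have hk : ∀ k : Fin e, (D.toSquareBlock (fun x => Fin.rev x.2) k).det = Λ.det := by
    intro k
    let f : {x : J × Fin e // Fin.rev x.2 = k} ≃ J :=
      { toFun := fun x => x.1.1
        invFun := fun a => ⟨(a, Fin.rev k), Fin.rev_rev k⟩
        left_inv := by
          rintro ⟨⟨a, m⟩, hx⟩
          simp only [Subtype.mk.injEq, Prod.mk.injEq, true_and]
          rw [← hx, Fin.rev_rev]
        right_inv := fun a => rfl }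
    have hsub : D.toSquareBlock (fun x => Fin.rev x.2) k = Λ.submatrix f f := by
      ext x y
      obtain ⟨⟨a', m'⟩, hx⟩ := x
      obtain ⟨⟨a, m⟩, hy⟩ := y
      have hm : m' = m := Fin.rev_injective (hx.trans hy.symm)
      subst hm
      exact hdiag a' a m'
    rw [hsub, Matrix.det_submatrix_equiv_self]
  simp [hk]

/-- determinant of a matrix indexed by a sigma type whose off-diagonal blocks vanish -/
theorem det_sigma_block {R : Type*} [CommRing R] {ι : Type*} [Fintype ι] [DecidableEq ι]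
    {n : ι → Type*} [∀ i, Fintype (n i)] [∀ i, DecidableEq (n i)]
    (M : Matrix (Σ i, n i) (Σ i, n i) R)
    (hoff : ∀ (i' i : ι) (p' : n i') (p : n i), i' ≠ i → M ⟨i', p'⟩ ⟨i, p⟩ = 0) :
    M.det = ∏ i, (Matrix.of fun p' p => M ⟨i, p'⟩ ⟨i, p⟩ : Matrix (n i) (n i) R).det := by
  obtain ⟨inst, -⟩ := exists_wellFoundedLT ι
  have hBT : M.BlockTriangular Sigma.fst := by
    rintro ⟨i', p'⟩ ⟨i, p⟩ h
    exact hoff i' i p' p (ne_of_gt h)
  rw [hBT.det_fintype]
  refine Finset.prod_congr rfl fun k _ => ?_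
  have hsub : M.toSquareBlock Sigma.fst k =
      (Matrix.of fun p' p => M ⟨k, p'⟩ ⟨k, p⟩ : Matrix (n k) (n k) R).submatrix
        (Equiv.sigmaSubtype k) (Equiv.sigmaSubtype k) := by
    ext ⟨⟨i', p'⟩, h'⟩ ⟨⟨i, p⟩, h⟩
    simp only at h h'
    subst h
    subst h'
    rfl
  rw [hsub, Matrix.det_submatrix_equiv_self]

section Ram

variable {F' F : Type*} [Field F'] [Field F] [Algebra F' F]
variable {κ' : Type*} [Field κ']
variable {ι : Type*} [Fintype ι] [DecidableEq ι]
variable {κ : ι → Type*} [∀ i, Field (κ i)] [∀ i, Algebra κ' (κ i)]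

/-- **Ramified family datum**: a place `P'` of `F'` with uniformizer `π`, finitely many pairwise
incomparable rank one places `P i` of `F` over it, with uniformizers `ϖ i` and ramification
indices `e i` (`π = unit * ϖ i ^ e i` at `P i`). -/
structure RamDatum (P' : Place F' κ') (π : F') (P : ∀ i, Place F (κ i)) (ϖ : ι → F)
    (e : ι → ℕ) : Prop where
  pi_ne : π ≠ 0
  pi_lt : P'.O.valuation π < 1
  pi_gen : ∀ x : F', P'.O.valuation x < 1 → P'.O.valuation x ≤ P'.O.valuation π
  liesOver : ∀ i, LiesOver P' (P i)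
  incomp : ∀ i j, i ≠ j → ¬ (P i).O ≤ (P j).O
  arch : ∀ i, IsArch (P i).O
  unif_lt : ∀ i, (P i).O.valuation (ϖ i) < 1
  unif_gen : ∀ i (y : F), (P i).O.valuation y < 1 → (P i).O.valuation y ≤ (P i).O.valuation (ϖ i)
  ram : ∀ i, (P i).O.valuation (algebraMap F' F π) = (P i).O.valuation (ϖ i) ^ e i

variable {P' : Place F' κ'} {π : F'} {P : ∀ i, Place F (κ i)} {ϖ : ι → F} {e : ι → ℕ}

namespace RamDatum

variable (D : RamDatum P' π P ϖ e)
include D

theorem val_pi_lt (i : ι) : (P i).O.valuation (algebraMap F' F π) < 1 :=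
  (D.liesOver i).val_lt_one D.pi_lt

theorem val_pi_pos (i : ι) : 0 < (P i).O.valuation (algebraMap F' F π) :=
  zero_lt_iff.2 ((Valuation.ne_zero_iff _).2 ((map_ne_zero _).2 D.pi_ne))

theorem e_ne_zero (i : ι) : e i ≠ 0 := by
  intro h
  have := D.val_pi_lt i
  rw [D.ram i, h, pow_zero] at this
  exact lt_irrefl _ this

theorem unif_pos (i : ι) : 0 < (P i).O.valuation (ϖ i) := by
  rw [zero_lt_iff]
  intro h
  have := D.val_pi_pos i
  rw [D.ram i, h, zero_pow (D.e_ne_zero i)] at this
  exact lt_irrefl _ this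

theorem unif_ne_zero (i : ι) : ϖ i ≠ 0 :=
  (Valuation.ne_zero_iff _).1 (ne_of_gt (D.unif_pos i))

/-- `𝔪' = π O'` seen at the place `P i` -/
theorem val_le_of_lt (i : ι) {d : F'} (hd : P'.O.valuation d < 1) :
    (P i).O.valuation (algebraMap F' F d) ≤ (P i).O.valuation (ϖ i) ^ e i := by
  rw [← D.ram i]
  exact (D.liesOver i).val_le D.pi_ne (D.pi_gen d hd)

end RamDatum

/-- A **ramified frame**: `t i` is a uniformizer at `P i` and a unit at the other places;
`B i a` lifts `β i a` at `P i` and is divisible by `π` at the other places. -/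
structure IsRamFrame (π : F') (P : ∀ i, Place F (κ i)) (ϖ : ι → F) {J : ι → Type*}
    (β : ∀ i, J i → κ i) (t : ι → F) (B : ∀ i, J i → F) : Prop where
  t_self : ∀ i, (P i).O.valuation (t i) = (P i).O.valuation (ϖ i)
  t_other : ∀ i j, j ≠ i → (P j).O.valuation (t i) = 1
  B_mem : ∀ i a, B i a ∈ (P i).O
  B_red : ∀ i a, (P i).redF (B i a) = β i a
  B_other : ∀ i a j, j ≠ i →
    (P j).O.valuation (B i a) < (P j).O.valuation (algebraMap F' F π)

theorem RamDatum.exists_isRamFrame (D : RamDatum P' π P ϖ e) {J : ι → Type*}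
    (β : ∀ i, J i → κ i) : ∃ (t : ι → F) (B : ∀ i, J i → F), IsRamFrame π P ϖ β t B := by
  have hO : ∀ i j, i ≠ j → ¬ (fun i => (P i).O) i ≤ (fun i => (P i).O) j := D.incomp
  have ht : ∀ i, ∃ x : F, (P i).O.valuation x = (P i).O.valuation (ϖ i) ∧
      ∀ j, j ≠ i → (P j).O.valuation x = 1 := by
    intro i
    have : Nonempty ι := ⟨i⟩
    obtain ⟨x, -, hx⟩ := exists_valuation_eq (fun i => (P i).O) hO D.arch
      (fun j => if j = i then ϖ i else 1) (fun j => by
        by_cases h : j = i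
        · rw [if_pos h]; exact D.unif_ne_zero i
        · rw [if_neg h]; exact one_ne_zero)
    refine ⟨x, ?_, fun j hj => ?_⟩
    · have := hx i
      rwa [if_pos rfl] at this
    · have := hx j
      rwa [if_neg hj, map_one] at this
  have hB : ∀ i (a : J i), ∃ x : F, x ∈ (P i).O ∧ (P i).redF x = β i a ∧
      ∀ j, j ≠ i → (P j).O.valuation x < (P j).O.valuation (algebraMap F' F π) := by
    intro i a
    obtain ⟨b₀, hb₀, hb₀'⟩ := (P i).exists_redF_eq (β i a)
    obtain ⟨x, hx⟩ := exists_approx (fun i => (P i).O) hO D.arch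
      (fun j => if j = i then b₀ else 0) (fun j => if j = i then 1 else algebraMap F' F π)
      (fun j => by
        by_cases h : j = i
        · rw [if_pos h]; exact one_ne_zero
        · rw [if_neg h]; exact (map_ne_zero _).2 D.pi_ne)
    have hi : (P i).O.valuation (x - b₀) < 1 := by
      have := hx i
      rwa [if_pos rfl, if_pos rfl, map_one] at this
    have hd : x - b₀ ∈ (P i).O := ((P i).O.valuation_le_one_iff _).1 hi.le
    have hmem : x ∈ (P i).O := by
      have := (P i).O.add_mem _ _ hd hb₀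
      rwa [sub_add_cancel] at this
    refine ⟨x, hmem, by rw [(P i).redF_eq_of_sub_lt hb₀ hi, hb₀'], fun j hj => ?_⟩
    have := hx j
    rwa [if_neg hj, if_neg hj, sub_zero] at this
  choose t ht1 ht2 using ht
  choose B hB1 hB2 hB3 using hB
  exact ⟨t, B, ht1, fun i j hj => ht2 i j hj, hB1, hB2, hB3⟩

/-- the family `B i a * t i ^ m` (`m < e i`) -/
def ramFrame (e : ι → ℕ) {J : ι → Type*} (t : ι → F) (B : ∀ i, J i → F) :
    (Σ i, J i × Fin (e i)) → F :=
  fun I => B I.1 I.2.1 * t I.1 ^ (I.2.2 : ℕ)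

end Ram

section Ram

variable {F' F : Type*} [Field F'] [Field F] [Algebra F' F]
variable {κ' : Type*} [Field κ']
variable {ι : Type*} [Fintype ι] [DecidableEq ι]
variable {κ : ι → Type*} [∀ i, Field (κ i)] [∀ i, Algebra κ' (κ i)]
variable {P' : Place F' κ'} {π : F'} {P : ∀ i, Place F (κ i)} {ϖ : ι → F} {e : ι → ℕ}
variable {J : ι → Type*} {β : ∀ i, J i → κ i} {t : ι → F} {B : ∀ i, J i → F}

namespace IsRamFrame

variable (D : RamDatum P' π P ϖ e) (hf : IsRamFrame π P ϖ β t B)
include D hf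

theorem t_ne_zero (i : ι) : t i ≠ 0 := by
  rw [← Valuation.ne_zero_iff (P i).O.valuation, hf.t_self i]
  exact ne_of_gt (D.unif_pos i)

theorem val_B_le (i : ι) (a : J i) : (P i).O.valuation (B i a) ≤ 1 :=
  ((P i).O.valuation_le_one_iff _).2 (hf.B_mem i a)

/-- term at another place -/
theorem val_term_other {i j : ι} (hij : i ≠ j) (a : J i) (m : ℕ) {d : F'}
    (hd : P'.O.valuation d ≤ 1) {k : ℕ} (hk : k ≤ e j) :
    (P j).O.valuation (d • (B i a * t i ^ m)) < (P j).O.valuation (ϖ j) ^ k := by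
  rw [Algebra.smul_def, map_mul, map_mul, map_pow, hf.t_other i j (Ne.symm hij), one_pow, mul_one]
  have h1 : (P j).O.valuation (B i a) < (P j).O.valuation (ϖ j) ^ e j := by
    rw [← D.ram j]
    exact hf.B_other i a j (Ne.symm hij)
  have h2 : (P j).O.valuation (ϖ j) ^ e j ≤ (P j).O.valuation (ϖ j) ^ k :=
    pow_le_pow_of_le_one zero_le (D.unif_lt j).le hk
  exact mul_lt_of_le_one_of_lt ((D.liesOver j).val_le_one hd) (lt_of_lt_of_le h1 h2)

/-- term at the same place, lower exponent, coefficient in `𝔪'` -/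
theorem val_term_lt (j : ι) (a : J j) (m : ℕ) {k : ℕ} (hk : k < e j) {d : F'}
    (hd : P'.O.valuation d < 1) :
    (P j).O.valuation (d • (B j a * t j ^ m)) < (P j).O.valuation (ϖ j) ^ k := by
  rw [Algebra.smul_def, map_mul, map_mul, map_pow, hf.t_self j]
  have h1 := D.val_le_of_lt j hd
  have h2 := hf.val_B_le D j a
  calc (P j).O.valuation (algebraMap F' F d) * ((P j).O.valuation (B j a) *
        (P j).O.valuation (ϖ j) ^ m)
      ≤ (P j).O.valuation (ϖ j) ^ e j * (1 * (P j).O.valuation (ϖ j) ^ m) :=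
        mul_le_mul' h1 (mul_le_mul' h2 le_rfl)
    _ = (P j).O.valuation (ϖ j) ^ (e j + m) := by rw [one_mul, pow_add]
    _ < (P j).O.valuation (ϖ j) ^ k :=
        pow_lt_pow_right_of_lt_one₀ (D.unif_pos j) (D.unif_lt j) (by omega)

/-- term at the same place, higher exponent -/
theorem val_term_gt (j : ι) (a : J j) {m k : ℕ} (hmk : k < m) {d : F'}
    (hd : P'.O.valuation d ≤ 1) :
    (P j).O.valuation (d • (B j a * t j ^ m)) < (P j).O.valuation (ϖ j) ^ k := by
  rw [Algebra.smul_def, map_mul, map_mul, map_pow, hf.t_self j]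
  have h1 := (D.liesOver j).val_le_one hd
  have h2 := hf.val_B_le D j a
  calc (P j).O.valuation (algebraMap F' F d) * ((P j).O.valuation (B j a) *
        (P j).O.valuation (ϖ j) ^ m)
      ≤ 1 * (1 * (P j).O.valuation (ϖ j) ^ m) := mul_le_mul' h1 (mul_le_mul' h2 le_rfl)
    _ = (P j).O.valuation (ϖ j) ^ m := by rw [one_mul, one_mul]
    _ < (P j).O.valuation (ϖ j) ^ k :=
        pow_lt_pow_right_of_lt_one₀ (D.unif_pos j) (D.unif_lt j) hmk

end IsRamFrame

end Ram

section Ram

variable {F' F : Type*} [Field F'] [Field F] [Algebra F' F]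
variable {κ' : Type*} [Field κ']
variable {ι : Type*} [Fintype ι] [DecidableEq ι]
variable {κ : ι → Type*} [∀ i, Field (κ i)] [∀ i, Algebra κ' (κ i)]
variable {P' : Place F' κ'} {π : F'} {P : ∀ i, Place F (κ i)} {ϖ : ι → F} {e : ι → ℕ}
variable {J : ι → Type*} [∀ i, Fintype (J i)] {β : ∀ i, J i → κ i} {t : ι → F}
  {B : ∀ i, J i → F}

namespace IsRamFrame

variable (D : RamDatum P' π P ϖ e) (hf : IsRamFrame π P ϖ β t B)
include D hf

/-- **Expansion at the place `j`, level `k`**: if the coefficients of level `< k` at `j` are in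
`𝔪'`, the combination is `t j ^ k * (Σ_a d (j,a,k) • B j a)` modulo `t j ^ (k+1)`. -/
theorem val_sum_sub_lt (j : ι) (k : Fin (e j)) (d : (Σ i, J i × Fin (e i)) → F')
    (hd : ∀ I, P'.O.valuation (d I) ≤ 1)
    (hlow : ∀ (a : J j) (m : Fin (e j)), m < k → P'.O.valuation (d ⟨j, a, m⟩) < 1) :
    (P j).O.valuation ((∑ I, d I • ramFrame e t B I) -
        (∑ a, d ⟨j, a, k⟩ • B j a) * t j ^ (k : ℕ)) < (P j).O.valuation (ϖ j) ^ (k : ℕ) := by
  have hmain : (∑ a, d ⟨j, a, k⟩ • B j a) * t j ^ (k : ℕ) =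
      ∑ a, d ⟨j, a, k⟩ • ramFrame e t B ⟨j, a, k⟩ := by
    rw [Finset.sum_mul]
    refine Finset.sum_congr rfl fun a _ => ?_
    rw [smul_mul_assoc]
    rfl
  have hsplit : (∑ I, d I • ramFrame e t B I) =
      (∑ a, d ⟨j, a, k⟩ • ramFrame e t B ⟨j, a, k⟩) +
        ((∑ a, ∑ m ∈ Finset.univ.erase k, d ⟨j, a, m⟩ • ramFrame e t B ⟨j, a, m⟩) +
          ∑ i ∈ Finset.univ.erase j, ∑ p : J i × Fin (e i),
            d ⟨i, p⟩ • ramFrame e t B ⟨i, p⟩) := by
    rw [Fintype.sum_sigma, ← Finset.add_sum_erase Finset.univ _ (Finset.mem_univ j),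
      Fintype.sum_prod_type, ← add_assoc, ← Finset.sum_add_distrib]
    congr 1
    refine Finset.sum_congr rfl fun a _ => ?_
    exact (Finset.add_sum_erase Finset.univ
      (fun m => d ⟨j, a, m⟩ • ramFrame e t B ⟨j, a, m⟩) (Finset.mem_univ k)).symm
  rw [hmain, hsplit, add_sub_cancel_left]
  have hg : (P j).O.valuation (ϖ j) ^ (k : ℕ) ≠ 0 := pow_ne_zero _ (ne_of_gt (D.unif_pos j))
  refine Valuation.map_add_lt _ (Valuation.map_sum_lt _ hg fun a _ =>
    Valuation.map_sum_lt _ hg fun m hm => ?_) (Valuation.map_sum_lt _ hg fun i hi =>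
    Valuation.map_sum_lt _ hg fun p _ => ?_)
  · have hmk : m ≠ k := (Finset.mem_erase.1 hm).1
    rcases lt_or_gt_of_ne hmk with h | h
    · exact hf.val_term_lt D j a m k.2 (hlow a m h)
    · exact hf.val_term_gt D j a (Fin.lt_def.1 h) (hd _)
  · have hij : i ≠ j := (Finset.mem_erase.1 hi).1
    exact hf.val_term_other D hij p.1 p.2 (hd _) k.2.le

end IsRamFrame

end Ram

section Ram

variable {F' F : Type*} [Field F'] [Field F] [Algebra F' F]
variable {κ' : Type*} [Field κ']
variable {ι : Type*} [Fintype ι] [DecidableEq ι]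
variable {κ : ι → Type*} [∀ i, Field (κ i)] [∀ i, Algebra κ' (κ i)]
variable {P' : Place F' κ'} {π : F'} {P : ∀ i, Place F (κ i)} {ϖ : ι → F} {e : ι → ℕ}
variable {J : ι → Type*} [∀ i, Fintype (J i)] {β : ∀ i, J i → κ i} {t : ι → F}
  {B : ∀ i, J i → F}

namespace IsRamFrame

variable (D : RamDatum P' π P ϖ e) (hf : IsRamFrame π P ϖ β t B)
include D hf

/-- **Expansion, reduction form.** -/
theorem redF_sum_div (j : ι) (k : Fin (e j)) (d : (Σ i, J i × Fin (e i)) → F')
    (hd : ∀ I, P'.O.valuation (d I) ≤ 1)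
    (hlow : ∀ (a : J j) (m : Fin (e j)), m < k → P'.O.valuation (d ⟨j, a, m⟩) < 1) :
    (∑ I, d I • ramFrame e t B I) / t j ^ (k : ℕ) ∈ (P j).O ∧
      (P j).redF ((∑ I, d I • ramFrame e t B I) / t j ^ (k : ℕ)) =
        ∑ a, P'.redF (d ⟨j, a, k⟩) • β j a := by
  have hdO : ∀ I, d I ∈ P'.O := fun I => (P'.O.valuation_le_one_iff _).1 (hd I)
  have htk : t j ^ (k : ℕ) ≠ 0 := pow_ne_zero _ (hf.t_ne_zero D j)
  have hmem : ∀ a ∈ (Finset.univ : Finset (J j)), d ⟨j, a, k⟩ • B j a ∈ (P j).O := fun a _ =>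
    (D.liesOver j).smul_mem (hdO _) (hf.B_mem j a)
  have hmain_mem : ∑ a, d ⟨j, a, k⟩ • B j a ∈ (P j).O := (P j).O.sum_mem hmem
  have hmain_red : (P j).redF (∑ a, d ⟨j, a, k⟩ • B j a) =
      ∑ a, P'.redF (d ⟨j, a, k⟩) • β j a := by
    rw [(P j).redF_sum _ _ hmem]
    refine Finset.sum_congr rfl fun a _ => ?_
    rw [(D.liesOver j).redF_smul (hdO _) (hf.B_mem j a), hf.B_red j a]
  have hlt : (P j).O.valuation ((∑ I, d I • ramFrame e t B I) / t j ^ (k : ℕ) -
      ∑ a, d ⟨j, a, k⟩ • B j a) < 1 := by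
    have h1 := hf.val_sum_sub_lt D j k d hd hlow
    have h2 : (∑ I, d I • ramFrame e t B I) / t j ^ (k : ℕ) - ∑ a, d ⟨j, a, k⟩ • B j a =
        ((∑ I, d I • ramFrame e t B I) - (∑ a, d ⟨j, a, k⟩ • B j a) * t j ^ (k : ℕ)) /
          t j ^ (k : ℕ) := by
      field_simp
    rw [h2, map_div₀, map_pow, hf.t_self j,
      div_lt_one₀ (pow_pos (D.unif_pos j) _)]
    exact h1
  have hd' : (∑ I, d I • ramFrame e t B I) / t j ^ (k : ℕ) - ∑ a, d ⟨j, a, k⟩ • B j a ∈
      (P j).O := ((P j).O.valuation_le_one_iff _).1 hlt.le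
  refine ⟨?_, ?_⟩
  · have := (P j).O.add_mem _ _ hd' hmain_mem
    rwa [sub_add_cancel] at this
  · rw [(P j).redF_eq_of_sub_lt hmain_mem hlt, hmain_red]

/-- **Filtered orthogonality.** -/
theorem coeff_lt_of_val_le (j : ι) (hβ : LinearIndependent κ' (β j))
    (d : (Σ i, J i × Fin (e i)) → F') (hd : ∀ I, P'.O.valuation (d I) ≤ 1) {k : ℕ}
    (hx : (P j).O.valuation (∑ I, d I • ramFrame e t B I) ≤ (P j).O.valuation (ϖ j) ^ k) :
    ∀ (m : Fin (e j)), (m : ℕ) < k → ∀ a : J j, P'.O.valuation (d ⟨j, a, m⟩) < 1 := by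
  have hdO : ∀ I, d I ∈ P'.O := fun I => (P'.O.valuation_le_one_iff _).1 (hd I)
  have key : ∀ n : ℕ, ∀ m : Fin (e j), (m : ℕ) < n → (m : ℕ) < k →
      ∀ a : J j, P'.O.valuation (d ⟨j, a, m⟩) < 1 := by
    intro n
    induction n with
    | zero => intro m hm; exact absurd hm (Nat.not_lt_zero _)
    | succ n ih =>
      intro m hmn hmk a
      have hlow : ∀ (a : J j) (m' : Fin (e j)), m' < m → P'.O.valuation (d ⟨j, a, m'⟩) < 1 :=
        fun a m' hm' => ih m' (lt_of_lt_of_le (Fin.lt_def.1 hm') (Nat.lt_succ_iff.1 hmn))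
          (lt_trans (Fin.lt_def.1 hm') hmk) a
      obtain ⟨h1, h2⟩ := hf.redF_sum_div D j m d hd hlow
      have hlt : (P j).O.valuation ((∑ I, d I • ramFrame e t B I) / t j ^ (m : ℕ)) < 1 := by
        rw [map_div₀, map_pow, hf.t_self j, div_lt_one₀ (pow_pos (D.unif_pos j) _)]
        exact lt_of_le_of_lt hx (pow_lt_pow_right_of_lt_one₀ (D.unif_pos j) (D.unif_lt j) hmk)
      rw [(P j).redF_eq_zero_of_lt hlt] at h2
      have h3 := Fintype.linearIndependent_iff.1 hβ _ h2.symm a
      exact (P'.redF_eq_zero_iff (hdO _)).1 h3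
  intro m hm a
  exact key (m + 1) m (Nat.lt_succ_self _) hm a

/-- **Orthogonality**: an integral combination lying in `π R` has all coefficients in `𝔪'`. -/
theorem coeff_lt_one (hβ : ∀ j, LinearIndependent κ' (β j))
    (d : (Σ i, J i × Fin (e i)) → F') (hd : ∀ I, P'.O.valuation (d I) ≤ 1)
    (hx : ∀ j, (P j).O.valuation (∑ I, d I • ramFrame e t B I) ≤
      (P j).O.valuation (algebraMap F' F π)) :
    ∀ I, P'.O.valuation (d I) < 1 := by
  rintro ⟨j, a, m⟩
  have := hx j
  rw [D.ram j] at this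
  exact hf.coeff_lt_of_val_le D j (hβ j) d hd this m m.2 a

/-- a ramified frame of linearly independent families is linearly independent over `F'` -/
theorem linearIndependent (hβ : ∀ j, LinearIndependent κ' (β j)) :
    LinearIndependent F' (ramFrame e t B) := by
  rw [Fintype.linearIndependent_iff]
  intro c hsum
  by_contra hne
  push Not at hne
  have hc : c ≠ 0 := by
    obtain ⟨I, hI⟩ := hne
    exact fun h => hI (congrFun h I)
  obtain ⟨I₀, hI₀, hdiv⟩ := exists_max_coeff P'.O c hc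
  have hd : ∀ I, P'.O.valuation (c I / c I₀) ≤ 1 := fun I =>
    (P'.O.valuation_le_one_iff _).2 (hdiv I)
  have hzero : ∑ I, (c I / c I₀) • ramFrame e t B I = 0 := by
    have : ∑ I, (c I / c I₀) • ramFrame e t B I = (c I₀)⁻¹ • ∑ I, c I • ramFrame e t B I := by
      rw [Finset.smul_sum]
      refine Finset.sum_congr rfl fun I _ => ?_
      rw [smul_smul, div_eq_inv_mul]
    rw [this, hsum, smul_zero]
  have := hf.coeff_lt_one D hβ (fun I => c I / c I₀) hd (fun j => by
    rw [hzero, map_zero]; exact zero_le) I₀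
  rw [div_self hI₀, map_one] at this
  exact lt_irrefl _ this

/-- **Integrality of coordinates**: the coordinates of an element of `R = ∩ O_j` in a ramified
frame are `O'`-integral. -/
theorem coeff_le_one (hβ : ∀ j, LinearIndependent κ' (β j))
    (c : (Σ i, J i × Fin (e i)) → F')
    (hx : ∀ j, (P j).O.valuation (∑ I, c I • ramFrame e t B I) ≤ 1) :
    ∀ I, P'.O.valuation (c I) ≤ 1 := by
  rcases eq_or_ne c 0 with rfl | hc
  · intro I
    simp
  obtain ⟨I₀, hI₀, hdiv⟩ := exists_max_coeff P'.O c hc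
  have hd : ∀ I, P'.O.valuation (c I / c I₀) ≤ 1 := fun I =>
    (P'.O.valuation_le_one_iff _).2 (hdiv I)
  have hγ : P'.O.valuation (c I₀) ≤ 1 := by
    by_contra hnot
    have hgt : 1 < P'.O.valuation (c I₀) := not_le.1 hnot
    have hinv : P'.O.valuation (c I₀)⁻¹ < 1 := by
      rw [map_inv₀]
      exact inv_lt_one_of_one_lt₀ hgt
    have hsum : ∑ I, (c I / c I₀) • ramFrame e t B I =
        (c I₀)⁻¹ • ∑ I, c I • ramFrame e t B I := by
      rw [Finset.smul_sum]
      refine Finset.sum_congr rfl fun I _ => ?_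
      rw [smul_smul, div_eq_inv_mul]
    have := hf.coeff_lt_one D hβ (fun I => c I / c I₀) hd (fun j => by
      rw [hsum, Algebra.smul_def, map_mul]
      calc (P j).O.valuation (algebraMap F' F (c I₀)⁻¹) *
            (P j).O.valuation (∑ I, c I • ramFrame e t B I)
          ≤ (P j).O.valuation (algebraMap F' F π) * 1 :=
            mul_le_mul' ((D.liesOver j).val_le D.pi_ne (D.pi_gen _ hinv)) (hx j)
        _ = (P j).O.valuation (algebraMap F' F π) := mul_one _) I₀
    rw [div_self hI₀, map_one] at this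
    exact lt_irrefl _ this
  intro I
  have : c I = c I / c I₀ * c I₀ := by field_simp
  rw [this, map_mul]
  exact mul_le_one' (hd I) hγ

end IsRamFrame

end Ram

/-- The determinant of an `O`-integral matrix is integral and reduces to the determinant of
the reduced matrix. -/
theorem Place.det_mem_and_redF_det {F : Type*} [Field F] {κ : Type*} [Field κ] (P : Place F κ)
    {n : Type*} [Fintype n] [DecidableEq n] (M : Matrix n n F) (hM : ∀ i j, M i j ∈ P.O) :
    M.det ∈ P.O ∧ P.redF M.det = (M.map P.redF).det := by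
  let M' : Matrix n n P.O := fun i j => ⟨M i j, hM i j⟩
  have h1 : M = P.O.subtype.mapMatrix M' := by ext i j; rfl
  have h2 : M.det = P.O.subtype M'.det := by rw [h1, ← RingHom.map_det]
  have hmem : M.det ∈ P.O := by rw [h2]; exact M'.det.2
  refine ⟨hmem, ?_⟩
  have h3 : P.redF M.det = P.red M'.det := by
    rw [P.redF_of_mem hmem]
    congr 1
    exact Subtype.ext h2
  have h4 : M.map P.redF = P.red.mapMatrix M' := by
    ext i j
    simp only [Matrix.map_apply, RingHom.mapMatrix_apply]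
    exact P.redF_of_mem (hM i j)
  rw [h3, h4, ← RingHom.map_det]

section Ram

variable {F' F : Type*} [Field F'] [Field F] [Algebra F' F]
variable {κ' : Type*} [Field κ']
variable {ι : Type*} [Fintype ι] [DecidableEq ι]
variable {κ : ι → Type*} [∀ i, Field (κ i)] [∀ i, Algebra κ' (κ i)]
variable {P' : Place F' κ'} {π : F'} {P : ∀ i, Place F (κ i)} {ϖ : ι → F} {e : ι → ℕ}
variable {J : ι → Type*} [∀ i, Fintype (J i)] {β : ∀ i, J i → κ i} {t : ι → F}
  {B : ∀ i, J i → F}

namespace IsRamFrame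

variable (D : RamDatum P' π P ϖ e) (hf : IsRamFrame π P ϖ β t B)
include D hf

/-- the frame elements at their own place -/
theorem val_ramFrame_self (i : ι) (a : J i) (m : Fin (e i)) :
    (P i).O.valuation (ramFrame e t B ⟨i, a, m⟩) ≤ (P i).O.valuation (ϖ i) ^ (m : ℕ) := by
  show (P i).O.valuation (B i a * t i ^ (m : ℕ)) ≤ _
  rw [map_mul, map_pow, hf.t_self i]
  exact mul_le_of_le_one_left' (hf.val_B_le D i a)

/-- the frame elements at the other places -/
theorem val_ramFrame_other {i j : ι} (hij : i ≠ j) (a : J i) (m : Fin (e i)) :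
    (P j).O.valuation (ramFrame e t B ⟨i, a, m⟩) < (P j).O.valuation (algebraMap F' F π) := by
  show (P j).O.valuation (B i a * t i ^ (m : ℕ)) < _
  rw [map_mul, map_pow, hf.t_other i j (Ne.symm hij), one_pow, mul_one]
  exact hf.B_other i a j (Ne.symm hij)

theorem val_ramFrame_le_one (I : Σ i, J i × Fin (e i)) (j : ι) :
    (P j).O.valuation (ramFrame e t B I) ≤ 1 := by
  obtain ⟨i, a, m⟩ := I
  by_cases hij : i = j
  · subst hij
    exact le_trans (hf.val_ramFrame_self D i a m) (pow_le_one₀ zero_le (D.unif_lt i).le)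
  · exact le_trans (hf.val_ramFrame_other D hij a m).le (D.val_pi_lt j).le

end IsRamFrame

end Ram

section Ram

variable {F' F : Type*} [Field F'] [Field F] [Algebra F' F]
variable {κ' : Type*} [Field κ']
variable {ι : Type*} [Fintype ι] [DecidableEq ι]
variable {κ : ι → Type*} [∀ i, Field (κ i)] [∀ i, Algebra κ' (κ i)]
variable {P' : Place F' κ'} {π : F'} {P : ∀ i, Place F (κ i)} {ϖ : ι → F} {e : ι → ℕ}

/-- **NORM–REDUCTION WITH RAMIFICATION.**  For `u ∈ ∩ O_i` (not necessarily a unit) the norm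
`N_{F/F'} u` is `O'`-integral and
`red' (N u) = ∏_i N_{κ_i/κ'} (red_i u) ^ e_i`. -/
theorem RamDatum.redF_norm [FiniteDimensional F' F] [∀ i, Module.Finite κ' (κ i)]
    (D : RamDatum P' π P ϖ e)
    (hdeg : ∑ i, e i * Module.finrank κ' (κ i) = Module.finrank F' F)
    {u : F} (hu : ∀ i, u ∈ (P i).O) :
    Algebra.norm F' u ∈ P'.O ∧
      P'.redF (Algebra.norm F' u) = ∏ i, Algebra.norm κ' ((P i).redF u) ^ e i := by
  classical
  set Bas := fun i => Module.Free.chooseBasis κ' (κ i) with hBas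
  obtain ⟨t, B, hf⟩ := D.exists_isRamFrame (fun i => ⇑(Bas i))
  have hβ : ∀ j, LinearIndependent κ' (⇑(Bas j)) := fun j => (Bas j).linearIndependent
  have hli := hf.linearIndependent D hβ
  have hcard : Fintype.card (Σ i, Module.Free.ChooseBasisIndex κ' (κ i) × Fin (e i)) =
      Module.finrank F' F := by
    rw [Fintype.card_sigma, ← hdeg]
    refine Finset.sum_congr rfl fun i _ => ?_
    rw [Fintype.card_prod, Fintype.card_fin, ← Module.finrank_eq_card_chooseBasisIndex, mul_comm]
  have hnonempty : Nonempty (Σ i, Module.Free.ChooseBasisIndex κ' (κ i) × Fin (e i)) := by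
    rw [← Fintype.card_pos_iff, hcard]
    exact Module.finrank_pos
  set Bs := basisOfLinearIndependentOfCardEqFinrank hli hcard with hBsdef
  have hBs : ∀ I, Bs I = ramFrame e t B I := fun I => by
    rw [hBsdef, coe_basisOfLinearIndependentOfCardEqFinrank]
  set M := Algebra.leftMulMatrix Bs u with hMdef
  have hexp : ∀ Jc, ∑ I, M I Jc • ramFrame e t B I = u * ramFrame e t B Jc := by
    intro Jc
    have := Bs.sum_repr (u * Bs Jc)
    simp only [hBs] at this
    rw [← this]
    refine Finset.sum_congr rfl fun I _ => ?_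
    rw [hMdef, Algebra.leftMulMatrix_eq_repr_mul, hBs]
  have huv : ∀ j, (P j).O.valuation u ≤ 1 := fun j => ((P j).O.valuation_le_one_iff _).2 (hu j)
  -- integrality of the matrix
  have hM : ∀ I Jc, P'.O.valuation (M I Jc) ≤ 1 := fun I Jc =>
    hf.coeff_le_one D hβ (fun I => M I Jc) (fun j => by
      rw [hexp, map_mul]
      exact mul_le_one' (huv j) (hf.val_ramFrame_le_one D Jc j)) I
  have hMO : ∀ I Jc, M I Jc ∈ P'.O := fun I Jc => (P'.O.valuation_le_one_iff _).1 (hM I Jc)
  -- (i) off-diagonal blocks vanish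
  have hoff : ∀ (i' i : ι) (p' : _ × Fin (e i')) (p : _ × Fin (e i)), i' ≠ i →
      P'.redF (M ⟨i', p'⟩ ⟨i, p⟩) = 0 := by
    intro i' i p' p hne
    apply P'.redF_eq_zero_of_lt
    refine hf.coeff_lt_of_val_le D i' (hβ i') (fun I => M I ⟨i, p⟩) (fun I => hM I _)
      (k := e i') ?_ p'.2 p'.2.2 p'.1
    rw [hexp, map_mul, ← D.ram i']
    exact mul_le_of_le_one_of_le (huv i') (hf.val_ramFrame_other D (Ne.symm hne) p.1 p.2).le
  -- (ii) within a block: lower levels vanish
  have hlow : ∀ (i : ι) (a' a : _) (m' m : Fin (e i)), m' < m →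
      P'.O.valuation (M ⟨i, a', m'⟩ ⟨i, a, m⟩) < 1 := by
    intro i a' a m' m hlt
    refine hf.coeff_lt_of_val_le D i (hβ i) (fun I => M I ⟨i, a, m⟩) (fun I => hM I _)
      (k := (m : ℕ)) ?_ m' (Fin.lt_def.1 hlt) a'
    rw [hexp, map_mul]
    exact mul_le_of_le_one_of_le (huv i) (hf.val_ramFrame_self D i a m)
  -- (iii) diagonal blocks
  have hdiag : ∀ (i : ι) (a' a : _) (m : Fin (e i)),
      P'.redF (M ⟨i, a', m⟩ ⟨i, a, m⟩) =
        Algebra.leftMulMatrix (Bas i) ((P i).redF u) a' a := by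
    intro i a' a m
    obtain ⟨-, h2⟩ := hf.redF_sum_div D i m (fun I => M I ⟨i, a, m⟩) (fun I => hM I _)
      (fun a'' m' hlt => hlow i a'' a m' m hlt)
    have htm : t i ^ (m : ℕ) ≠ 0 := pow_ne_zero _ (hf.t_ne_zero D i)
    have hquot : (u * ramFrame e t B ⟨i, a, m⟩) / t i ^ (m : ℕ) = u * B i a := by
      show (u * (B i a * t i ^ (m : ℕ))) / t i ^ (m : ℕ) = u * B i a
      field_simp
    rw [hexp, hquot, (P i).redF_mul (hu i) (hf.B_mem i a), hf.B_red i a] at h2
    rw [Algebra.leftMulMatrix_eq_repr_mul, h2, (Bas i).repr_sum_self]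
  -- determinant
  obtain ⟨hdet_mem, hdet_red⟩ := P'.det_mem_and_redF_det M hMO
  rw [Algebra.norm_eq_matrix_det Bs u]
  refine ⟨hdet_mem, ?_⟩
  rw [hdet_red, det_sigma_block (M.map P'.redF) (fun i' i p' p hne => by
    rw [Matrix.map_apply]; exact hoff i' i p' p hne)]
  refine Finset.prod_congr rfl fun i _ => ?_
  rw [Algebra.norm_eq_matrix_det (Bas i)]
  refine det_of_block_lower (e i) _ _ (fun a' m' a m hlt => ?_) (fun a' a m => ?_)
  · exact P'.redF_eq_zero_of_lt (hlow i a' a m' m hlt)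
  · exact hdiag i a' a m

end Ram

end Fermat.Agent.S36lib.Norm
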